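/-
S55 / block BR : the cyclotomic character modulo an arbitrary `n` (definitions only).
-/
import Mathlib
import Fermat.Prelude.Def_FLTPrelim_Ramification
import Fermat.Prelude.Def_EllipticCurve_FrobeniusTrace

set_option autoImplicit false

namespace Fermat.Agent.S55.BR

local notation "Qbar" => AlgebraicClosure ℚ
local notation "GQ" => (AlgebraicClosure ℚ ≃ₐ[ℚ] AlgebraicClosure ℚ)

theorem card_rootsOfUnity (n : ℕ) [NeZero n] : Nat.card (rootsOfUnity n Qbar) = n :=
  haveI : NeZero (n : Qbar) := ⟨Nat.cast_ne_zero.mpr (NeZero.ne n)⟩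
  HasEnoughRootsOfUnity.natCard_rootsOfUnity Qbar n

/-- The cyclotomic character modulo `n`. -/
noncomputable def cycN (n : ℕ) [NeZero n] : GQ →* (ZMod n)ˣ :=
  (modularCyclotomicCharacter Qbar (card_rootsOfUnity n)).comp
    (MulSemiringAction.toRingAut GQ Qbar)

/-- The subgroup of `m`-th powers in `(ℤ/r)ˣ`. -/
def powSub (r m : ℕ) : Subgroup (ZMod r)ˣ := (powMonoidHom m : (ZMod r)ˣ →* (ZMod r)ˣ).range

/-- The `G_ℚ`-set `(ℤ/r)ˣ / (m-th powers)`; it is `Emb` of the subfield of `ℚ(ζ_r)` fixed by the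
`m`-th powers. -/
def XCyc (r m : ℕ) : Type := (ZMod r)ˣ ⧸ powSub r m

noncomputable instance (r m : ℕ) : CommGroup (XCyc r m) :=
  inferInstanceAs (CommGroup ((ZMod r)ˣ ⧸ powSub r m))

/-- The class of a unit. -/
def XCyc.mk (r m : ℕ) : (ZMod r)ˣ →* XCyc r m := QuotientGroup.mk' (powSub r m)

noncomputable instance (r m : ℕ) [NeZero r] : MulAction GQ (XCyc r m) where
  smul g x := XCyc.mk r m (cycN r g) * x
  one_smul x := by
    show XCyc.mk r m (cycN r 1) * x = x
    rw [map_one, map_one, one_mul]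
  mul_smul g h x := by
    show XCyc.mk r m (cycN r (g * h)) * x = XCyc.mk r m (cycN r g) * (XCyc.mk r m (cycN r h) * x)
    rw [map_mul, map_mul, mul_assoc]

theorem XCyc.smul_def (r m : ℕ) [NeZero r] (g : GQ) (x : XCyc r m) :
    g • x = XCyc.mk r m (cycN r g) * x := rfl

end Fermat.Agent.S55.BR
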