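/-
S55 / block BR : DEFINITIONS of the cohomological part (Brauer groups `H^2(Map(X, ℚ̄ˣ))`).
* `locAll A q n`      : localisation `H^n(A) → H^n_q(A)` for the full level system `lvlAll`;
* `locOrb q x₀`, `orbSum A q X x₀`, `invAt`, `invTot` : sums over the orbits of the local group;
* `PChain p N U`      : chains of normal steps of index `p`;
* `BRInput p`         : everything that BR consumes from LOC, DICT/NIT and Hilbert 90.
Definitions only.
-/
import Fermat.Agent.S55.Formal.Contract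
import Fermat.Agent.S55.Coh.Theta
import Fermat.Agent.S55.Coh.ThetaRes
import Fermat.Agent.S55.Coh.ShapiroDef
import Fermat.Agent.S55.Dict.Defs
import Fermat.Agent.S55.Loc.Coh.CupDefs
import Fermat.Agent.S55.Arith.Smooth
import Fermat.Agent.S55.BR.CycDefs
import Fermat.Prelude.Def_EllipticCurve_FrobeniusTrace

set_option autoImplicit false

namespace Fermat.Agent.S55

open Dict (invD)

/-- The chosen place of `ℚ̄` over `q` (its decomposition group is the range of `ιv q`). -/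
noncomputable abbrev Av (q : Nat.Primes) : ValuationSubring Qb := ExtCitation.primeLocalPlace q

/-- The image of the local Galois group in `GQ`. -/
noncomputable abbrev Dv (q : Nat.Primes) : Subgroup GQ := (ιv q).range

/-- The localisation map `H^n(A) → H^n_q(A)` (full level system). -/
noncomputable def locAll (A : Type) [AddCommGroup A] [DistribMulAction GQ A] (q : Nat.Primes)
    (n : ℕ) : Hsm lvlAll A n →+ Hloc q A n :=
  Hsm.res A (ιv q) (lvlLoc q) lvlAll (LevelSys.Le.refl _) n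

theorem finite_coset {U : Subgroup GQ} (hU : lvlAll.IsOpen U) : Finite (GQ ⧸ U) := by
  have := hU.finiteIndex
  exact Subgroup.finite_quotient_of_finiteIndex

theorem smoothSet_coset {U : Subgroup GQ} (hU : lvlAll.IsOpen U) : SmoothSet lvlAll (GQ ⧸ U) :=
  SmoothSet.quotient lvlAll hU

/-! ### Orbits of the local group -/

/-- The orbit of `x₀` under the local Galois group at `q`. -/
def locOrb (q : Nat.Primes) {X : Type} [MulAction GQ X] (x₀ : X) : Set X :=
  {x | ∃ h : Gv q, ιv q h • x₀ = x}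

theorem mem_locOrb {q : Nat.Primes} {X : Type} [MulAction GQ X] {x₀ x : X} :
    x ∈ locOrb q x₀ ↔ ∃ h : Gv q, ιv q h • x₀ = x := Iff.rfl

theorem smul_mem_locOrb {q : Nat.Primes} {X : Type} [MulAction GQ X] {x₀ x : X} (h : Gv q)
    (hx : x ∈ locOrb q x₀) : ιv q h • x ∈ locOrb q x₀ := by
  obtain ⟨k, rfl⟩ := hx
  exact ⟨h * k, by rw [map_mul, mul_smul]⟩

/-- The sum over the local orbit of `x₀`: a `G_q`-equivariant map `Map(X, A) → A`. -/
noncomputable def orbSum (A : Type) [AddCommGroup A] [DistribMulAction GQ A] (q : Nat.Primes)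
    (X : Type) [MulAction GQ X] [Finite X] (x₀ : X) :
    ResMod (ιv q) (IndMod X A) →+[Gv q] ResMod (ιv q) A where
  toFun F := ResMod.toRes (ιv q) (∑ᶠ x : locOrb q x₀, ((ResMod.toRes (ιv q)).symm F) x.1)
  map_smul' h F := by
    show ResMod.toRes (ιv q) (∑ᶠ x : locOrb q x₀, ((ResMod.toRes (ιv q)).symm (h • F)) x.1) =
      h • ResMod.toRes (ιv q) (∑ᶠ x : locOrb q x₀, ((ResMod.toRes (ιv q)).symm F) x.1)
    rw [ResMod.smul_def, ResMod.smul_def', AddEquiv.symm_apply_apply]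
    congr 1
    set f := (ResMod.toRes (ιv q)).symm F
    show ∑ᶠ x : locOrb q x₀, ιv q h • f ((ιv q h)⁻¹ • x.1) = ιv q h • ∑ᶠ x : locOrb q x₀, f x.1
    rw [smul_finsum' _ (Set.toFinite _)]
    let e : locOrb q x₀ ≃ locOrb q x₀ :=
      { toFun := fun x => ⟨(ιv q h)⁻¹ • x.1, by
          have := smul_mem_locOrb h⁻¹ x.2
          rwa [map_inv] at this⟩
        invFun := fun x => ⟨ιv q h • x.1, smul_mem_locOrb h x.2⟩
        left_inv := fun x => by simp
        right_inv := fun x => by simp }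
    exact finsum_comp_equiv e (f := fun x : locOrb q x₀ => ιv q h • f x.1)
  map_zero' := by
    show ResMod.toRes (ιv q) (∑ᶠ _x : locOrb q x₀, (0 : A)) = 0
    simp
  map_add' F F' := by
    show ResMod.toRes (ιv q) (∑ᶠ x : locOrb q x₀,
      (((ResMod.toRes (ιv q)).symm F) x.1 + ((ResMod.toRes (ιv q)).symm F') x.1)) = _
    rw [finsum_add_distrib (Set.toFinite _) (Set.toFinite _), map_add]

theorem orbSum_toRes (A : Type) [AddCommGroup A] [DistribMulAction GQ A] (q : Nat.Primes)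
    (X : Type) [MulAction GQ X] [Finite X] (x₀ : X) (f : IndMod X A) :
    orbSum A q X x₀ (ResMod.toRes (ιv q) f) =
      ResMod.toRes (ιv q) (∑ᶠ x : locOrb q x₀, f x.1) := rfl

/-- The invariant of the component of `y ∈ H^2_q(Map(X, ℚ̄ˣ))` at the local orbit of `x₀`. -/
noncomputable def invAt (inv : ∀ q : Nat.Primes, Hloc q Kx 2 →+ QZ) (q : Nat.Primes)
    (X : Type) [MulAction GQ X] [Finite X] (x₀ : X) : Hloc q (IndMod X Kx) 2 →+ QZ :=
  (inv q).comp (Hsm.map (orbSum Kx q X x₀) 2)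

/-- The total invariant `inv_{q,X} = inv_q ∘ (sum)_*` on `H^2_q(Map(X, ℚ̄ˣ))`. -/
noncomputable def invTot (inv : ∀ q : Nat.Primes, Hloc q Kx 2 →+ QZ) (q : Nat.Primes)
    (X : Type) [MulAction GQ X] [Finite X] : Hloc q (IndMod X Kx) 2 →+ QZ :=
  (inv q).comp (Hsm.map (ResMod.map (ιv q) (IndMod.sum X Kx)) 2)

/-- the local degree of `x'` over its image: the number of points of the local orbit of `x'` in the
fibre of `u` through `x'` -/
noncomputable def locDeg (q : Nat.Primes) {X' X : Type} [MulAction GQ X'] [MulAction GQ X]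
    (u : X' →[GQ] X) (x' : X') : ℕ :=
  Nat.card {z : X' // z ∈ locOrb q x' ∧ u z = u x'}

/-- A family of `p`-primary local classes, almost all zero, with sum of invariants zero. -/
structure Adm (p : ℕ) (inv : ∀ q : Nat.Primes, Hloc q Kx 2 →+ QZ) (X : Type) [MulAction GQ X]
    [Finite X] (y : ∀ q : Nat.Primes, Hloc q (IndMod X Kx) 2) : Prop where
  prim : ∀ q, y q ∈ pPrimary p (Hloc q (IndMod X Kx) 2)
  fin : {q | y q ≠ 0}.Finite
  sum : ∑ᶠ q : Nat.Primes, invTot inv q X (y q) = 0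

/-! ### The point and the sets `XCyc r m` -/

instance instSmoothSetPUnit : SmoothSet lvlAll PUnit where
  exists_fix _ := by
    obtain ⟨N, hN⟩ := lvlAll.nonempty
    exact ⟨N, hN, fun _ _ => rfl⟩

/-- the map to the point -/
def BR.XCyc.toPt (r m : ℕ) [NeZero r] : BR.XCyc r m →[GQ] PUnit where
  toFun _ := PUnit.unit
  map_smul' _ _ := rfl

/-- multiplication by `γ` -/
noncomputable def BR.XCyc.mulBy (r m : ℕ) [NeZero r] (γ : BR.XCyc r m) :
    BR.XCyc r m →[GQ] BR.XCyc r m where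
  toFun x := γ * x
  map_smul' g x := by
    show γ * (BR.XCyc.mk r m (BR.cycN r g) * x) = BR.XCyc.mk r m (BR.cycN r g) * (γ * x)
    exact mul_left_comm _ _ _

/-- `U ∩ Gal(ℚ̄/ℚ(μ_{p^M}))` -/
noncomputable def cycLayer (p : ℕ) [Fact p.Prime] (U : Subgroup GQ) (M : ℕ) : Subgroup GQ :=
  haveI : NeZero (p ^ M) := ⟨pow_ne_zero _ (Fact.out : p.Prime).ne_zero⟩
  U ⊓ (BR.cycN (p ^ M)).ker

theorem cycLayer_le (p : ℕ) [Fact p.Prime] (U : Subgroup GQ) (M : ℕ) : cycLayer p U M ≤ U :=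
  inf_le_left

/-! ### Chains -/

/-- `N ≤ U` are joined by a chain of subgroups, each normal of index `p` in the next one. -/
inductive PChain (p : ℕ) : Subgroup GQ → Subgroup GQ → Prop
  | refl (N : Subgroup GQ) : PChain p N N
  | step {N V U : Subgroup GQ} (h : PChain p N V) (hle : V ≤ U) (hidx : V.relIndex U = p)
      (hnorm : ∀ g ∈ U, ∀ v ∈ V, g⁻¹ * v * g ∈ V) : PChain p N U

/-! ### The rational numbers inside `H^0` -/

/-- The class of `a ∈ ℚˣ` in `ℚ̄ˣ`. -/
noncomputable def ratKx (a : ℚˣ) : Kx := Additive.ofMul (Units.map (algebraMap ℚ Qb : ℚ →* Qb) a)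

/-- The constant function with value `a ∈ ℚˣ`, as an element of `H^0(Map(X, ℚ̄ˣ))`. -/
noncomputable def ratH0 (X : Type) [MulAction GQ X] (a : ℚˣ) : Hsm lvlAll (IndMod X Kx) 0 :=
  Hsm.H0equiv.symm ⟨IndMod.const (G := GQ) X Kx (ratKx a), fun g => by
    rw [← map_smul (IndMod.const (G := GQ) X Kx)]
    congr 1
    apply Additive.toMul.injective
    apply Units.ext
    exact g.commutes (a : ℚ)⟩

/-! ### `H^0` in function language -/

/-- `H^0(Map(X, ℚ̄ˣ))` = the `GQ`-invariant functions. -/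
noncomputable def H0g (X : Type) [MulAction GQ X] : invD ⊤ X ≃+ Hsm lvlAll (IndMod X Kx) 0 :=
  AddEquiv.trans
    { toFun := fun f => (⟨f.1, fun g => f.2 g (Subgroup.mem_top g)⟩ : inv0 GQ (IndMod X Kx))
      invFun := fun a => ⟨a.1, fun g _ => a.2 g⟩
      left_inv := fun _ => rfl
      right_inv := fun _ => rfl
      map_add' := fun _ _ => rfl }
    Hsm.H0equiv.symm

/-- `H^0_q(Map(X, ℚ̄ˣ))` = the functions invariant under the image of the local Galois group. -/
noncomputable def H0l (q : Nat.Primes) (X : Type) [MulAction GQ X] :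
    invD (Dv q) X ≃+ Hloc q (IndMod X Kx) 0 :=
  AddEquiv.trans
    { toFun := fun f => (⟨ResMod.toRes (ιv q) f.1, fun h => by
        rw [ResMod.smul_def, f.2 _ ⟨h, rfl⟩]⟩ : inv0 (Gv q) (ResMod (ιv q) (IndMod X Kx)))
      invFun := fun a => ⟨(ResMod.toRes (ιv q)).symm a.1, by
        rintro _ ⟨h, rfl⟩
        have h1 := a.2 h
        rw [ResMod.smul_def'] at h1
        exact (ResMod.toRes (ιv q)).injective (h1.trans (AddEquiv.apply_symm_apply _ _).symm)⟩
      left_inv := fun _ => rfl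
      right_inv := fun _ => rfl
      map_add' := fun _ _ => rfl }
    Hsm.H0equiv.symm

/-- The local double connecting homomorphism of a cyclic cover of `GQ`-sets. -/
noncomputable def thetaLoc (q : Nat.Primes) {X' X : Type} [MulAction GQ X'] [MulAction GQ X]
    [Finite X'] [SmoothSet lvlAll X'] {u : X' →[GQ] X} {σ : X' →[GQ] X'} {m : ℕ}
    (h : CyclicCover u σ m) (n : ℕ) :
    Hloc q (IndMod X Kx) n →+ Hloc q (IndMod X Kx) (n + 2) :=
  ((h.fourTerm Kx).res (ιv q)).theta n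

/-! ### What BR consumes -/

/-- Hilbert 90, global form. -/
def H90Glob : Prop := ∀ (X : Type) [MulAction GQ X] [Finite X] [SmoothSet lvlAll X]
  (y : Hsm lvlAll (IndMod X Kx) 1), y = 0

/-- Hilbert 90, local form. -/
def H90Loc : Prop := ∀ (q : Nat.Primes) (X : Type) [MulAction GQ X] [Finite X]
  [SmoothSet lvlAll X] (y : Hloc q (IndMod X Kx) 1), y = 0

/-- `U' ≤ U` is a "Kummer step": `U'` open, normal of index `p` in `U`, and `U` fixes `μ_p`. -/
structure KStep (p : ℕ) (U' U : Subgroup GQ) : Prop where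
  le : U' ≤ U
  isOpen : lvlAll.IsOpen U'
  mu : ActsTrivially U (Mu p)
  norm : ∀ g ∈ U, ∀ v ∈ U', g⁻¹ * v * g ∈ U'
  idx : U'.relIndex U = p

/-- (N3) The Hasse norm theorem for Kummer steps, function form. -/
def HNT (p : ℕ) : Prop := ∀ (U' U : Subgroup GQ) (h : KStep p U' U) [Finite (GQ ⧸ U')]
  (a : IndMod (GQ ⧸ U) Kx), a ∈ invD ⊤ (GQ ⧸ U) →
  (∀ q : Nat.Primes, ∃ f ∈ invD (Dv q) (GQ ⧸ U'), IndMod.push Kx (cosetMap h.le) f = a) →
  ∃ b ∈ invD ⊤ (GQ ⧸ U'), IndMod.push Kx (cosetMap h.le) b = a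

/-- (N1) The second inequality for Kummer steps, function form: the group
`(⨁_q H^0_q(K_X)) / (global elements + local norms)` is generated by each of its nonzero elements
and killed by `p`; elementwise form. -/
def SecondIneq (p : ℕ) : Prop := ∀ (U' U : Subgroup GQ) (h : KStep p U' U) [Finite (GQ ⧸ U')]
  (b b' : Nat.Primes → IndMod (GQ ⧸ U) Kx),
  (∀ q, b q ∈ invD (Dv q) (GQ ⧸ U)) → (∀ q, b' q ∈ invD (Dv q) (GQ ⧸ U)) →
  {q | b q ≠ 0}.Finite → {q | b' q ≠ 0}.Finite →
  (¬ ∃ a ∈ invD ⊤ (GQ ⧸ U), ∀ q, ∃ f ∈ invD (Dv q) (GQ ⧸ U'),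
    b' q = a + IndMod.push Kx (cosetMap h.le) f) →
  ∃ j : ℕ, ∃ a ∈ invD ⊤ (GQ ⧸ U), ∀ q, ∃ f ∈ invD (Dv q) (GQ ⧸ U'),
    b q = j • b' q + a + IndMod.push Kx (cosetMap h.le) f

/-- (N5) Outside every finite set there is a prime with a nonsplit place. -/
def NonSplit (p : ℕ) : Prop := ∀ (U' U : Subgroup GQ) (h : KStep p U' U) (T₀ : Finset Nat.Primes),
  ∃ q : Nat.Primes, q ∉ T₀ ∧ ∃ x' : GQ ⧸ U', ∃ d ∈ Dv q, d • x' ≠ x' ∧
    cosetMap h.le (d • x') = cosetMap h.le x'

/-- (L3) The `p`-part of the local Brauer groups, in the language of LOC (coset spaces of the local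
group): `inv ∘ (sum)_*` is injective on the `p`-primary part, with image the `p`-primary part. -/
def LocBr (p : ℕ) (q : Nat.Primes) (inv : Hloc q Kx 2 →+ QZ) : Prop :=
  ∀ (V : Subgroup (Gv q)), (lvlLoc q).IsOpen V → ∀ [Finite (Gv q ⧸ V)],
    (∀ y ∈ pPrimary p (Hsm (lvlLoc q) (IndMod (Gv q ⧸ V) (ResMod (ιv q) Kx)) 2),
      inv (Hsm.map (IndMod.sum (Gv q ⧸ V) (ResMod (ιv q) Kx)) 2 y) = 0 → y = 0) ∧
    (∀ c ∈ pPrimary p QZ,
      ∃ y ∈ pPrimary p (Hsm (lvlLoc q) (IndMod (Gv q ⧸ V) (ResMod (ιv q) Kx)) 2),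
        inv (Hsm.map (IndMod.sum (Gv q ⧸ V) (ResMod (ιv q) Kx)) 2 y) = c)

/-- (L6) The unramified symbol over the point: `X' → pt` a cyclic cover of degree `m` on which the
inertia group at `q` acts trivially and a Frobenius acts as `σ^k`. -/
def UnramSymbol (inv : ∀ q : Nat.Primes, Hloc q Kx 2 →+ QZ) (sgn : ℤ) : Prop :=
  ∀ (q : Nat.Primes) (X' : Type) [MulAction GQ X'] [Finite X'] [SmoothSet lvlAll X']
    (u : X' →[GQ] PUnit) (σ : X' →[GQ] X') (m : ℕ) (h : CyclicCover u σ m) (k : ℕ) (φ : GQ),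
    (∀ τ ∈ (Av q).inertiaSubgroupIn ℚ, ∀ x : X', τ • x = x) →
    (Av q).IsFrobeniusAt φ (q : ℕ) → (∀ x : X', φ • x = σ^[k] x) → ∀ a : ℚˣ,
    invTot inv q PUnit (locAll (IndMod PUnit Kx) q 2 (h.theta lvlAll Kx 0 (ratH0 PUnit a))) =
      sgn • toQZ (padicValRat q (a : ℚ) * k / m)

/-- (L7) Unramified cocycles with unit values are locally trivial. -/
def UnramUnits : Prop :=
  ∀ (q : Nat.Primes) (X : Type) [MulAction GQ X] [Finite X] [SmoothSet lvlAll X]
    (N : Subgroup GQ), N ∈ lvlAll.carrier → ∀ z : Zsm lvlAll (IndMod X Kx) 2,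
    IsLevelAt N (z : (Fin 2 → GQ) → IndMod X Kx) →
    (∀ τ ∈ (Av q).inertiaSubgroupIn ℚ, τ ∈ N ∧ ∀ x : X, τ • x = x) →
    (∀ g x, ((z : (Fin 2 → GQ) → IndMod X Kx) g x).IsUnitAt (Av q)) →
    locAll (IndMod X Kx) q 2 (Hsm.mk lvlAll (IndMod X Kx) 2 z) = 0

/-- EVERYTHING that block BR consumes from the other blocks. -/
structure BRInput (p : ℕ) where
  /-- the local invariant maps (LOC) -/
  inv : ∀ q : Nat.Primes, Hloc q Kx 2 →+ QZ
  /-- the universal sign in the unramified symbol formula -/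
  sgn : ℤ
  h90g : H90Glob
  h90l : H90Loc
  hnt : HNT p
  si : SecondIneq p
  nonsplit : NonSplit p
  locBr : ∀ q, LocBr p q (inv q)
  symbol : UnramSymbol inv sgn
  units : UnramUnits

end Fermat.Agent.S55
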