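/-
S55 / block BR, task BR-H0 (owner helper163): dictionary `H^0` ↔ invariant functions.
-/
import Fermat.Agent.S55.BR.Defs
import Fermat.Agent.Lib.Frobenius.Integers

set_option autoImplicit false

namespace Fermat.Agent.S55

open Dict (invD)
open scoped Pointwise

/-! ## H0 : file `BR/H0.lean` (dictionary `H^0` ↔ invariant functions) -/
section H0

variable {X Y : Type} [MulAction GQ X] [MulAction GQ Y]

theorem locAll_H0g (q : Nat.Primes) (f : invD ⊤ X) (f' : invD (Dv q) X)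
    (h : (f' : IndMod X Kx) = f) : locAll (IndMod X Kx) q 0 (H0g X f) = H0l q X f' := by
  obtain ⟨f, hf⟩ := f
  obtain ⟨f', hf'⟩ := f'
  obtain rfl : f' = f := h
  rfl

theorem map_H0g (φ : IndMod Y Kx →+[GQ] IndMod X Kx) (f : invD ⊤ Y) (f' : invD ⊤ X)
    (h : (f' : IndMod X Kx) = φ f) : Hsm.map φ 0 (H0g Y f) = H0g X f' := by
  obtain ⟨f', hf'⟩ := f'
  obtain rfl : f' = φ f := h
  rfl

theorem map_H0l (q : Nat.Primes) (φ : IndMod Y Kx →+[GQ] IndMod X Kx) (f : invD (Dv q) Y)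
    (f' : invD (Dv q) X) (h : (f' : IndMod X Kx) = φ f) :
    Hsm.map (ResMod.map (ιv q) φ) 0 (H0l q Y f) = H0l q X f' := by
  obtain ⟨f', hf'⟩ := f'
  obtain rfl : f' = φ f := h
  rfl

theorem map_mem_invD (D : Subgroup GQ) (φ : IndMod Y Kx →+[GQ] IndMod X Kx) {f : IndMod Y Kx}
    (hf : f ∈ invD D Y) : φ f ∈ invD D X := by
  intro d hd
  rw [← map_smul, hf d hd]

theorem invD_top_le (D : Subgroup GQ) : invD ⊤ X ≤ invD D X :=
  fun _ hf d _ => hf d (Subgroup.mem_top d)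

theorem ratH0_eq_H0g (a : ℚˣ) (f : invD ⊤ X)
    (h : (f : IndMod X Kx) = IndMod.const (G := GQ) X Kx (ratKx a)) : ratH0 X a = H0g X f := by
  obtain ⟨f, hf⟩ := f
  obtain rfl : f = IndMod.const (G := GQ) X Kx (ratKx a) := h
  rfl

/-- `H^0(ℚ̄ˣ) = ℚˣ` -/
theorem exists_ratH0_eq (a : Hsm lvlAll (IndMod PUnit Kx) 0) : ∃ r : ℚˣ, ratH0 PUnit r = a := by
  have hgal : IsGalois ℚ Qb := Fermat.Agent.Lib.Frobenius.isGalois_rat
  set b : inv0 GQ (IndMod PUnit Kx) := Hsm.H0equiv a with hb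
  set t : Qb := ((b : IndMod PUnit Kx) PUnit.unit).val with ht
  have hfix : ∀ g : GQ, g t = t := by
    intro g
    have h1 := congrArg (fun f : IndMod PUnit Kx => (f PUnit.unit).val) (b.2 g)
    exact h1
  have hmem : t ∈ (⊥ : IntermediateField ℚ Qb) := by
    rw [InfiniteGalois.mem_bot_iff_fixed]
    exact hfix
  rw [IntermediateField.mem_bot] at hmem
  obtain ⟨r, hr⟩ := hmem
  have ht0 : t ≠ 0 := Units.ne_zero _
  have hr0 : r ≠ 0 := by
    rintro rfl
    rw [map_zero] at hr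
    exact ht0 hr.symm
  refine ⟨Units.mk0 r hr0, ?_⟩
  rw [← AddEquiv.symm_apply_apply Hsm.H0equiv a, ← hb]
  refine congrArg Hsm.H0equiv.symm (Subtype.ext ?_)
  refine IndMod.ext fun x => ?_
  apply Additive.toMul.injective
  apply Units.ext
  exact hr

end H0

end Fermat.Agent.S55
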