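/-
S55 / block BR, file `BR/LocNat.lean` (helper246, task BR-LocNat): formal properties of `locAll` and
`thetaLoc`: naturality, kernel = norms, image = kernel of the restriction, function forms.
-/
import Fermat.Agent.S55.BR.Defs
import Fermat.Agent.S55.Coh.ResApi
import Fermat.Agent.S55.BR.H0

set_option autoImplicit false

namespace Fermat.Agent.S55

open Dict (invD)
open scoped Pointwise

/-! ## LocNat : file `BR/LocNat.lean` (formal properties of `locAll`, `thetaLoc`) -/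
section LocNat

variable {A B : Type} [AddCommGroup A] [DistribMulAction GQ A] [AddCommGroup B]
  [DistribMulAction GQ B]

theorem locAll_map (q : Nat.Primes) (φ : A →+[GQ] B) (n : ℕ) (x : Hsm lvlAll A n) :
    locAll B q n (Hsm.map φ n x) = Hsm.map (ResMod.map (ιv q) φ) n (locAll A q n x) :=
  Hsm.res_map (ιv q) _ φ n x

variable {X' X : Type} [MulAction GQ X'] [MulAction GQ X] [Finite X'] [SmoothSet lvlAll X']
  {u : X' →[GQ] X} {σ : X' →[GQ] X'} {m : ℕ}

theorem locAll_theta (q : Nat.Primes) (h : CyclicCover u σ m) (n : ℕ)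
    (x : Hsm lvlAll (IndMod X Kx) n) :
    locAll (IndMod X Kx) q (n + 2) (h.theta lvlAll Kx n x) =
      thetaLoc q h n (locAll (IndMod X Kx) q n x) := by
  rw [CyclicCover.theta_eq_fourTerm]
  exact (FourTerm.res_theta (ιv q) _ (h.fourTerm Kx) n x).symm

theorem thetaLoc_eq_zero_iff (hl : H90Loc) (q : Nat.Primes) (h : CyclicCover u σ m)
    (x : Hloc q (IndMod X Kx) 0) :
    thetaLoc q h 0 x = 0 ↔ ∃ y, Hsm.map (ResMod.map (ιv q) (IndMod.push Kx u)) 0 y = x :=
  ((h.fourTerm Kx).res (ιv q)).theta_eq_zero_iff 0 (hl q X') x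

theorem exists_thetaLoc_eq_iff (hl : H90Loc) (q : Nat.Primes) (h : CyclicCover u σ m)
    (z : Hloc q (IndMod X Kx) 2) :
    (∃ x, thetaLoc q h 0 x = z) ↔ Hsm.map (ResMod.map (ιv q) (IndMod.pull Kx u)) 2 z = 0 :=
  ((h.fourTerm Kx).res (ιv q)).mem_range_theta_iff 0 (hl q X') z

theorem nsmul_thetaLoc (q : Nat.Primes) (h : CyclicCover u σ m) (n : ℕ)
    (x : Hloc q (IndMod X Kx) n) : m • thetaLoc q h n x = 0 := by
  rw [← Hsm.map_nsmul' (χ := (ResMod.map (ιv q) (IndMod.push Kx u)).comp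
    (ResMod.map (ιv q) (IndMod.pull Kx u))) m
    (fun a => congrArg (ResMod.toRes (ιv q)) (h.push_pull ((ResMod.toRes (ιv q)).symm a))) (n + 2),
    Hsm.map_comp]
  have h1 : Hsm.map (ResMod.map (ιv q) (IndMod.pull Kx u)) (n + 2) (thetaLoc q h n x) = 0 :=
    ((h.fourTerm Kx).res (ιv q)).map_theta n x
  rw [h1, map_zero]

/-- function form of the kernel of the global `θ` -/
theorem theta_H0g_eq_zero_iff (hg : H90Glob) (h : CyclicCover u σ m) (a : invD ⊤ X) :
    h.theta lvlAll Kx 0 (H0g X a) = 0 ↔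
      ∃ b ∈ invD ⊤ X', IndMod.push Kx u b = (a : IndMod X Kx) := by
  rw [CyclicCover.theta_eq_zero_iff lvlAll Kx h 0 (hg X')]
  constructor
  · rintro ⟨y, hy⟩
    obtain ⟨b, rfl⟩ := (H0g X').surjective y
    refine ⟨b, b.2, ?_⟩
    have h1 := map_H0g (IndMod.push Kx u) b ⟨_, map_mem_invD ⊤ (IndMod.push Kx u) b.2⟩ rfl
    rw [hy] at h1
    exact congrArg Subtype.val ((H0g X).injective h1).symm
  · rintro ⟨b, hb, hba⟩
    exact ⟨H0g X' ⟨b, hb⟩, map_H0g (IndMod.push Kx u) ⟨b, hb⟩ a hba.symm⟩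

/-- function form of the kernel of the local `θ` -/
theorem thetaLoc_H0l_eq_zero_iff (hl : H90Loc) (q : Nat.Primes) (h : CyclicCover u σ m)
    (a : invD (Dv q) X) :
    thetaLoc q h 0 (H0l q X a) = 0 ↔
      ∃ b ∈ invD (Dv q) X', IndMod.push Kx u b = (a : IndMod X Kx) := by
  rw [thetaLoc_eq_zero_iff hl q h]
  constructor
  · rintro ⟨y, hy⟩
    obtain ⟨b, rfl⟩ := (H0l q X').surjective y
    refine ⟨b, b.2, ?_⟩
    have h1 := map_H0l q (IndMod.push Kx u) b ⟨_, map_mem_invD (Dv q) (IndMod.push Kx u) b.2⟩ rfl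
    rw [hy] at h1
    exact congrArg Subtype.val ((H0l q X).injective h1).symm
  · rintro ⟨b, hb, hba⟩
    exact ⟨H0l q X' ⟨b, hb⟩, map_H0l q (IndMod.push Kx u) ⟨b, hb⟩ a hba.symm⟩

end LocNat

end Fermat.Agent.S55
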