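/-
S55 / block BR : `hasse_step` (B1 for one Kummer step).
-/
import Fermat.Agent.S55.BR.Defs
import Fermat.Agent.S55.Coh.Coset
import Fermat.Agent.S55.BR.H0
import Fermat.Agent.S55.BR.LocNat

set_option autoImplicit false

namespace Fermat.Agent.S55

open Dict (invD)
open scoped Pointwise

/-! ## HasseStep : file `BR/HasseStep.lean` (B1 for one Kummer step) -/
section HasseStep

theorem hasse_step {p : ℕ} (hp : p.Prime) (I : BRInput p) {U' U : Subgroup GQ} (h : KStep p U' U)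
    (x : Hsm lvlAll (IndMod (GQ ⧸ U) Kx) 2)
    (hloc : ∀ q, locAll (IndMod (GQ ⧸ U) Kx) q 2 x = 0)
    (hres : Hsm.map (IndMod.pull Kx (cosetMap h.le)) 2 x = 0) : x = 0 := by
  have := finite_coset h.isOpen
  have := smoothSet_coset h.isOpen
  obtain ⟨s, -, hs, hc⟩ := exists_cyclicCover_coset_prime hp h.le h.norm h.idx
  obtain ⟨a, rfl⟩ := (hc.exists_theta_eq_iff lvlAll Kx 0 (I.h90g _) x).2 hres
  obtain ⟨a₀, rfl⟩ := (H0g (GQ ⧸ U)).surjective a
  rw [theta_H0g_eq_zero_iff I.h90g hc a₀]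
  refine I.hnt U' U h a₀ a₀.2 fun q => ?_
  have h1 := hloc q
  rw [locAll_theta q hc 0,
    locAll_H0g q a₀ ⟨a₀.1, invD_top_le (Dv q) a₀.2⟩ rfl] at h1
  exact (thetaLoc_H0l_eq_zero_iff I.h90l q hc _).1 h1

end HasseStep

end Fermat.Agent.S55
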