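/-
S55 / block BR-A1 : API of the cyclotomic character modulo an arbitrary `n`.
-/
import Fermat.Agent.S55.BR.CycDefs
import Fermat.Agent.S29.Cyclo

set_option autoImplicit false

namespace Fermat.Agent.S55.BR

open Fermat.Agent.S05 Fermat.Agent.S29.Cyclo

local notation "Qbar" => AlgebraicClosure ℚ
local notation "GQ" => (AlgebraicClosure ℚ ≃ₐ[ℚ] AlgebraicClosure ℚ)

namespace Cyc

section Roots

variable {L : Type*} [Field L]

/-- a root of unity of order prime to the residue characteristic which is `≡ 1` is `1`. -/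
theorem not_valuation_sub_one_lt_one (A : ValuationSubring L) {ℓ n : ℕ} (hℓ : ℓ.Prime)
    (hn0 : n ≠ 0) (hn : ¬ ℓ ∣ n) (hA : A.LiesOverPrime ℓ) {η : L} (hη : η ^ n = 1) (hη1 : η ≠ 1) :
    ¬ A.valuation (η - 1) < 1 := by
  intro hlt
  have hsum : ∑ i ∈ Finset.range n, η ^ i = 0 := by
    have h := geom_sum_mul η n
    rw [hη, sub_self] at h
    exact (mul_eq_zero.mp h).resolve_right (sub_ne_zero.mpr hη1)
  have hv : A.valuation η = 1 := valuation_eq_one_of_pow_eq_one A hn0 hη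
  have hterm : ∀ i : ℕ, A.valuation (η ^ i - 1) < 1 := by
    intro i
    induction i with
    | zero => simp
    | succ i ih =>
      have : η ^ (i + 1) - 1 = η * (η ^ i - 1) + (η - 1) := by ring
      rw [this]
      apply Valuation.map_add_lt _ _ hlt
      rw [map_mul, hv, one_mul]
      exact ih
  have hpsum : (n : L) = - ∑ i ∈ Finset.range n, (η ^ i - 1) := by
    rw [Finset.sum_sub_distrib, hsum]
    simp
  have hlt' : A.valuation (n : L) < 1 := by
    rw [hpsum, Valuation.map_neg]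
    exact Valuation.map_sum_lt _ one_ne_zero (fun i _ => hterm i)
  have hnd : ¬ (ℓ : ℤ) ∣ (n : ℤ) := fun h => hn (Int.natCast_dvd_natCast.mp h)
  have := valuation_intCast_eq_one A hℓ hA hnd
  rw [Int.cast_natCast] at this
  exact absurd this hlt'.ne

theorem eq_of_valuation_sub_lt_one (A : ValuationSubring L) {ℓ n : ℕ} (hℓ : ℓ.Prime)
    (hn0 : n ≠ 0) (hn : ¬ ℓ ∣ n) (hA : A.LiesOverPrime ℓ) {x y : L} (hx : x ^ n = 1)
    (hy : y ^ n = 1) (h : A.valuation (x - y) < 1) : x = y := by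
  by_contra hxy
  have hy0 : y ≠ 0 := by
    rintro rfl
    rw [zero_pow hn0] at hy
    exact zero_ne_one hy
  have h1 : (x / y) ^ n = 1 := by rw [div_pow, hx, hy, div_one]
  have h2 : x / y ≠ 1 := by
    intro h3
    exact hxy ((div_eq_one_iff_eq hy0).mp h3)
  apply not_valuation_sub_one_lt_one A hℓ hn0 hn hA h1 h2
  have h3 : x / y - 1 = (x - y) / y := by field_simp
  rw [h3, map_div₀, valuation_eq_one_of_pow_eq_one A hn0 hy, div_one]
  exact h

end Roots

theorem isAlgClosure_rat : IsAlgClosure ℚ Qbar := by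
  have h : (DivisionRing.toRatAlgebra : Algebra ℚ Qbar) =
      AlgebraicClosure.instAlgebra ℚ := Subsingleton.elim _ _
  rw [h]
  infer_instance

theorem normal_rat : Normal ℚ Qbar :=
  have := isAlgClosure_rat
  IsAlgClosure.normal ℚ Qbar

theorem exists_primitiveRoot (n : ℕ) [NeZero n] : ∃ ζ : Qbar, IsPrimitiveRoot ζ n :=
  haveI : NeZero (n : Qbar) := ⟨Nat.cast_ne_zero.mpr (NeZero.ne n)⟩
  HasEnoughRootsOfUnity.exists_primitiveRoot Qbar n

end Cyc

theorem cycN_spec (n : ℕ) [NeZero n] (σ : GQ) (x : Qbar) (hx : x ^ n = 1) :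
    σ x = x ^ ((cycN n σ : (ZMod n)ˣ) : ZMod n).val := by
  have hx0 : x ≠ 0 := by
    rintro rfl
    rw [zero_pow (NeZero.ne n)] at hx
    exact zero_ne_one hx
  have ht : Units.mk0 x hx0 ∈ rootsOfUnity n Qbar := by
    rw [mem_rootsOfUnity]
    apply Units.ext
    simpa using hx
  have := modularCyclotomicCharacter.spec Qbar (card_rootsOfUnity n)
    (MulSemiringAction.toRingAut GQ Qbar σ) ht
  exact this

theorem cycN_eq_of_forall (n : ℕ) [NeZero n] (σ : GQ) (c : ℕ)
    (h : ∀ x : Qbar, x ^ n = 1 → σ x = x ^ c) :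
    ((cycN n σ : (ZMod n)ˣ) : ZMod n) = (c : ZMod n) := by
  symm
  apply modularCyclotomicCharacter.unique
  intro t ht
  have ht' : (t : Qbar) ^ n = 1 := by
    have := (mem_rootsOfUnity _ _).mp ht
    rw [← Units.val_pow_eq_pow_val, this, Units.val_one]
  have h1 : (MulSemiringAction.toRingAut GQ Qbar σ) (t : Qbar) = σ (t : Qbar) := rfl
  rw [h1, h _ ht', ZMod.val_natCast]
  exact pow_eq_pow_mod c ht'

theorem cycN_eq_one_iff (n : ℕ) [NeZero n] (σ : GQ) :
    cycN n σ = 1 ↔ ∀ x : Qbar, x ^ n = 1 → σ x = x := by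
  constructor
  · intro h x hx
    have := cycN_spec n σ x hx
    rw [h, Units.val_one, ZMod.val_one_eq_one_mod, ← pow_eq_pow_mod 1 hx, pow_one] at this
    exact this
  · intro h
    apply Units.ext
    have := cycN_eq_of_forall n σ 1 (fun x hx => by rw [pow_one]; exact h x hx)
    simpa using this

theorem cycN_surjective (n : ℕ) [NeZero n] : Function.Surjective (cycN n) := by
  intro u
  obtain ⟨ζ, hζ⟩ := Cyc.exists_primitiveRoot n
  have hcop : Nat.Coprime (u : ZMod n).val n := ZMod.val_coe_unit_coprime u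
  have hζ' : IsPrimitiveRoot (ζ ^ (u : ZMod n).val) n := hζ.pow_of_coprime _ hcop
  have hconj : IsConjRoot ℚ (ζ ^ (u : ZMod n).val) ζ := by
    unfold IsConjRoot
    rw [← Polynomial.cyclotomic_eq_minpoly_rat hζ (NeZero.pos n),
      ← Polynomial.cyclotomic_eq_minpoly_rat hζ' (NeZero.pos n)]
  have : Normal ℚ Qbar := Cyc.normal_rat
  obtain ⟨σ, hσ⟩ := isConjRoot_iff_exists_algEquiv.mp hconj
  refine ⟨σ, ?_⟩
  apply Units.ext
  have := cycN_eq_of_forall n σ (u : ZMod n).val (fun x hx => by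
    obtain ⟨i, -, rfl⟩ := hζ.eq_pow_of_pow_eq_one hx
    rw [map_pow, hσ, ← pow_mul, ← pow_mul, mul_comm])
  rw [this, ZMod.natCast_val, ZMod.cast_id]

theorem cycN_frob (n : ℕ) [NeZero n] {ℓ : ℕ} (hℓ : ℓ.Prime) (hn : ¬ ℓ ∣ n)
    (A : ValuationSubring Qbar) (hA : A.LiesOverPrime ℓ) {σ : GQ} (hσ : A.IsFrobeniusAt σ ℓ) :
    ((cycN n σ : (ZMod n)ˣ) : ZMod n) = (ℓ : ZMod n) := by
  apply cycN_eq_of_forall
  intro x hx
  apply Cyc.eq_of_valuation_sub_lt_one A hℓ (NeZero.ne n) hn hA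
  · rw [← map_pow, hx, map_one]
  · rw [← pow_mul, mul_comm, pow_mul, hx, one_pow]
  · exact frob_valuation_sub_lt_one A hσ (valuation_eq_one_of_pow_eq_one A (NeZero.ne n) hx).le

theorem cycN_inertia (n : ℕ) [NeZero n] {ℓ : ℕ} (hℓ : ℓ.Prime) (hn : ¬ ℓ ∣ n)
    (A : ValuationSubring Qbar) (hA : A.LiesOverPrime ℓ) {σ : GQ}
    (hσ : σ ∈ A.inertiaSubgroupIn ℚ) : cycN n σ = 1 := by
  rw [cycN_eq_one_iff]
  intro x hx
  apply Cyc.eq_of_valuation_sub_lt_one A hℓ (NeZero.ne n) hn hA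
  · rw [← map_pow, hx, map_one]
  · exact hx
  · exact inertia_valuation_sub_lt_one A hσ (valuation_eq_one_of_pow_eq_one A (NeZero.ne n) hx).le

theorem cycN_level (n : ℕ) [NeZero n] :
    ∃ F : IntermediateField ℚ Qbar, FiniteDimensional ℚ F ∧ Normal ℚ F ∧
      ∀ σ ∈ F.fixingSubgroup, cycN n σ = 1 := by
  set P : Polynomial ℚ := Polynomial.X ^ n - Polynomial.C 1 with hP
  have hP0 : P ≠ 0 := Polynomial.X_pow_sub_C_ne_zero (NeZero.pos n) 1
  have : Polynomial.IsSplittingField ℚ (IntermediateField.adjoin ℚ (P.rootSet Qbar)) P :=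
    IntermediateField.adjoin_rootSet_isSplittingField (IsAlgClosed.splits _)
  refine ⟨IntermediateField.adjoin ℚ (P.rootSet Qbar),
    Polynomial.IsSplittingField.finiteDimensional _ P, Normal.of_isSplittingField P, ?_⟩
  intro σ hσ
  rw [IntermediateField.mem_fixingSubgroup_iff] at hσ
  rw [cycN_eq_one_iff]
  intro x hx
  apply hσ x
  apply IntermediateField.subset_adjoin
  rw [Polynomial.mem_rootSet]
  refine ⟨hP0, ?_⟩
  simp [hP, hx]

theorem cycN_cast {d n : ℕ} [NeZero d] [NeZero n] (h : d ∣ n) (σ : GQ) :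
    Units.map ((ZMod.castHom h (ZMod d) : ZMod n →+* ZMod d) : ZMod n →* ZMod d) (cycN n σ) =
      cycN d σ := by
  apply Units.ext
  have := cycN_eq_of_forall d σ ((cycN n σ : (ZMod n)ˣ) : ZMod n).val (fun x hx => by
    apply cycN_spec n σ x
    obtain ⟨e, rfl⟩ := h
    rw [pow_mul, hx, one_pow])
  rw [this, ZMod.natCast_val]
  rfl

end Fermat.Agent.S55.BR
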