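/-
S55 / block BR, task BR-MuChain (helper181): group theory of `μ_p` and chains.
-/
import Fermat.Agent.S55.BR.Defs
import Fermat.Agent.S55.BR.Cyc
import Fermat.Agent.S55.Coh.SylowChain

set_option autoImplicit false

namespace Fermat.Agent.S55

open Dict (invD)
open scoped Pointwise

/-! ## MuChain : file `BR/MuChain.lean` (group theory of `μ_p` and chains) -/
section MuChain

/-- `U` acts trivially on `μ_n` iff it fixes all `n`-th roots of unity. -/
theorem MuChain.actsTrivially_mu_iff (n : ℕ) (U : Subgroup GQ) :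
    ActsTrivially U (Mu n) ↔ ∀ u ∈ U, ∀ x : Qb, x ^ n = 1 → u x = x := by
  constructor
  · intro h u hu x hx
    by_cases hx0 : x = 0
    · rw [hx0, map_zero]
    have hmem : (Additive.ofMul (Units.mk0 x hx0) : Kx) ∈ (muSub n).toAddSubgroup := by
      show n • (Additive.ofMul (Units.mk0 x hx0) : Kx) = 0
      apply Additive.toMul.injective
      apply Units.ext
      exact hx
    have h1 := h u hu ((muSub n).mkMod _ hmem)
    have h2 := congrArg (fun a => ((muSub n).incl a).val) h1
    exact h2
  · intro h u hu a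
    apply (muSub n).incl_injective
    apply Additive.toMul.injective
    apply Units.ext
    have ha : n • (muSub n).incl a = 0 := (muSub n).incl_mem a
    have ha' : ((muSub n).incl a).val ^ n = 1 := by
      have := congrArg Kx.val ha
      exact this
    exact h u hu _ ha'

/-- `U` acts trivially on `μ_n` iff the cyclotomic character modulo `n` is trivial on `U`. -/
theorem MuChain.actsTrivially_mu_iff_cycN (n : ℕ) [NeZero n] (U : Subgroup GQ) :
    ActsTrivially U (Mu n) ↔ ∀ u ∈ U, BR.cycN n u = 1 := by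
  rw [MuChain.actsTrivially_mu_iff]
  exact forall₂_congr fun u _ => (BR.cycN_eq_one_iff n u).symm

/-- there is a level acting trivially on `μ_p` -/
theorem exists_level_actsTrivially_mu (p : ℕ) (hp : p.Prime) :
    ∃ N ∈ lvlAll.carrier, ActsTrivially N (Mu p) := by
  have : NeZero p := ⟨hp.ne_zero⟩
  obtain ⟨ζ, hζ⟩ := BR.Cyc.exists_primitiveRoot p
  obtain ⟨F, hf, hs, hx⟩ := exists_stable_finite ζ
  refine ⟨F.fixingSubgroup, ⟨F, hf, hs, rfl⟩, ?_⟩
  rw [MuChain.actsTrivially_mu_iff]
  intro u hu x hxp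
  obtain ⟨i, -, rfl⟩ := hζ.eq_pow_of_pow_eq_one hxp
  rw [map_pow, (IntermediateField.mem_fixingSubgroup_iff F u).mp hu ζ hx]

/-- a normal step of index `p` above a group fixing `μ_p` fixes `μ_p` -/
theorem actsTrivially_mu_of_step {p : ℕ} (hp : p.Prime) {V U : Subgroup GQ} (hle : V ≤ U)
    (hidx : V.relIndex U = p) (hnorm : ∀ g ∈ U, ∀ v ∈ V, g⁻¹ * v * g ∈ V)
    (hV : ActsTrivially V (Mu p)) : ActsTrivially U (Mu p) := by
  have : NeZero p := ⟨hp.ne_zero⟩
  have : Fact p.Prime := ⟨hp⟩
  rw [MuChain.actsTrivially_mu_iff_cycN] at hV ⊢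
  intro g hg
  have hn : (V.subgroupOf U).Normal := by
    refine ⟨fun n hn g => ?_⟩
    rw [Subgroup.mem_subgroupOf] at hn ⊢
    have := hnorm (g⁻¹ : U) (g⁻¹ : U).2 n hn
    simpa using this
  have hpow : g ^ p ∈ V := by
    have h1 := Subgroup.pow_index_mem (V.subgroupOf U) (⟨g, hg⟩ : U)
    rw [Subgroup.mem_subgroupOf] at h1
    have h2 : (V.subgroupOf U).index = p := hidx
    rw [h2] at h1
    simpa using h1
  have h1 : BR.cycN p g ^ p = 1 := by
    rw [← map_pow]
    exact hV _ hpow
  have h2 : BR.cycN p g ^ (p - 1) = 1 := ZMod.units_pow_card_sub_one_eq_one p _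
  have h3 : BR.cycN p g ^ p = BR.cycN p g ^ (p - 1) * BR.cycN p g := by
    rw [← pow_succ, Nat.sub_add_cancel hp.one_le]
  rw [h1, h2, one_mul] at h3
  exact h3.symm

theorem PChain.le {p : ℕ} {N U : Subgroup GQ} (h : PChain p N U) : N ≤ U := by
  induction h with
  | refl => exact le_rfl
  | step _ hle _ _ ih => exact ih.trans hle

theorem PChain.actsTrivially {p : ℕ} (hp : p.Prime) {N U : Subgroup GQ} (h : PChain p N U)
    (hN : ActsTrivially N (Mu p)) : ActsTrivially U (Mu p) := by
  induction h with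
  | refl => exact hN
  | step _ hle hidx hnorm ih => exact actsTrivially_mu_of_step hp hle hidx hnorm ih

/-- the Sylow chain of COH in `PChain` form -/
theorem exists_pChain {p : ℕ} (hp : p.Prime) {N U : Subgroup GQ} (hN : N ∈ lvlAll.carrier)
    (hle : N ≤ U) : ∃ V : Subgroup GQ, PChain p N V ∧ V ≤ U ∧ (V.relIndex U).Coprime p := by
  have := lvlAll.normal N hN
  have := lvlAll.finiteIndex N hN
  obtain ⟨k, Q, h0, hmono, hk, hcop, hstep⟩ := exists_sylow_chain hp hle
  refine ⟨Q k, ?_, hk, hcop⟩
  have key : ∀ i ≤ k, PChain p N (Q i) := by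
    intro i
    induction i with
    | zero =>
      intro _
      rw [h0]
      exact PChain.refl N
    | succ i ih =>
      intro hi
      exact PChain.step (ih (by omega)) (hmono i) (hstep i (by omega)).1 (hstep i (by omega)).2
  exact key k le_rfl

end MuChain

end Fermat.Agent.S55
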