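/-
S55 / block BR : `BR/Hasse.lean` (B1): the Hasse principle for the `p`-primary part of
`H^2(Map(X, ℚ̄ˣ))`: induction along a chain of Kummer steps, coset form, transitive sets.
-/
import Fermat.Agent.S55.BR.Defs
import Fermat.Agent.S55.Coh.Efface
import Fermat.Agent.S55.Coh.SylowChain
import Fermat.Agent.S55.Coh.Coset
import Fermat.Agent.S55.BR.HasseStep
import Fermat.Agent.S55.BR.MuChain
import Fermat.Agent.S55.BR.LocNat

set_option autoImplicit false

namespace Fermat.Agent.S55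

open Dict (invD)
open scoped Pointwise

/-! ## Hasse : file `BR/Hasse.lean` (B1) -/
section Hasse

/-- transitivity of the pull-backs along `GQ ⧸ U'' → GQ ⧸ U' → GQ ⧸ U` on cohomology -/
theorem hasse_pull_pull {U'' U' U : Subgroup GQ} (h' : U'' ≤ U') (h : U' ≤ U) (h'' : U'' ≤ U)
    (n : ℕ) (x : Hsm lvlAll (IndMod (GQ ⧸ U) Kx) n) :
    Hsm.map (IndMod.pull Kx (cosetMap h')) n (Hsm.map (IndMod.pull Kx (cosetMap h)) n x) =
      Hsm.map (IndMod.pull Kx (cosetMap h'')) n x := by
  refine (Hsm.map_comp' (fun a => IndMod.ext fun y => ?_) n x).symm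
  rw [IndMod.pull_apply, IndMod.pull_apply, IndMod.pull_apply, cosetMap_cosetMap]

/-- a pull-back of a locally trivial class is locally trivial -/
theorem hasse_loc_pull {X Y : Type} [MulAction GQ X] [MulAction GQ Y] (u : Y →[GQ] X) (n : ℕ)
    (x : Hsm lvlAll (IndMod X Kx) n) (hloc : ∀ q, locAll (IndMod X Kx) q n x = 0) (q : Nat.Primes) :
    locAll (IndMod Y Kx) q n (Hsm.map (IndMod.pull Kx u) n x) = 0 := by
  rw [locAll_map, hloc q, map_zero]

/-- induction along a chain -/
theorem hasse_chain {p : ℕ} (hp : p.Prime) (I : BRInput p) {N U : Subgroup GQ} (h : PChain p N U)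
    (hN : lvlAll.IsOpen N) (hμ : ActsTrivially U (Mu p)) (hle : N ≤ U)
    (x : Hsm lvlAll (IndMod (GQ ⧸ U) Kx) 2)
    (hloc : ∀ q, locAll (IndMod (GQ ⧸ U) Kx) q 2 x = 0)
    (hres : Hsm.map (IndMod.pull Kx (cosetMap hle)) 2 x = 0) : x = 0 := by
  induction h with
  | refl =>
    rwa [Hsm.map_id' (fun a => IndMod.ext fun y => ?_)] at hres
    rw [IndMod.pull_apply, cosetMap_refl]
  | @step V U h' hVU hidx hnorm ih =>
    have hNV : N ≤ V := h'.le
    have hV : Hsm.map (IndMod.pull Kx (cosetMap hVU)) 2 x = 0 :=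
      ih (fun u hu a => hμ u (hVU hu) a) hNV _ (hasse_loc_pull _ 2 x hloc)
        (by rw [hasse_pull_pull hNV hVU hle, hres])
    exact hasse_step hp I (⟨hVU, hN.mono hNV, hμ, hnorm, hidx⟩ : KStep p V U) x hloc hV

/-- **B1** (Hasse principle), coset form. -/
theorem hasse_coset {p : ℕ} (hp : p.Prime) (I : BRInput p) {U : Subgroup GQ}
    (hU : lvlAll.IsOpen U) (x : Hsm lvlAll (IndMod (GQ ⧸ U) Kx) 2)
    (hx : x ∈ pPrimary p (Hsm lvlAll (IndMod (GQ ⧸ U) Kx) 2))
    (hloc : ∀ q, locAll (IndMod (GQ ⧸ U) Kx) q 2 x = 0) : x = 0 := by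
  obtain ⟨N₁, hN₁, hle₁, h₁⟩ := Hsm.efface_coset hU 1 x
  obtain ⟨N₂, hN₂, hμ₂⟩ := exists_level_actsTrivially_mu p hp
  obtain ⟨N, hN, hle⟩ := lvlAll.directed N₁ hN₁ N₂ hN₂
  have hNN₁ : N ≤ N₁ := hle.trans inf_le_left
  have hNN₂ : N ≤ N₂ := hle.trans inf_le_right
  have hNU : N ≤ U := hNN₁.trans hle₁
  have hxN : Hsm.map (IndMod.pull Kx (cosetMap hNU)) 2 x = 0 := by
    rw [← hasse_pull_pull hNN₁ hle₁ hNU, h₁, map_zero]
  obtain ⟨V, hch, hVU, hcop⟩ := exists_pChain hp hN hNU
  have hNV : N ≤ V := hch.le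
  have hμV : ActsTrivially V (Mu p) := hch.actsTrivially hp (fun u hu a => hμ₂ u (hNN₂ hu) a)
  have hNo : lvlAll.IsOpen N := ⟨N, hN, le_rfl⟩
  have hy : Hsm.map (IndMod.pull Kx (cosetMap hVU)) 2 x = 0 :=
    hasse_chain hp I hch hNo hμV hNV _ (hasse_loc_pull _ 2 x hloc)
      (by rw [hasse_pull_pull hNV hVU hNU, hxN])
  have : Finite (GQ ⧸ V) := finite_coset (hNo.mono hNV)
  exact Hsm.pull_injective_of_coprime hVU hcop 2 x hx hy

/-- **B1** for a transitive finite smooth `GQ`-set. -/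
theorem hasse_transitive {p : ℕ} (hp : p.Prime) (I : BRInput p) (X : Type) [MulAction GQ X]
    [Finite X] [SmoothSet lvlAll X] (htr : ∀ x y : X, ∃ g : GQ, g • x = y)
    (x : Hsm lvlAll (IndMod X Kx) 2) (hx : x ∈ pPrimary p (Hsm lvlAll (IndMod X Kx) 2))
    (hloc : ∀ q, locAll (IndMod X Kx) q 2 x = 0) : x = 0 := by
  rcases isEmpty_or_nonempty X with hX | ⟨⟨x₀⟩⟩
  · rw [← Hsm.map_id 2 x]
    exact Hsm.map_zero' (fun a => IndMod.ext fun y => isEmptyElim y) 2 x
  · have hU : lvlAll.IsOpen (MulAction.stabilizer GQ x₀) := SmoothSet.isOpen_stabilizer lvlAll x₀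
    let v : (GQ ⧸ MulAction.stabilizer GQ x₀) →[GQ] X :=
      cosetToSet (MulAction.stabilizer GQ x₀) x₀ (fun u hu => hu)
    have hv : Function.Bijective v := by
      constructor
      · intro a b
        induction a using QuotientGroup.induction_on with
        | H a =>
          induction b using QuotientGroup.induction_on with
          | H b =>
            intro hab
            have hab' : a • x₀ = b • x₀ := hab
            rw [QuotientGroup.eq, MulAction.mem_stabilizer_iff, mul_smul, ← hab', inv_smul_smul]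
      · intro y
        obtain ⟨g, hg⟩ := htr x₀ y
        exact ⟨(g : GQ ⧸ MulAction.stabilizer GQ x₀), hg⟩
    have hpull : Function.Bijective (IndMod.pull Kx v) := by
      constructor
      · exact IndMod.pull_injective hv.2
      · intro f
        refine ⟨IndMod.of fun y => f ((Equiv.ofBijective v hv).symm y), IndMod.ext fun y => ?_⟩
        rw [IndMod.pull_apply]
        show f ((Equiv.ofBijective v hv).symm (Equiv.ofBijective v hv y)) = f y
        rw [Equiv.symm_apply_apply]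
    have hy : Hsm.map (IndMod.pull Kx v) 2 x = 0 :=
      hasse_coset hp I hU _ (map_mem_pPrimary _ hx) (hasse_loc_pull v 2 x hloc)
    exact (Hsm.map_bijective (𝓝 := lvlAll) hpull 2).1 (by rw [hy, map_zero])

end Hasse

end Fermat.Agent.S55
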