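/-
S55 / block BR : module-level identities for the orbit sums.   Owner: helper184.
-/
import Fermat.Agent.S55.BR.Defs
import Fermat.Agent.S55.Coh.IndApi

set_option autoImplicit false

namespace Fermat.Agent.S55

open Dict (invD)
open scoped Pointwise

/-! ## OrbSum : file `BR/OrbSum.lean` (module-level identities for the orbit sums) -/
section OrbSum

variable {A : Type} [AddCommGroup A] [DistribMulAction GQ A]
variable {X' X : Type} [MulAction GQ X'] [MulAction GQ X] [Finite X'] [Finite X]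

omit [Finite X] in
theorem OrbSum_self_mem (q : Nat.Primes) (x₀ : X) : x₀ ∈ locOrb q x₀ :=
  ⟨1, by rw [map_one, one_smul]⟩

theorem locOrb_eq_of_mem {q : Nat.Primes} {x₀ x₁ : X} (h : x₁ ∈ locOrb q x₀) :
    locOrb q x₁ = locOrb q x₀ := by
  obtain ⟨h, rfl⟩ := h
  ext x
  constructor
  · rintro ⟨k, rfl⟩
    exact ⟨k * h, by rw [map_mul, mul_smul]⟩
  · rintro ⟨k, rfl⟩
    exact ⟨k * h⁻¹, by rw [map_mul, mul_smul, map_inv, inv_smul_smul]⟩

theorem orbSum_congr (q : Nat.Primes) {x₀ x₁ : X} (h : x₁ ∈ locOrb q x₀) :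
    orbSum A q X x₁ = orbSum A q X x₀ := by
  have e := locOrb_eq_of_mem h
  ext F
  show ResMod.toRes (ιv q) (∑ᶠ x : locOrb q x₁, ((ResMod.toRes (ιv q)).symm F) x.1) =
    ResMod.toRes (ιv q) (∑ᶠ x : locOrb q x₀, ((ResMod.toRes (ιv q)).symm F) x.1)
  rw [e]

omit [DistribMulAction GQ A] [MulAction GQ X] in
/-- a `finsum` over a subtype as a `Finset` sum -/
theorem OrbSum_finsum_coe (S : Set X) (f : X → A) :
    ∑ᶠ x : S, f x.1 = ∑ x ∈ (Set.toFinite S).toFinset, f x := by
  rw [finsum_set_coe_eq_finsum_mem, finsum_mem_eq_finite_toFinset_sum f (Set.toFinite S)]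

omit [Finite X'] [Finite X] in
theorem OrbSum_map_mem (q : Nat.Primes) (u : X' →[GQ] X) {x' z : X'} (hz : z ∈ locOrb q x') :
    u z ∈ locOrb q (u x') := by
  obtain ⟨h, rfl⟩ := hz
  exact ⟨h, (map_smul u _ _).symm⟩

omit [Finite X'] [Finite X] in
/-- all fibres of `locOrb q x' → locOrb q (u x')` have `locDeg q u x'` elements -/
theorem OrbSum_card_fibre (q : Nat.Primes) (u : X' →[GQ] X) (x' : X') {b : X}
    (hb : b ∈ locOrb q (u x')) :
    Nat.card {z : X' // z ∈ locOrb q x' ∧ u z = b} = locDeg q u x' := by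
  obtain ⟨d, rfl⟩ := hb
  refine Nat.card_congr
    { toFun := fun z => ⟨(ιv q d)⁻¹ • z.1, by
        have := smul_mem_locOrb d⁻¹ z.2.1
        rwa [map_inv] at this, by
        rw [map_smul, z.2.2, inv_smul_smul]⟩
      invFun := fun z => ⟨ιv q d • z.1, smul_mem_locOrb d z.2.1, by rw [map_smul, z.2.2]⟩
      left_inv := fun z => by simp
      right_inv := fun z => by simp }

theorem orbSum_pull (q : Nat.Primes) (u : X' →[GQ] X) (x' : X')
    (F : ResMod (ιv q) (IndMod X A)) :
    orbSum A q X' x' (ResMod.map (ιv q) (IndMod.pull A u) F) =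
      locDeg q u x' • orbSum A q X (u x') F := by
  classical
  have := Fintype.ofFinite X'
  obtain ⟨f, rfl⟩ := (ResMod.toRes (ιv q)).surjective F
  rw [ResMod.map_toRes, orbSum_toRes, orbSum_toRes, ← map_nsmul]
  congr 1
  simp only [IndMod.pull_apply]
  rw [OrbSum_finsum_coe (locOrb q x') (fun z => f (u z)), OrbSum_finsum_coe (locOrb q (u x')) f,
    Finset.sum_comp f u, Finset.smul_sum]
  have himg : (Set.toFinite (locOrb q x')).toFinset.image u =
      (Set.toFinite (locOrb q (u x'))).toFinset := by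
    ext b
    simp only [Finset.mem_image, Set.Finite.mem_toFinset]
    constructor
    · rintro ⟨z, hz, rfl⟩
      exact OrbSum_map_mem q u hz
    · rintro ⟨d, rfl⟩
      exact ⟨ιv q d • x', ⟨d, rfl⟩, map_smul u _ _⟩
  rw [himg]
  refine Finset.sum_congr rfl fun b hb => ?_
  rw [Set.Finite.mem_toFinset] at hb
  congr 1
  rw [← OrbSum_card_fibre q u x' hb, Nat.card_eq_fintype_card, Fintype.card_subtype]
  congr 1
  ext z
  simp

/-- the total sum is the sum of the orbit sums over a set of representatives -/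
theorem sum_eq_sum_orbSum (q : Nat.Primes) (R : Finset X)
    (hR : ∀ x : X, ∃! r, r ∈ R ∧ x ∈ locOrb q r) (F : ResMod (ιv q) (IndMod X A)) :
    ResMod.map (ιv q) (IndMod.sum X A) F = ∑ r ∈ R, orbSum A q X r F := by
  classical
  have := Fintype.ofFinite X
  obtain ⟨f, rfl⟩ := (ResMod.toRes (ιv q)).surjective F
  simp only [ResMod.map_toRes, orbSum_toRes]
  rw [← map_sum]
  congr 1
  rw [IndMod.sum_def, finsum_eq_sum_of_fintype]
  choose ρ hρ hρu using hR
  rw [← Finset.sum_fiberwise_of_maps_to (s := Finset.univ) (t := R) (g := ρ)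
    (fun x _ => (hρ x).1) (fun x => f x)]
  refine Finset.sum_congr rfl fun r hr => ?_
  rw [OrbSum_finsum_coe (locOrb q r) f]
  refine Finset.sum_congr ?_ fun _ _ => rfl
  ext x
  simp only [Finset.mem_filter, Finset.mem_univ, true_and, Set.Finite.mem_toFinset]
  constructor
  · rintro rfl
    exact (hρ x).2
  · intro hx
    exact (hρu x r ⟨hr, hx⟩).symm

theorem exists_orbit_representatives (q : Nat.Primes) (X : Type) [MulAction GQ X] [Finite X] :
    ∃ R : Finset X, ∀ x : X, ∃! r, r ∈ R ∧ x ∈ locOrb q r := by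
  classical
  have := Fintype.ofFinite X
  let s : Setoid X :=
    { r := fun x y => y ∈ locOrb q x
      iseqv :=
        { refl := fun x => OrbSum_self_mem q x
          symm := fun {x y} h => by
            rw [locOrb_eq_of_mem h]
            exact OrbSum_self_mem q x
          trans := fun {x y z} h h' => by
            rw [← locOrb_eq_of_mem h]
            exact h' } }
  refine ⟨Finset.univ.image fun x => (Quotient.mk s x).out, fun x => ?_⟩
  refine ⟨(Quotient.mk s x).out, ⟨Finset.mem_image_of_mem _ (Finset.mem_univ x), ?_⟩, ?_⟩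
  · exact Quotient.exact (Quotient.out_eq (Quotient.mk s x))
  · rintro r ⟨hr, hx⟩
    obtain ⟨y, -, rfl⟩ := Finset.mem_image.1 hr
    have h1 : Quotient.mk s (Quotient.mk s y).out = Quotient.mk s x := Quotient.sound hx
    rw [Quotient.out_eq] at h1
    rw [h1]

theorem orbSum_eq_sum_of_transitive (q : Nat.Primes) (x₀ : X) (h : ∀ x : X, x ∈ locOrb q x₀)
    (F : ResMod (ιv q) (IndMod X A)) :
    orbSum A q X x₀ F = ResMod.map (ιv q) (IndMod.sum X A) F := by
  obtain ⟨f, rfl⟩ := (ResMod.toRes (ιv q)).surjective F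
  rw [ResMod.map_toRes, orbSum_toRes, IndMod.sum_def]
  congr 1
  have e : locOrb q x₀ = Set.univ := Set.eq_univ_of_forall h
  rw [finsum_set_coe_eq_finsum_mem, e, finsum_mem_univ]

omit [Finite X'] in
theorem OrbSum_iterate_smul (σ : X' →[GQ] X') (k : ℕ) (g : GQ) (x : X') :
    σ^[k] (g • x) = g • σ^[k] x := by
  induction k generalizing x with
  | zero => rfl
  | succ k ih => rw [Function.iterate_succ_apply, map_smul, ih, ← Function.iterate_succ_apply]

omit [Finite X'] [Finite X] in
theorem OrbSum_iterate_mod {p : ℕ} {u : X' →[GQ] X} {σ : X' →[GQ] X'} (h : CyclicCover u σ p)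
    (a : ℕ) (x : X') : σ^[a] x = σ^[a % p] x := by
  have h1 : ∀ n : ℕ, σ^[p * n] x = x := by
    intro n
    induction n with
    | zero => rfl
    | succ n ih => rw [Nat.mul_succ, Function.iterate_add_apply, h.pow, ih]
  conv_lhs => rw [← Nat.mod_add_div a p, Function.iterate_add_apply, h1]

/-- in a cyclic cover of prime degree the local degree is `1` or `p` -/
theorem locDeg_eq_of_moved {p : ℕ} (hp : p.Prime) {u : X' →[GQ] X} {σ : X' →[GQ] X'}
    (h : CyclicCover u σ p) (q : Nat.Primes) (x' : X') (d : GQ) (hd : d ∈ Dv q)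
    (hne : d • x' ≠ x') (hu : u (d • x') = u x') (z' : X') (hz : u z' ∈ locOrb q (u x')) :
    locDeg q u z' = p := by
  obtain ⟨δ, rfl⟩ := hd
  -- `d • x' = σ^[j] x'`
  obtain ⟨j, hjp, hj⟩ := h.trans x' (ιv q δ • x') hu.symm
  have hj0 : 0 < j := by
    rcases Nat.eq_zero_or_pos j with rfl | h0
    · exact absurd hj.symm hne
    · exact h0
  have hpow : ∀ i : ℕ, ιv q (δ ^ i) • x' = σ^[i * j] x' := by
    intro i
    induction i with
    | zero => simp
    | succ i ih =>
      rw [pow_succ, map_mul, mul_smul, ← hj, ← OrbSum_iterate_smul, ih, ← Function.iterate_add_apply]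
      congr 1
      ring
  have hcop : Nat.Coprime j p := (Nat.coprime_of_lt_prime hj0.ne' hjp hp).symm
  -- the whole fibre through `x'` lies in the local orbit
  have hA : ∀ k : ℕ, ∃ g : Gv q, ιv q g • x' = σ^[k] x' := by
    intro k
    obtain ⟨m, -, hm⟩ := Nat.exists_mul_mod_eq_one_of_coprime hcop hp.one_lt
    refine ⟨δ ^ (m * k), ?_⟩
    have hmod : m * k * j % p = k % p := by
      calc m * k * j % p = (j * m) * k % p := by congr 1; ring
        _ = ((j * m) % p) * (k % p) % p := Nat.mul_mod _ _ _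
        _ = k % p := by rw [hm, one_mul, Nat.mod_mod]
    rw [hpow, OrbSum_iterate_mod h, OrbSum_iterate_mod h k, hmod]
  obtain ⟨e, he⟩ := hz
  have he' : u (ιv q e • x') = u z' := by rw [map_smul, he]
  obtain ⟨l, -, hl⟩ := h.trans _ _ he'
  have hB : ∀ z : X', u z = u z' → z ∈ locOrb q z' := by
    intro z hzz
    obtain ⟨k, -, hk⟩ := h.trans _ _ hzz.symm
    obtain ⟨g, hg⟩ := hA k
    refine ⟨e * g * e⁻¹, ?_⟩
    rw [← hk, ← hl, ← Function.iterate_add_apply, add_comm, Function.iterate_add_apply,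
      OrbSum_iterate_smul σ k, ← hg, ← OrbSum_iterate_smul σ l, map_mul, map_mul, mul_smul,
      mul_smul, map_inv, inv_smul_smul]
  rw [locDeg, ← h.card_fiber (u z')]
  exact Nat.card_congr (Equiv.subtypeEquivRight fun z => ⟨fun hh => hh.2, fun hh => ⟨hB z hh, hh⟩⟩)

end OrbSum

end Fermat.Agent.S55
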