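/-
S55 / block BR : `BR/InvAt.lean` : cohomological consequences of the module level identities of
`BR/OrbSum.lean` for the invariants `invAt` (one local orbit) and `invTot` (all of `X`).
-/
import Fermat.Agent.S55.BR.Defs
import Fermat.Agent.S55.Coh.IndApi
import Fermat.Agent.S55.BR.OrbSum

set_option autoImplicit false

namespace Fermat.Agent.S55

open Dict (invD)
open scoped Pointwise

/-! ## InvAt : file `BR/InvAt.lean` (cohomological consequences of `OrbSum`) -/
section InvAt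

/-- if `χ = m • φ` pointwise then `χ_* = m • φ_*` -/
private theorem Hsm_map_nsmul_of {G : Type} [Group G] {𝓝 : LevelSys G}
    {A : Type} [AddCommGroup A] [DistribMulAction G A]
    {B : Type} [AddCommGroup B] [DistribMulAction G B] {χ φ : A →+[G] B} (m : ℕ)
    (h : ∀ a, χ a = m • φ a) (n : ℕ) (x : Hsm 𝓝 A n) :
    Hsm.map χ n x = m • Hsm.map φ n x := by
  induction x using Hsm.induction_on with
  | h z =>
    rw [Hsm.map_mk, Hsm.map_mk, ← _root_.map_nsmul]
    congr 1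
    ext1; funext g; simp [h]

variable (inv : ∀ q : Nat.Primes, Hloc q Kx 2 →+ QZ)
variable {X' X : Type} [MulAction GQ X'] [MulAction GQ X] [Finite X'] [Finite X]

theorem invAt_congr (q : Nat.Primes) {x₀ x₁ : X} (h : x₁ ∈ locOrb q x₀)
    (y : Hloc q (IndMod X Kx) 2) : invAt inv q X x₁ y = invAt inv q X x₀ y := by
  unfold invAt
  rw [orbSum_congr q h]

theorem invAt_pull (q : Nat.Primes) (u : X' →[GQ] X) (x' : X') (y : Hloc q (IndMod X Kx) 2) :
    invAt inv q X' x' (Hsm.map (ResMod.map (ιv q) (IndMod.pull Kx u)) 2 y) =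
      locDeg q u x' • invAt inv q X (u x') y := by
  show inv q (Hsm.map (orbSum Kx q X' x') 2 (Hsm.map (ResMod.map (ιv q) (IndMod.pull Kx u)) 2 y)) =
    locDeg q u x' • inv q (Hsm.map (orbSum Kx q X (u x')) 2 y)
  rw [← Hsm.map_comp, ← map_nsmul (inv q)]
  congr 1
  exact Hsm_map_nsmul_of _ (fun F => orbSum_pull q u x' F) 2 y

theorem invX_eq_sum_invAt (q : Nat.Primes) (R : Finset X)
    (hR : ∀ x : X, ∃! r, r ∈ R ∧ x ∈ locOrb q r) (y : Hloc q (IndMod X Kx) 2) :
    invTot inv q X y = ∑ r ∈ R, invAt inv q X r y := by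
  show inv q (Hsm.map (ResMod.map (ιv q) (IndMod.sum X Kx)) 2 y) =
    ∑ r ∈ R, inv q (Hsm.map (orbSum Kx q X r) 2 y)
  rw [← map_sum (inv q)]
  congr 1
  exact Hsm.map_sum' R (fun r => orbSum Kx q X r) (fun F => sum_eq_sum_orbSum q R hR F) 2 y

theorem invX_push (q : Nat.Primes) (u : X' →[GQ] X) (y : Hloc q (IndMod X' Kx) 2) :
    invTot inv q X (Hsm.map (ResMod.map (ιv q) (IndMod.push Kx u)) 2 y) = invTot inv q X' y := by
  show inv q (Hsm.map (ResMod.map (ιv q) (IndMod.sum X Kx)) 2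
      (Hsm.map (ResMod.map (ιv q) (IndMod.push Kx u)) 2 y)) =
    inv q (Hsm.map (ResMod.map (ιv q) (IndMod.sum X' Kx)) 2 y)
  congr 1
  refine (Hsm.map_comp' (fun F => ?_) 2 y).symm
  obtain ⟨f, rfl⟩ := (ResMod.toRes (ιv q)).surjective F
  rw [ResMod.map_toRes, ResMod.map_toRes, ResMod.map_toRes, IndMod.sum_push]

theorem invX_pull (q : Nat.Primes) (u : X' →[GQ] X) (m : ℕ)
    (hm : ∀ x, Nat.card {y // u y = x} = m) (y : Hloc q (IndMod X Kx) 2) :
    invTot inv q X' (Hsm.map (ResMod.map (ιv q) (IndMod.pull Kx u)) 2 y) = m • invTot inv q X y := by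
  show inv q (Hsm.map (ResMod.map (ιv q) (IndMod.sum X' Kx)) 2
      (Hsm.map (ResMod.map (ιv q) (IndMod.pull Kx u)) 2 y)) =
    m • inv q (Hsm.map (ResMod.map (ιv q) (IndMod.sum X Kx)) 2 y)
  rw [← Hsm.map_comp, ← map_nsmul (inv q)]
  congr 1
  refine Hsm_map_nsmul_of m (fun F => ?_) 2 y
  obtain ⟨f, rfl⟩ := (ResMod.toRes (ιv q)).surjective F
  show ResMod.map (ιv q) (IndMod.sum X' Kx) (ResMod.map (ιv q) (IndMod.pull Kx u)
    (ResMod.toRes (ιv q) f)) = _
  rw [ResMod.map_toRes, ResMod.map_toRes, ResMod.map_toRes, ← IndMod.sum_push u,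
    IndMod.push_pull u m hm, map_nsmul, map_nsmul]

end InvAt

end Fermat.Agent.S55
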