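/-
S55 / block BR : `LocBrX` (helper29).  (L3) for `GQ`-sets, from the coset form `LocBr` of LOC.
-/
import Fermat.Agent.S55.BR.Defs
import Fermat.Agent.S55.Coh.IndProd
import Fermat.Agent.S55.Coh.IndApi
import Fermat.Agent.S55.Coh.PPrimary

set_option autoImplicit false

namespace Fermat.Agent.S55

open Dict (invD)
open scoped Pointwise

/-! ### Generalities: a finite `G`-set is partitioned by coset spaces of stabilisers -/
section Gen

variable {G : Type} [Group G] {Y : Type} [MulAction G Y]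

/-- The orbit map `G ⧸ Stab(y₀) → Y`. -/
def locBrX_orb (y₀ : Y) : (G ⧸ MulAction.stabilizer G y₀) →[G] Y :=
  cosetToSet (MulAction.stabilizer G y₀) y₀ (fun _ hu => hu)

theorem locBrX_orb_mk (y₀ : Y) (g : G) :
    locBrX_orb y₀ (g : G ⧸ MulAction.stabilizer G y₀) = g • y₀ := rfl

theorem locBrX_orb_injective (y₀ : Y) : Function.Injective (locBrX_orb (G := G) y₀) := by
  intro a b
  induction a using QuotientGroup.induction_on with
  | H a =>
    induction b using QuotientGroup.induction_on with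
    | H b =>
      intro h
      rw [locBrX_orb_mk, locBrX_orb_mk] at h
      rw [QuotientGroup.eq, MulAction.mem_stabilizer_iff, mul_smul, ← h, inv_smul_smul]

theorem locBrX_finite_coset [Finite Y] (y₀ : Y) : Finite (G ⧸ MulAction.stabilizer G y₀) :=
  Finite.of_injective _ (locBrX_orb_injective y₀)

theorem locBrX_isPartition (Y : Type) [MulAction G Y] :
    IsPartition (G := G)
      (fun ω : MulAction.orbitRel.Quotient G Y => G ⧸ MulAction.stabilizer G ω.out)
      (fun ω => locBrX_orb ω.out) where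
  inj ω := locBrX_orb_injective _
  cover y := by
    have h1 : (Quotient.mk (MulAction.orbitRel G Y) y).out ∈ MulAction.orbit G y :=
      MulAction.orbitRel_apply.1 (Quotient.mk_out (s := MulAction.orbitRel G Y) y)
    obtain ⟨g, hg⟩ := h1
    refine ⟨Quotient.mk (MulAction.orbitRel G Y) y, ((g⁻¹ : G) : G ⧸ _), ?_⟩
    rw [locBrX_orb_mk]
    have hg' : g • y = (Quotient.mk (MulAction.orbitRel G Y) y).out := hg
    rw [← hg', inv_smul_smul]
  disj ω ω' a b := by
    induction a using QuotientGroup.induction_on with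
    | H a =>
      induction b using QuotientGroup.induction_on with
      | H b =>
        intro h
        rw [locBrX_orb_mk, locBrX_orb_mk] at h
        rw [← Quotient.out_eq ω, ← Quotient.out_eq ω']
        apply Quotient.sound
        show MulAction.orbitRel G Y _ _
        rw [MulAction.orbitRel_apply]
        refine ⟨a⁻¹ * b, ?_⟩
        show (a⁻¹ * b) • ω'.out = ω.out
        rw [mul_smul, ← h, inv_smul_smul]

/-- A class all of whose pull-backs to the coset spaces of the stabilisers vanish is zero. -/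
theorem locBrX_hsm_ext {𝓝 : LevelSys G} [Finite Y] {A : Type} [AddCommGroup A]
    [DistribMulAction G A] (n : ℕ) (x : Hsm 𝓝 (IndMod Y A) n)
    (hx : ∀ y₀ : Y, Hsm.map (IndMod.pull A (locBrX_orb (G := G) y₀)) n x = 0) : x = 0 := by
  have : Finite (MulAction.orbitRel.Quotient G Y) :=
    inferInstanceAs (Finite (Quotient (MulAction.orbitRel G Y)))
  exact (locBrX_isPartition (G := G) Y).hsm_ext n x (fun ω => hx ω.out)

end Gen

/-! ### The orbit sums -/
section Orb

variable {q : Nat.Primes} {X : Type} [MulAction GQ X] [Finite X]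

omit [Finite X] in
theorem locBrX_val_mem (x₀ : X)
    (w : Gv q ⧸ MulAction.stabilizer (Gv q) (ResSet.of x₀ : ResSet (ιv q) X)) :
    (locBrX_orb (G := Gv q) (ResSet.of x₀ : ResSet (ιv q) X) w).val ∈ locOrb q x₀ := by
  induction w using QuotientGroup.induction_on with
  | H h => exact ⟨h, rfl⟩

/-- the coset space of the stabiliser is the local orbit -/
noncomputable def locBrX_equiv (q : Nat.Primes) (x₀ : X) :
    (Gv q ⧸ MulAction.stabilizer (Gv q) (ResSet.of x₀ : ResSet (ιv q) X)) ≃ locOrb q x₀ :=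
  Equiv.ofBijective (fun w => ⟨_, locBrX_val_mem x₀ w⟩) (by
    constructor
    · intro a b h
      apply locBrX_orb_injective
      exact ResSet.ext (congrArg Subtype.val h)
    · rintro ⟨x, h, rfl⟩
      exact ⟨(h : Gv q ⧸ _), rfl⟩)

omit [Finite X] in
theorem locBrX_equiv_apply (x₀ : X)
    (w : Gv q ⧸ MulAction.stabilizer (Gv q) (ResSet.of x₀ : ResSet (ιv q) X)) :
    ((locBrX_equiv q x₀ w : locOrb q x₀) : X) =
      (locBrX_orb (G := Gv q) (ResSet.of x₀ : ResSet (ιv q) X) w).val := rfl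

variable (A : Type) [AddCommGroup A] [DistribMulAction GQ A]

/-- the orbit sum is the total sum on the coset space of the stabiliser -/
theorem locBrX_sum_pull (x₀ : X)
    [Finite (Gv q ⧸ MulAction.stabilizer (Gv q) (ResSet.of x₀ : ResSet (ιv q) X))]
    (F : ResMod (ιv q) (IndMod X A)) :
    IndMod.sum (G := Gv q) (Gv q ⧸ MulAction.stabilizer (Gv q) (ResSet.of x₀ : ResSet (ιv q) X))
        (ResMod (ιv q) A)
      (IndMod.pull (ResMod (ιv q) A) (locBrX_orb (G := Gv q) (ResSet.of x₀ : ResSet (ιv q) X))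
        (IndMod.toResSet (ιv q) X A F)) = orbSum A q X x₀ F := by
  rw [IndMod.sum_def]
  show _ = ResMod.toRes (ιv q) (∑ᶠ x : locOrb q x₀, ((ResMod.toRes (ιv q)).symm F) x.1)
  rw [← finsum_comp_equiv (locBrX_equiv q x₀)]
  exact ((ResMod.toRes (ιv q)).toAddMonoidHom.map_finsum
    (f := fun i => ((ResMod.toRes (ιv q)).symm F) ((locBrX_equiv q x₀ i : locOrb q x₀) : X))
    (Set.toFinite _)).symm

/-- `orbSum` kills what is pushed forward from another orbit -/
theorem locBrX_orbSum_push_ne (x₀ x₁ : X) (h : x₁ ∉ locOrb q x₀)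
    [Finite (Gv q ⧸ MulAction.stabilizer (Gv q) (ResSet.of x₀ : ResSet (ιv q) X))]
    (g : IndMod (Gv q ⧸ MulAction.stabilizer (Gv q) (ResSet.of x₀ : ResSet (ιv q) X))
      (ResMod (ιv q) A)) :
    orbSum A q X x₁ (IndMod.ofResSet (ιv q) X A
      (IndMod.push (ResMod (ιv q) A) (locBrX_orb (G := Gv q) (ResSet.of x₀ : ResSet (ιv q) X)) g))
      = 0 := by
  show ResMod.toRes (ιv q) (∑ᶠ x : locOrb q x₁, (ResMod.toRes (ιv q)).symm
    (IndMod.push (ResMod (ιv q) A) (locBrX_orb (G := Gv q) (ResSet.of x₀ : ResSet (ιv q) X)) g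
      (ResSet.of x.1))) = 0
  have h0 : ∀ x : locOrb q x₁,
      IndMod.push (ResMod (ιv q) A) (locBrX_orb (G := Gv q) (ResSet.of x₀ : ResSet (ιv q) X)) g
        (ResSet.of x.1) = 0 := by
    intro x
    rw [IndMod.push_apply]
    have : IsEmpty {w : Gv q ⧸ MulAction.stabilizer (Gv q) (ResSet.of x₀ : ResSet (ιv q) X) //
        locBrX_orb (G := Gv q) (ResSet.of x₀ : ResSet (ιv q) X) w = ResSet.of x.1} := by
      refine ⟨fun w => h ?_⟩
      have h1 := locBrX_val_mem x₀ w.1
      rw [w.2] at h1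
      obtain ⟨a, ha⟩ := h1
      obtain ⟨b, hb⟩ := x.2
      refine ⟨b⁻¹ * a, ?_⟩
      have ha' : ιv q a • x₀ = x.1 := ha
      rw [map_mul, mul_smul, ha', ← hb, map_inv, inv_smul_smul]
    exact finsum_of_isEmpty _
  simp only [h0, map_zero, finsum_zero]

end Orb

/-! ## LocBrX : file `BR/LocBrX.lean` (L3 for `GQ`-sets, from the coset form `LocBr` of LOC) -/
section LocBrX

variable {p : ℕ} {q : Nat.Primes} {inv : ∀ q : Nat.Primes, Hloc q Kx 2 →+ QZ}

/-- (L3a) a `p`-primary local class all of whose invariants vanish is zero -/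
theorem locBr_ext (hL : LocBr p q (inv q)) (X : Type) [MulAction GQ X] [Finite X]
    [SmoothSet lvlAll X] (y : Hloc q (IndMod X Kx) 2)
    (hy : y ∈ pPrimary p (Hloc q (IndMod X Kx) 2)) (h0 : ∀ x₀ : X, invAt inv q X x₀ y = 0) :
    y = 0 := by
  have key : Hsm.map (IndMod.toResSet (ιv q) X Kx) 2 y = 0 := by
    apply locBrX_hsm_ext
    rintro ⟨x₀⟩
    have hfin := locBrX_finite_coset (G := Gv q) (ResSet.of x₀ : ResSet (ιv q) X)
    have hV := SmoothSet.isOpen_stabilizer (lvlLoc q) (ResSet.of x₀ : ResSet (ιv q) X)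
    refine (hL _ hV).1 _ (map_mem_pPrimary _ (map_mem_pPrimary _ hy)) ?_
    rw [← h0 x₀]
    show inv q _ = inv q (Hsm.map (orbSum Kx q X x₀) 2 y)
    congr 1
    rw [← Hsm.map_comp, ← Hsm.map_comp]
    exact DFunLike.congr_fun (Hsm.map_congr (fun F => locBrX_sum_pull Kx x₀ F) 2) y
  have h1 := congrArg (Hsm.map (IndMod.ofResSet (ιv q) X Kx) 2) key
  rw [map_zero, ← Hsm.map_comp] at h1
  rw [← h1]
  exact (Hsm.map_id' (fun F => IndMod.ofResSet_toResSet (ιv q) X Kx F) 2 y).symm

/-- (L3b) existence of a local class with one prescribed invariant -/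
theorem locBr_exists (hL : LocBr p q (inv q)) (X : Type) [MulAction GQ X] [Finite X]
    [SmoothSet lvlAll X] (x₀ : X) (c : QZ) (hc : c ∈ pPrimary p QZ) :
    ∃ y ∈ pPrimary p (Hloc q (IndMod X Kx) 2), invAt inv q X x₀ y = c ∧
      ∀ x₁ : X, x₁ ∉ locOrb q x₀ → invAt inv q X x₁ y = 0 := by
  have hfin := locBrX_finite_coset (G := Gv q) (ResSet.of x₀ : ResSet (ιv q) X)
  have hV := SmoothSet.isOpen_stabilizer (lvlLoc q) (ResSet.of x₀ : ResSet (ιv q) X)
  obtain ⟨z, hz, hzc⟩ := (hL _ hV).2 c hc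
  refine ⟨Hsm.map (IndMod.ofResSet (ιv q) X Kx) 2 (Hsm.map (IndMod.push (ResMod (ιv q) Kx)
    (locBrX_orb (G := Gv q) (ResSet.of x₀ : ResSet (ιv q) X))) 2 z),
    map_mem_pPrimary _ (map_mem_pPrimary _ hz), ?_, ?_⟩
  · rw [← hzc]
    show inv q _ = inv q _
    congr 1
    rw [← Hsm.map_comp, ← Hsm.map_comp]
    refine DFunLike.congr_fun (Hsm.map_congr (fun g => ?_) 2) z
    show orbSum Kx q X x₀ (IndMod.ofResSet (ιv q) X Kx (IndMod.push _ _ g)) = _
    rw [← locBrX_sum_pull, IndMod.toResSet_ofResSet,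
      IndMod.pull_push_of_injective (locBrX_orb_injective _)]
  · intro x₁ hx₁
    show inv q _ = 0
    rw [← Hsm.map_comp, ← Hsm.map_comp,
      Hsm.map_zero' (fun g => locBrX_orbSum_push_ne Kx x₀ x₁ hx₁ g) 2 z, map_zero]

end LocBrX

end Fermat.Agent.S55
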