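/-
S55 / block BR : the place `Av q` and the group `Dv q` (task BR-LocalPlace, architect helper130,
proofs helper282).
-/
import Fermat.Agent.S55.BR.Defs
import Fermat.Agent.S55.Bridge.LocalImage
import Fermat.Agent.S55.Units.Conj
import Fermat.Agent.Lib.Frobenius

set_option autoImplicit false

namespace Fermat.Agent.S55

open Dict (invD)
open scoped Pointwise

/-! ## LocalPlace : file `BR/LocalPlace.lean` (the place `Av q` and the group `Dv q`) -/
section LocalPlace

theorem Av_liesOverPrime (q : Nat.Primes) : (Av q).LiesOverPrime (q : ℕ) := by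
  have : Fact (q : ℕ).Prime := ⟨q.2⟩
  exact Bridge.padicPlace_liesOverPrime (q : ℕ)

theorem Dv_eq (q : Nat.Primes) : Dv q = (Av q).decompositionSubgroup ℚ := by
  have : Fact (q : ℕ).Prime := ⟨q.2⟩
  exact Bridge.range_localGaloisToGlobal (q : ℕ)

theorem exists_frobenius_Av (q : Nat.Primes) : ∃ φ : GQ, (Av q).IsFrobeniusAt φ (q : ℕ) :=
  Fermat.Agent.Lib.Frobenius.exists_isFrobeniusAt (Av q) (q : ℕ) q.2 (Av_liesOverPrime q)

/-- all places over `q` are conjugate to `Av q` -/
theorem exists_smul_Av_eq (q : Nat.Primes) (A : ValuationSubring Qb)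
    (hA : A.LiesOverPrime (q : ℕ)) : ∃ g : GQ, g • Av q = A :=
  Units.exists_smul_eq_of_liesOver (q : ℕ) q.2 (Av q) A (Av_liesOverPrime q) hA

end LocalPlace

end Fermat.Agent.S55
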