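/-
S55 / block BR : `BR/CycSplit.lean` (B5): `p`-primary classes of `H^2(Map(GQ ⧸ U, ℚ̄ˣ))` which are locally
trivial outside a finite set `T` are split by a layer of the cyclotomic tower `ℚ(μ_{p^M})`.
* `cycLayer_isOpen`             : the layers are of finite level;
* `exists_dvd_locDeg_cycLayer`  : the local degrees at the primes of `T` become divisible by `p ^ k`;
* `exists_cycLayer_split`       : B5.
-/
import Fermat.Agent.S55.BR.Defs
import Fermat.Agent.S55.BR.LocalDegree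
import Fermat.Agent.S55.BR.Cyc
import Fermat.Agent.S55.BR.Hasse
import Fermat.Agent.S55.BR.LocBrX
import Fermat.Agent.S55.BR.InvAt
import Fermat.Agent.S55.BR.OrbSum
import Fermat.Agent.S55.BR.LocalPlace
import Fermat.Agent.S55.BR.LocNat

set_option autoImplicit false

namespace Fermat.Agent.S55

open Dict (invD)
open scoped Pointwise

section CycSplit

open BR

theorem cycSplit_ker_isOpen (n : ℕ) [NeZero n] : lvlAll.IsOpen (BR.cycN n).ker := by
  obtain ⟨F, h1, h2, h3⟩ := BR.cycN_level n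
  refine ⟨F.fixingSubgroup, ⟨F, h1, ?_, rfl⟩, fun σ hσ => h3 σ hσ⟩
  intro g x hx
  have hn : Normal ℚ Qb := BR.Cyc.normal_rat
  have := (IntermediateField.normal_iff_forall_map_le'.mp h2) g
  exact this ⟨x, hx, rfl⟩

theorem cycLayer_isOpen (p : ℕ) [Fact p.Prime] {U : Subgroup GQ} (hU : lvlAll.IsOpen U) (M : ℕ) :
    lvlAll.IsOpen (cycLayer p U M) := by
  have : NeZero (p ^ M) := ⟨pow_ne_zero _ (Fact.out : p.Prime).ne_zero⟩
  exact hU.inf (cycSplit_ker_isOpen (p ^ M))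


theorem cycSplit_card_range_eq {α β γ : Type} (f₁ : α → β) (f₂ : α → γ)
    (h : ∀ a b, f₁ a = f₁ b ↔ f₂ a = f₂ b) :
    Nat.card (Set.range f₁) = Nat.card (Set.range f₂) := by
  have h1 : Setoid.ker f₁ = Setoid.ker f₂ := Setoid.ext (fun a b => h a b)
  rw [← Nat.card_congr (Setoid.quotientKerEquivRange f₁), h1,
    Nat.card_congr (Setoid.quotientKerEquivRange f₂)]

/-- orbit-stabiliser for the fibre of `G ⧸ (U ⊓ ker χ) → G ⧸ U`, `χ` with commutative target. -/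
theorem cycSplit_card_fibre {G C : Type} [Group G] [CommGroup C] (U D : Subgroup G) (χ : G →* C)
    (x' : G ⧸ (U ⊓ χ.ker)) :
    Nat.card {z : G ⧸ (U ⊓ χ.ker) // (∃ d ∈ D, d • x' = z) ∧
      cosetMap (inf_le_left : U ⊓ χ.ker ≤ U) z = cosetMap (inf_le_left : U ⊓ χ.ker ≤ U) x'} =
    Nat.card ((D ⊓ MulAction.stabilizer G
      (cosetMap (inf_le_left : U ⊓ χ.ker ≤ U) x')).map χ) := by
  set u := cosetMap (inf_le_left : U ⊓ χ.ker ≤ U) with hu
  set D' := D ⊓ MulAction.stabilizer G (u x') with hD'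
  have hkey : ∀ d₁ ∈ D', ∀ d₂ ∈ D', (d₁ • x' = d₂ • x' ↔ χ d₁ = χ d₂) := by
    intro d₁ h₁ d₂ h₂
    induction x' using QuotientGroup.induction_on with
    | H g =>
      have e₁ : d₁ • (g : G ⧸ U) = (g : G ⧸ U) := h₁.2
      have e₂ : d₂ • (g : G ⧸ U) = (g : G ⧸ U) := h₂.2
      have e₃ : ((d₁ * g : G) : G ⧸ U) = ((d₂ * g : G) : G ⧸ U) := e₁.trans e₂.symm
      rw [QuotientGroup.eq] at e₃
      show ((d₁ * g : G) : G ⧸ (U ⊓ χ.ker)) = ((d₂ * g : G) : G ⧸ (U ⊓ χ.ker)) ↔ _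
      rw [QuotientGroup.eq, Subgroup.mem_inf, MonoidHom.mem_ker]
      have e₄ : χ ((d₁ * g)⁻¹ * (d₂ * g)) = (χ d₁)⁻¹ * χ d₂ := by
        simp only [map_mul, map_inv, mul_inv_rev]
        rw [mul_comm (χ g)⁻¹, mul_comm (χ d₂), mul_assoc, inv_mul_cancel_left]
      rw [e₄]
      constructor
      · intro h
        exact (inv_mul_eq_one.mp h.2)
      · intro h
        exact ⟨e₃, by rw [h, inv_mul_cancel]⟩
  have h1 := cycSplit_card_range_eq (fun d : D' => (d : G) • x') (fun d : D' => χ (d : G))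
    (fun a b => hkey a a.2 b b.2)
  have h2 : {z : G ⧸ (U ⊓ χ.ker) | (∃ d ∈ D, d • x' = z) ∧ u z = u x'} =
      Set.range (fun d : D' => (d : G) • x') := by
    ext z
    constructor
    · rintro ⟨⟨d, hd, rfl⟩, hz⟩
      refine ⟨⟨d, hd, ?_⟩, rfl⟩
      show d • u x' = u x'
      rw [← map_smul]
      exact hz
    · rintro ⟨⟨d, hd, hd'⟩, rfl⟩
      refine ⟨⟨d, hd, rfl⟩, ?_⟩
      have hd'' : d • u x' = u x' := hd'
      show u (d • x') = u x'
      rw [map_smul, hd'']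
  have h3 : ((D'.map χ : Subgroup C) : Set C) = Set.range (fun d : D' => χ (d : G)) := by
    ext c
    constructor
    · rintro ⟨d, hd, rfl⟩
      exact ⟨⟨d, hd⟩, rfl⟩
    · rintro ⟨⟨d, hd⟩, rfl⟩
      exact ⟨d, hd, rfl⟩
  calc Nat.card {z : G ⧸ (U ⊓ χ.ker) // (∃ d ∈ D, d • x' = z) ∧ u z = u x'}
      = Nat.card (Set.range (fun d : D' => (d : G) • x')) := Nat.card_congr (Equiv.setCongr h2)
    _ = Nat.card (Set.range (fun d : D' => χ (d : G))) := h1
    _ = Nat.card (D'.map χ) := (Nat.card_congr (Equiv.setCongr h3)).symm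


/-- the kernel of `(ℤ/p^(M+1))ˣ → (ℤ/p)ˣ` has order `p^M` -/
theorem cycSplit_card_ker_unitsMap (p : ℕ) [Fact p.Prime] (M : ℕ) :
    Nat.card (ZMod.unitsMap (Dvd.intro_left (p ^ M) rfl : p ∣ p ^ (M + 1))).ker = p ^ M := by
  have hp : p.Prime := Fact.out
  have : NeZero (p ^ (M + 1)) := ⟨pow_ne_zero _ hp.ne_zero⟩
  set f := ZMod.unitsMap (Dvd.intro_left (p ^ M) rfl : p ∣ p ^ (M + 1)) with hf
  have hs : Function.Surjective f := ZMod.unitsMap_surjective _
  have h1 := f.ker.card_mul_index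
  rw [Subgroup.index_ker, MonoidHom.range_eq_top.mpr hs, Subgroup.card_top,
    Nat.card_eq_fintype_card (α := (ZMod p)ˣ), Nat.card_eq_fintype_card (α := (ZMod (p ^ (M + 1)))ˣ),
    ZMod.card_units_eq_totient, ZMod.card_units_eq_totient,
    Nat.totient_prime_pow_succ hp, Nat.totient_prime hp] at h1
  exact Nat.eq_of_mul_eq_mul_right (by have := hp.two_le; omega) h1

theorem cycSplit_cycN_eq_one (p : ℕ) [Fact p.Prime] {U : Subgroup GQ}
    (hμ : ActsTrivially U (Mu p)) (u : GQ) (hu : u ∈ U) : BR.cycN p u = 1 := by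
  rw [BR.cycN_eq_one_iff]
  intro x hx
  have hp : p.Prime := Fact.out
  have hx0 : x ≠ 0 := by
    rintro rfl
    rw [zero_pow hp.ne_zero] at hx
    exact zero_ne_one hx
  have hmem : (Additive.ofMul (Units.mk0 x hx0) : Kx) ∈ (muSub p).toAddSubgroup := by
    show p • (Additive.ofMul (Units.mk0 x hx0) : Kx) = 0
    rw [← ofMul_pow]
    apply Additive.toMul.injective
    apply Units.ext
    simpa using hx
  have h1 := hμ u hu ((muSub p).mkMod _ hmem)
  have h2 := congrArg (fun a => ((muSub p).incl a).val) h1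
  exact h2


theorem cycSplit_locDeg_eq (p : ℕ) [Fact p.Prime] (U : Subgroup GQ) (M : ℕ) [NeZero (p ^ M)]
    (q : Nat.Primes) (x' : GQ ⧸ cycLayer p U M) :
    locDeg q (cosetMap (cycLayer_le p U M)) x' =
      Nat.card ((Dv q ⊓ MulAction.stabilizer GQ (cosetMap (cycLayer_le p U M) x')).map
        (BR.cycN (p ^ M))) := by
  have h := cycSplit_card_fibre U (Dv q) (BR.cycN (p ^ M)) x'
  refine Eq.trans ?_ h
  unfold locDeg
  refine Nat.card_congr (Equiv.subtypeEquivRight (fun z => and_congr_left' ?_))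
  constructor
  · rintro ⟨h, rfl⟩
    exact ⟨ιv q h, ⟨h, rfl⟩, rfl⟩
  · rintro ⟨_, ⟨h, rfl⟩, rfl⟩
    exact ⟨h, rfl⟩

/-- local degrees in the cyclotomic tower -/
theorem exists_dvd_locDeg_cycLayer (p : ℕ) [Fact p.Prime] {U : Subgroup GQ}
    (hU : lvlAll.IsOpen U) (hμ : ActsTrivially U (Mu p)) (T : Finset Nat.Primes) (k : ℕ) :
    ∃ M : ℕ, ∀ q ∈ T, ∀ x' : GQ ⧸ cycLayer p U M,
      p ^ k ∣ locDeg q (cosetMap (cycLayer_le p U M)) x' := by
  have hp : p.Prime := Fact.out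
  have hfi := hU.finiteIndex
  choose N₀ hN₀ using fun q : Nat.Primes =>
    BR.exists_card_map_cycN_ge p q q.2 (Av q) (Av_liesOverPrime q) U.index k
  obtain ⟨M, hM⟩ : ∃ M, ∀ q ∈ T, N₀ q ≤ M := ⟨T.sup N₀, fun q hq => Finset.le_sup hq⟩
  refine ⟨M + 1, fun q hq x' => ?_⟩
  have hne : NeZero (p ^ (M + 1)) := ⟨pow_ne_zero _ hp.ne_zero⟩
  rw [cycSplit_locDeg_eq]
  set y := cosetMap (cycLayer_le p U (M + 1)) x' with hy
  set D' := Dv q ⊓ MulAction.stabilizer GQ y with hD'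
  have hidx : (MulAction.stabilizer GQ y).index = U.index := by
    rw [MulAction.index_stabilizer_of_transitive, Subgroup.index_eq_card]
  have hrel0 : D'.relIndex (Dv q) ≠ 0 := by
    rw [hD', Subgroup.inf_relIndex_left]
    intro h0
    have := Subgroup.index_eq_zero_of_relIndex_eq_zero h0
    rw [hidx] at this
    exact hfi.index_ne_zero this
  have hrel : D'.relIndex (Dv q) ≤ U.index := by
    rw [hD', Subgroup.inf_relIndex_left, ← hidx, ← Subgroup.relIndex_top_right]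
    apply Subgroup.relIndex_le_of_le_right le_top
    rw [Subgroup.relIndex_top_right, hidx]
    exact hfi.index_ne_zero
  have h1 : p ^ k ≤ Nat.card (D'.map (BR.cycN (p ^ (M + 1)))) := by
    refine hN₀ q (M + 1) (le_trans (hM q hq) (Nat.le_succ _)) D' ?_ ?_ ?_
    · rw [← Dv_eq]; exact inf_le_left
    · rw [← Dv_eq]; exact hrel0
    · rw [← Dv_eq]; exact hrel
  have h2 : D'.map (BR.cycN (p ^ (M + 1))) ≤
      (ZMod.unitsMap (Dvd.intro_left (p ^ M) rfl : p ∣ p ^ (M + 1))).ker := by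
    rintro _ ⟨d, hd, rfl⟩
    rw [MonoidHom.mem_ker]
    have e1 : ZMod.unitsMap (Dvd.intro_left (p ^ M) rfl : p ∣ p ^ (M + 1))
        (BR.cycN (p ^ (M + 1)) d) = BR.cycN p d := BR.cycN_cast _ d
    rw [e1]
    have hd2 : d • y = y := hd.2
    obtain ⟨g, hg⟩ := QuotientGroup.mk_surjective y
    rw [← hg] at hd2
    have e2 : ((d * g : GQ) : GQ ⧸ U) = (g : GQ ⧸ U) := hd2
    rw [eq_comm, QuotientGroup.eq] at e2
    have e3 := cycSplit_cycN_eq_one p hμ _ e2
    rw [map_mul, map_mul, map_inv, mul_comm (BR.cycN p d), inv_mul_cancel_left] at e3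
    exact e3
  have h3 := Subgroup.card_dvd_of_le h2
  rw [cycSplit_card_ker_unitsMap] at h3
  obtain ⟨j, -, hj'⟩ := (Nat.dvd_prime_pow hp).1 h3
  rw [hj'] at h1 ⊢
  exact pow_dvd_pow _ ((Nat.pow_le_pow_iff_right hp.one_lt).1 h1)

/-- **B5** -/
theorem exists_cycLayer_split {p : ℕ} [Fact p.Prime] (hp2 : p ≠ 2) (I : BRInput p)
    {U : Subgroup GQ} (hU : lvlAll.IsOpen U) (hμ : ActsTrivially U (Mu p))
    (T : Finset Nat.Primes) (x : Hsm lvlAll (IndMod (GQ ⧸ U) Kx) 2)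
    (hx : x ∈ pPrimary p (Hsm lvlAll (IndMod (GQ ⧸ U) Kx) 2))
    (hloc : ∀ q, q ∉ T → locAll (IndMod (GQ ⧸ U) Kx) q 2 x = 0) :
    ∃ M : ℕ, Hsm.map (IndMod.pull Kx (cosetMap (cycLayer_le p U M))) 2 x = 0 := by
  have hp : p.Prime := Fact.out
  obtain ⟨k, hk⟩ := hx
  obtain ⟨M, hM⟩ := exists_dvd_locDeg_cycLayer p hU hμ T k
  refine ⟨M, ?_⟩
  have hUM := cycLayer_isOpen p hU M
  apply hasse_coset hp I hUM _ ⟨k, by rw [← map_nsmul, hk, map_zero]⟩
  intro q
  rw [locAll_map]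
  by_cases hq : q ∈ T
  · have hf1 : Finite (GQ ⧸ cycLayer p U M) := finite_coset hUM
    have hf2 : Finite (GQ ⧸ U) := finite_coset hU
    have hs1 : SmoothSet lvlAll (GQ ⧸ cycLayer p U M) := smoothSet_coset hUM
    apply locBr_ext (I.locBr q) (GQ ⧸ cycLayer p U M) _
      ⟨k, by rw [← map_nsmul, ← map_nsmul, hk, map_zero, map_zero]⟩
    intro x₀
    rw [invAt_pull]
    obtain ⟨c, hc⟩ := hM q hq x₀
    rw [hc, mul_comm, mul_smul, ← map_nsmul _ (p ^ k), ← map_nsmul _ (p ^ k), hk, map_zero,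
      map_zero, smul_zero]
  · rw [hloc q hq, map_zero]

end CycSplit

end Fermat.Agent.S55
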