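/-
S55 / block BR : file `BR/AlmostAll.lean` (B2) : a global Brauer class is locally trivial at almost
all primes.  Owner: helper47.
-/
import Fermat.Agent.S55.BR.Defs
import Fermat.Agent.S55.Bridge.LocalImage

set_option autoImplicit false

namespace Fermat.Agent.S55

open Dict (invD)
open scoped Pointwise

/-! ## AlmostAll : file `BR/AlmostAll.lean` (B2) -/
section AlmostAll

/-- the chosen place over `q` lies over `q` -/
private theorem almostAll_Av_liesOver (q : Nat.Primes) : (Av q).LiesOverPrime (q : ℕ) := by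
  have : Fact (q : ℕ).Prime := ⟨q.2⟩
  exact Fermat.Agent.S55.Bridge.padicPlace_liesOverPrime (q : ℕ)

/-- elements integral over `ℤ` lie in every valuation subring -/
private theorem almostAll_mem_of_isIntegral (A : ValuationSubring Qb) {y : Qb}
    (hy : IsIntegral ℤ y) : y ∈ A := by
  have h1 : IsIntegral A y := hy.tower_top
  obtain ⟨z, hz⟩ := (IsIntegrallyClosed.isIntegral_iff (R := A) (K := Qb)).1 h1
  rw [← hz]
  exact z.2

/-- an integer prime to the residue characteristic is a unit -/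
private theorem almostAll_valuation_intCast (A : ValuationSubring Qb) {q : ℕ} (hq : q.Prime)
    (hA : A.LiesOverPrime q) {n : ℤ} (hn : ¬ (q : ℤ) ∣ n) : A.valuation (n : Qb) = 1 := by
  have hle : ∀ m : ℤ, A.valuation (m : Qb) ≤ 1 := fun m =>
    (A.valuation_le_one_iff _).2 (intCast_mem A m)
  have hcop : IsCoprime (q : ℤ) n :=
    ((Nat.prime_iff_prime_int.mp hq).coprime_iff_not_dvd).mpr hn
  obtain ⟨a, b, hab⟩ := hcop
  have hab' : (a : Qb) * (q : Qb) + (b : Qb) * (n : Qb) = 1 := by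
    exact_mod_cast congrArg (Int.cast : ℤ → Qb) hab
  by_contra hne
  have hlt : A.valuation (n : Qb) < 1 := lt_of_le_of_ne (hle n) hne
  have hq' : A.valuation (q : Qb) < 1 := A.mem_nonunits_iff.mp hA
  have h1 : A.valuation ((a : Qb) * (q : Qb)) < 1 := by
    rw [map_mul]; exact lt_of_le_of_lt (mul_le_of_le_one_left' (hle a)) hq'
  have h2 : A.valuation ((b : Qb) * (n : Qb)) < 1 := by
    rw [map_mul]; exact lt_of_le_of_lt (mul_le_of_le_one_left' (hle b)) hlt
  have h3 := Valuation.map_add_lt _ h1 h2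
  rw [hab', map_one] at h3
  exact lt_irrefl _ h3

/-- an algebraic number is integral at almost all places -/
private theorem almostAll_valuation_le_one (y : Qb) :
    ∃ T : Finset Nat.Primes, ∀ q : Nat.Primes, q ∉ T → ∀ A : ValuationSubring Qb,
      A.LiesOverPrime (q : ℕ) → A.valuation y ≤ 1 := by
  have halg : IsAlgebraic ℤ y :=
    (IsFractionRing.isAlgebraic_iff ℤ ℚ Qb).2 ((AlgebraicClosure.isAlgebraic ℚ).isAlgebraic y)
  obtain ⟨N, hN0, hN⟩ := halg.exists_integral_multiple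
  refine ⟨(N.natAbs.primeFactors).subtype Nat.Prime, fun q hq A hA => ?_⟩
  have hqN : ¬ ((q : ℕ) : ℤ) ∣ N := by
    intro hdvd
    apply hq
    exact (Finset.mem_subtype (s := N.natAbs.primeFactors) (p := Nat.Prime) (a := q)).2
      (Nat.mem_primeFactors.2 ⟨q.2, Int.natCast_dvd.1 hdvd, Int.natAbs_ne_zero.2 hN0⟩)
  have h1 : A.valuation (N : Qb) = 1 := almostAll_valuation_intCast A q.2 hA hqN
  have h2 : A.valuation (N • y) ≤ 1 :=
    (A.valuation_le_one_iff _).2 (almostAll_mem_of_isIntegral A hN)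
  rwa [zsmul_eq_mul, map_mul, h1, one_mul] at h2

/-- an algebraic number is a unit at almost all places -/
private theorem almostAll_valuation_eq_one (x : Qb) (hx : x ≠ 0) :
    ∃ T : Finset Nat.Primes, ∀ q : Nat.Primes, q ∉ T → ∀ A : ValuationSubring Qb,
      A.LiesOverPrime (q : ℕ) → A.valuation x = 1 := by
  classical
  obtain ⟨T, hT⟩ := almostAll_valuation_le_one x
  obtain ⟨T', hT'⟩ := almostAll_valuation_le_one x⁻¹
  refine ⟨T ∪ T', fun q hq A hA => ?_⟩
  have h1 := hT q (fun h => hq (Finset.mem_union_left _ h)) A hA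
  have h2 := hT' q (fun h => hq (Finset.mem_union_right _ h)) A hA
  have h0 : A.valuation x ≠ 0 := (Valuation.ne_zero_iff _).2 hx
  rw [map_inv₀] at h2
  exact le_antisymm h1 ((inv_le_one₀ (zero_lt_iff.2 h0)).1 h2)

/-- finitely many nonzero algebraic numbers are units at almost all places -/
theorem almostAll_valuation_eq_one_of_finite {s : Set Qb} (hs : s.Finite)
    (h0 : ∀ x ∈ s, x ≠ 0) :
    ∃ T : Finset Nat.Primes, ∀ q : Nat.Primes, q ∉ T → ∀ A : ValuationSubring Qb,
      A.LiesOverPrime (q : ℕ) → ∀ x ∈ s, A.valuation x = 1 := by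
  classical
  induction s, hs using Set.Finite.induction_on with
  | empty => exact ⟨∅, fun _ _ _ _ x hx => absurd hx (Set.notMem_empty x)⟩
  | @insert a s _ _ ih =>
    obtain ⟨T, hT⟩ := ih fun x hx => h0 x (Set.mem_insert_of_mem _ hx)
    obtain ⟨T', hT'⟩ := almostAll_valuation_eq_one a (h0 a (Set.mem_insert _ _))
    refine ⟨T ∪ T', fun q hq A hA x hx => ?_⟩
    rcases hx with rfl | hx
    · exact hT' q (fun h => hq (Finset.mem_union_right _ h)) A hA
    · exact hT q (fun h => hq (Finset.mem_union_left _ h)) A hA x hx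

/-- An element of the inertia group at `A` is congruent to the identity on `A`. -/
private theorem almostAll_sub_mem_nonunits {A : ValuationSubring Qb} {τ : GQ}
    (h : τ ∈ A.inertiaSubgroupIn ℚ) {x : Qb} (hx : x ∈ A) : τ x - x ∈ A.nonunits := by
  obtain ⟨⟨τ', hdec⟩, hτ, rfl⟩ := h
  have h0 : MulSemiringAction.toRingAut (A.decompositionSubgroup ℚ)
      (IsLocalRing.ResidueField A) ⟨τ', hdec⟩ = 1 := hτ
  have h1 : (⟨τ', hdec⟩ : A.decompositionSubgroup ℚ) • IsLocalRing.residue A ⟨x, hx⟩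
      = IsLocalRing.residue A ⟨x, hx⟩ := by
    have := congrArg (fun f => f (IsLocalRing.residue A ⟨x, hx⟩)) h0
    exact this
  rw [← IsLocalRing.ResidueField.residue_smul, ← sub_eq_zero, ← map_sub,
    IsLocalRing.residue_eq_zero_iff, A.valuation_lt_one_iff] at h1
  rw [A.mem_nonunits_iff]
  exact h1

/-- A finite extension of `ℚ` is unramified at almost all primes. -/
theorem almostAll_inertia_le_fixingSubgroup (F : IntermediateField ℚ Qb)
    (hf : FiniteDimensional ℚ F) :
    ∃ T : Finset Nat.Primes, ∀ q : Nat.Primes, q ∉ T → ∀ A : ValuationSubring Qb,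
      A.LiesOverPrime (q : ℕ) → A.inertiaSubgroupIn ℚ ≤ F.fixingSubgroup := by
  classical
  have := fixingSubgroup_finiteIndex F hf
  have : Finite (GQ ⧸ F.fixingSubgroup) := Subgroup.finite_quotient_of_finiteIndex
  have hw : ∀ c : GQ ⧸ F.fixingSubgroup, ∃ x : Qb, x ∈ F ∧
      (c.out ∉ F.fixingSubgroup → c.out x ≠ x) := by
    intro c
    by_cases hc : c.out ∈ F.fixingSubgroup
    · exact ⟨0, F.zero_mem, fun h => absurd hc h⟩
    · have hc' := hc
      rw [IntermediateField.mem_fixingSubgroup_iff] at hc'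
      push Not at hc'
      obtain ⟨x, hx, hne⟩ := hc'
      exact ⟨x, hx, fun _ => hne⟩
  choose w hwF hwne using hw
  obtain ⟨T, hT⟩ := almostAll_valuation_eq_one_of_finite
    (s := (Set.range (fun c : GQ ⧸ F.fixingSubgroup => c.out (w c) - w c) ∪ Set.range w) \ {0})
    (((Set.finite_range _).union (Set.finite_range _)).subset Set.sdiff_subset)
    (fun x hx => hx.2)
  refine ⟨T, fun q hq A hA τ hτ => ?_⟩
  by_contra hτF
  set c : GQ ⧸ F.fixingSubgroup := (τ : GQ ⧸ F.fixingSubgroup) with hc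
  have h1 : c.out⁻¹ * τ ∈ F.fixingSubgroup := QuotientGroup.eq.1 (QuotientGroup.out_eq' _)
  have hout : c.out ∉ F.fixingSubgroup := fun h => hτF (by
    have := mul_mem h h1
    rwa [mul_inv_cancel_left] at this)
  have h2 : τ (w c) = c.out (w c) := by
    have h3 : (c.out⁻¹ * τ) (w c) = w c :=
      (IntermediateField.mem_fixingSubgroup_iff F _).1 h1 (w c) (hwF c)
    have h4 : c.out ((c.out⁻¹ * τ) (w c)) = τ (w c) := by
      show (c.out * (c.out⁻¹ * τ)) (w c) = τ (w c)
      rw [mul_inv_cancel_left]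
    rw [← h4, h3]
  have hne := hwne c hout
  have hw0 : w c ≠ 0 := by
    intro h
    apply hne
    rw [h, map_zero]
  have hv1 : A.valuation (c.out (w c) - w c) = 1 :=
    hT q hq A hA _ ⟨Or.inl ⟨c, rfl⟩, sub_ne_zero.2 hne⟩
  have hv2 : A.valuation (w c) = 1 := hT q hq A hA _ ⟨Or.inr ⟨c, rfl⟩, hw0⟩
  have hmem : w c ∈ A := (A.valuation_le_one_iff _).1 hv2.le
  have h5 := almostAll_sub_mem_nonunits hτ hmem
  rw [h2, A.mem_nonunits_iff, hv1] at h5
  exact lt_irrefl _ h5

/-- **B2** : a global class is locally trivial at almost all primes. -/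
theorem finite_locAll_ne_zero (hu : UnramUnits) (X : Type) [MulAction GQ X] [Finite X]
    [SmoothSet lvlAll X] (x : Hsm lvlAll (IndMod X Kx) 2) :
    {q : Nat.Primes | locAll (IndMod X Kx) q 2 x ≠ 0}.Finite := by
  classical
  obtain ⟨z, rfl⟩ := Hsm.mk_surjective 2 x
  obtain ⟨N₀, hN₀, hlev⟩ := z.2.1
  have hlev' : IsLevelAt N₀ (z : (Fin 2 → GQ) → IndMod X Kx) := hlev
  obtain ⟨N₁, hN₁, hfix⟩ := SmoothSet.exists_fix_all lvlAll X
  obtain ⟨N, hN, hle⟩ := lvlAll.directed N₀ hN₀ N₁ hN₁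
  obtain ⟨F, hFfin, -, hNF⟩ := id hN
  obtain ⟨T₁, hT₁⟩ := almostAll_inertia_le_fixingSubgroup F hFfin
  have := lvlAll.finiteIndex N₀ hN₀
  have hfin : (Set.range (z : (Fin 2 → GQ) → IndMod X Kx)).Finite := hlev'.finite_range
  obtain ⟨T₂, hT₂⟩ := almostAll_valuation_eq_one_of_finite
    (s := (fun p : IndMod X Kx × X => (p.1 p.2).val) ''
      (Set.range (z : (Fin 2 → GQ) → IndMod X Kx) ×ˢ (Set.univ : Set X)))
    ((hfin.prod Set.finite_univ).image _) (by
      rintro _ ⟨p, -, rfl⟩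
      exact Units.ne_zero _)
  refine (T₁ ∪ T₂).finite_toSet.subset fun q hq => ?_
  by_contra hqT
  apply hq
  have hq1 : q ∉ T₁ := fun h => hqT (Finset.mem_coe.2 (Finset.mem_union_left _ h))
  have hq2 : q ∉ T₂ := fun h => hqT (Finset.mem_coe.2 (Finset.mem_union_right _ h))
  have hin : ∀ τ ∈ (Av q).inertiaSubgroupIn ℚ, τ ∈ N := fun τ hτ => by
    rw [hNF]
    exact hT₁ q hq1 (Av q) (almostAll_Av_liesOver q) hτ
  refine hu q X N hN z (hlev'.mono (hle.trans inf_le_left))
    (fun τ hτ => ⟨hin τ hτ, fun x => hfix τ (hle (hin τ hτ)).2 x⟩) (fun g x => ?_)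
  have hv : (Av q).valuation (((z : (Fin 2 → GQ) → IndMod X Kx) g x).val) = 1 :=
    hT₂ q hq2 (Av q) (almostAll_Av_liesOver q) _
      ⟨((z : (Fin 2 → GQ) → IndMod X Kx) g, x), ⟨⟨g, rfl⟩, Set.mem_univ _⟩, rfl⟩
  refine ⟨((Av q).valuation_le_one_iff _).1 hv.le, ((Av q).valuation_le_one_iff _).1 ?_⟩
  rw [map_inv₀, hv, inv_one]

end AlmostAll

end Fermat.Agent.S55
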