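/-
S55 / block BR, node BR-A6 : `r` is a norm from every layer of `ℚ(ζ_r)`, in the form of an
equivariant function `Λ : XCyc r m → ℚ̄ˣ` with product `r`.
-/
import Fermat.Agent.S55.BR.CycDefs

set_option autoImplicit false

namespace Fermat.Agent.S55.BR

local notation "Qbar" => AlgebraicClosure ℚ
local notation "GQ" => (AlgebraicClosure ℚ ≃ₐ[ℚ] AlgebraicClosure ℚ)

namespace CycNorm

open Finset

/-- the defining property of `cycN` on a root of unity -/
theorem cycN_apply (n : ℕ) [NeZero n] (σ : GQ) (x : Qbar) (hx : x ^ n = 1) :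
    σ x = x ^ ((cycN n σ : (ZMod n)ˣ) : ZMod n).val := by
  have hx0 : x ≠ 0 := by
    rintro rfl
    rw [zero_pow (NeZero.ne n)] at hx
    exact zero_ne_one hx
  have hmem : Units.mk0 x hx0 ∈ rootsOfUnity n Qbar := by
    rw [mem_rootsOfUnity]
    ext
    simpa using hx
  have := modularCyclotomicCharacter.spec Qbar (card_rootsOfUnity n)
    (MulSemiringAction.toRingAut GQ Qbar σ) hmem
  simpa [cycN] using this

theorem pow_val_mul {r : ℕ} [NeZero r] {ζ : Qbar} (hζ : ζ ^ r = 1) (c t : (ZMod r)ˣ) :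
    (ζ ^ ((c : ZMod r)).val) ^ ((t : ZMod r)).val = ζ ^ (((c * t : (ZMod r)ˣ) : ZMod r)).val := by
  rw [← pow_mul, Units.val_mul, ZMod.val_mul]
  conv_lhs => rw [← Nat.div_add_mod ((c : ZMod r).val * (t : ZMod r).val) r]
  rw [pow_add, pow_mul, hζ, one_pow, one_mul]

theorem one_sub_pow_ne_zero {r : ℕ} [Fact r.Prime] {ζ : Qbar} (hζ : IsPrimitiveRoot ζ r)
    (t : (ZMod r)ˣ) : (1 : Qbar) - ζ ^ ((t : ZMod r)).val ≠ 0 := by
  intro h
  have h1 : ζ ^ ((t : ZMod r)).val = 1 := (sub_eq_zero.mp h).symm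
  have h2 : r ∣ ((t : ZMod r)).val := (hζ.pow_eq_one_iff_dvd _).mp h1
  have h3 : ((t : ZMod r)).val = 0 := Nat.eq_zero_of_dvd_of_lt h2 (ZMod.val_lt _)
  have h4 : (t : ZMod r) = 0 := (ZMod.val_eq_zero _).mp h3
  exact t.ne_zero h4

/-- `∏_{t ∈ (ℤ/r)ˣ} (1 - ζ^t) = r`. -/
theorem prod_units_one_sub_pow {r : ℕ} [Fact r.Prime] {ζ : Qbar} (hζ : IsPrimitiveRoot ζ r) :
    ∏ t : (ZMod r)ˣ, ((1 : Qbar) - ζ ^ ((t : ZMod r)).val) = (r : Qbar) := by
  have hr : r.Prime := Fact.out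
  obtain ⟨n, rfl⟩ : ∃ n, r = n + 1 := ⟨r - 1, (Nat.succ_pred_eq_of_pos hr.pos).symm⟩
  have key := hζ.prod_one_sub_pow_eq_order
  have : ∏ t : (ZMod (n + 1))ˣ, ((1 : Qbar) - ζ ^ ((t : ZMod (n + 1))).val)
      = ∏ k ∈ range n, ((1 : Qbar) - ζ ^ (k + 1)) := by
    refine Finset.prod_bij' (fun t _ => ((t : ZMod (n + 1))).val - 1)
      (fun k hk => Units.mk0 ((k + 1 : ℕ) : ZMod (n + 1)) ?_) ?_ ?_ ?_ ?_ ?_
    · intro h
      rw [ZMod.natCast_eq_zero_iff] at h
      have := Nat.le_of_dvd (Nat.succ_pos k) h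
      have := mem_range.mp hk
      omega
    · intro t _
      have h1 : ((t : ZMod (n + 1))).val < n + 1 := ZMod.val_lt _
      have h2 : ((t : ZMod (n + 1))).val ≠ 0 := fun h => t.ne_zero ((ZMod.val_eq_zero _).mp h)
      rw [mem_range]
      omega
    · intro k _
      exact mem_univ _
    · intro t _
      have h2 : ((t : ZMod (n + 1))).val ≠ 0 := fun h => t.ne_zero ((ZMod.val_eq_zero _).mp h)
      ext
      simp only [Units.val_mk0]
      rw [Nat.sub_add_cancel (Nat.one_le_iff_ne_zero.mpr h2), ZMod.natCast_zmod_val]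
    · intro k hk
      have := mem_range.mp hk
      simp only [Units.val_mk0]
      rw [ZMod.val_natCast, Nat.mod_eq_of_lt (by omega)]
      omega
    · intro t _
      have h2 : ((t : ZMod (n + 1))).val ≠ 0 := fun h => t.ne_zero ((ZMod.val_eq_zero _).mp h)
      rw [Nat.sub_add_cancel (Nat.one_le_iff_ne_zero.mpr h2)]
  rw [this, key]
  push_cast
  ring

end CycNorm

open CycNorm in
/-- There is a `G_ℚ`-equivariant function `Λ : XCyc r m → ℚ̄ˣ` with product `r`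
(`Λ x = ∏_{t ∈ x} (1 - ζ^t)`). -/
theorem exists_equivariant_prod_eq (r m : ℕ) [Fact r.Prime] [Fintype (XCyc r m)] :
    ∃ Λ : XCyc r m → Qbarˣ, (∀ (g : GQ) (x : XCyc r m), ((Λ (g • x) : Qbarˣ) : Qbar) = g (Λ x : Qbar)) ∧
      ((∏ x, Λ x : Qbarˣ) : Qbar) = (r : Qbar) := by
  classical
  have hr : r.Prime := Fact.out
  have : NeZero (r : Qbar) := ⟨Nat.cast_ne_zero.mpr hr.ne_zero⟩
  obtain ⟨ζ, hζ⟩ := HasEnoughRootsOfUnity.exists_primitiveRoot Qbar r
  have hζ1 : ζ ^ r = 1 := hζ.pow_eq_one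
  let P : XCyc r m → Qbar := fun x =>
    ∏ t ∈ Finset.univ.filter (fun t : (ZMod r)ˣ => XCyc.mk r m t = x),
      ((1 : Qbar) - ζ ^ ((t : ZMod r)).val)
  have hP0 : ∀ x, P x ≠ 0 := fun x =>
    Finset.prod_ne_zero_iff.mpr fun t _ => one_sub_pow_ne_zero hζ t
  refine ⟨fun x => Units.mk0 (P x) (hP0 x), ?_, ?_⟩
  · intro g x
    simp only [Units.val_mk0]
    show P (g • x) = g (P x)
    simp only [P]
    rw [map_prod]
    set c := cycN r g with hc
    symm
    refine Finset.prod_bij' (fun t _ => c * t) (fun t _ => c⁻¹ * t) ?_ ?_ ?_ ?_ ?_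
    · intro t ht
      rw [Finset.mem_filter] at ht ⊢
      refine ⟨Finset.mem_univ _, ?_⟩
      rw [map_mul, ht.2, XCyc.smul_def]
    · intro t ht
      rw [Finset.mem_filter] at ht ⊢
      refine ⟨Finset.mem_univ _, ?_⟩
      rw [map_mul, ht.2, XCyc.smul_def, map_inv, inv_mul_cancel_left]
    · intro t _
      rw [inv_mul_cancel_left]
    · intro t _
      rw [mul_inv_cancel_left]
    · intro t _
      rw [map_sub, map_one, map_pow, cycN_apply r g ζ hζ1, pow_val_mul hζ1]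
  · rw [Units.coe_prod]
    simp only [Units.val_mk0]
    show ∏ x, P x = (r : Qbar)
    have h := Finset.prod_fiberwise (Finset.univ : Finset (ZMod r)ˣ) (fun t => XCyc.mk r m t)
      (fun t => (1 : Qbar) - ζ ^ ((t : ZMod r)).val)
    rw [prod_units_one_sub_pow hζ] at h
    exact h

end Fermat.Agent.S55.BR
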