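/-
S55 / block BR-A8 : the class of a rational number prime to `r` in a quotient of `(ℤ/r)ˣ` killing
`-1` is the product of the classes of the primes.  Owner: helper294.
-/
import Fermat.Agent.S55.BR.CycDefs

set_option autoImplicit false

namespace Fermat.Agent.S55.BR

namespace RatProd

theorem unit_eq_prod (r : ℕ) [Fact r.Prime] (cl : ℕ → (ZMod r)ˣ)
    (hcl : ∀ q : ℕ, q.Prime → q ≠ r → ((cl q : (ZMod r)ˣ) : ZMod r) = (q : ZMod r))
    (n : ℕ) (hn0 : n ≠ 0) (hn : ¬ r ∣ n) (w : (ZMod r)ˣ) (hw : (w : ZMod r) = (n : ZMod r)) :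
    w = ∏ q ∈ n.primeFactors, cl q ^ n.factorization q := by
  apply Units.ext
  rw [hw, Units.coe_prod]
  conv_lhs => rw [← Nat.prod_factorization_pow_eq_self hn0]
  rw [Finsupp.prod, Nat.cast_prod, Nat.support_factorization]
  apply Finset.prod_congr rfl
  intro q hq
  have hqp := Nat.prime_of_mem_primeFactors hq
  have hqr : q ≠ r := by
    rintro rfl
    exact hn (Nat.dvd_of_mem_primeFactors hq)
  rw [Units.val_pow_eq_pow_val, hcl q hqp hqr, Nat.cast_pow]

theorem map_unit_eq_prod (r : ℕ) [Fact r.Prime] {C : Type} [CommGroup C] (χ : (ZMod r)ˣ →* C)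
    (cl : ℕ → (ZMod r)ˣ)
    (hcl : ∀ q : ℕ, q.Prime → q ≠ r → ((cl q : (ZMod r)ˣ) : ZMod r) = (q : ZMod r))
    (n k : ℕ) (hn0 : n ≠ 0) (hk0 : k ≠ 0) (hnk : n ∣ k) (hn : ¬ r ∣ n) (w : (ZMod r)ˣ)
    (hw : (w : ZMod r) = (n : ZMod r)) :
    χ w = ∏ q ∈ k.primeFactors, χ (cl q) ^ (n.factorization q : ℤ) := by
  rw [unit_eq_prod r cl hcl n hn0 hn w hw, map_prod]
  rw [← Finset.prod_subset (Nat.primeFactors_mono hnk hk0)]
  · apply Finset.prod_congr rfl
    intro q _
    rw [map_pow, zpow_natCast]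
  · intro q _ hq
    rw [← Nat.support_factorization, Finsupp.notMem_support_iff] at hq
    rw [hq]
    simp

end RatProd

/-- For `a ∈ ℚˣ` prime to `r`, the class of `a` in a quotient of `(ℤ/r)ˣ` killing `-1` is the
product of the classes of the primes `q ≠ r` to the power `v_q(a)`. -/
theorem map_unit_eq_finprod (r : ℕ) [Fact r.Prime] {C : Type} [CommGroup C] (χ : (ZMod r)ˣ →* C)
    (hneg : χ (-1) = 1) (a : ℚ) (ha0 : a ≠ 0) (hval : padicValRat r a = 0)
    (u : (ZMod r)ˣ) (hu : (a.num : ZMod r) = (u : ZMod r) * (a.den : ZMod r))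
    (cl : ℕ → (ZMod r)ˣ) (hcl : ∀ q : ℕ, q.Prime → q ≠ r → ((cl q : (ZMod r)ˣ) : ZMod r) = (q : ZMod r)) :
    χ u = ∏ q ∈ (a.num.natAbs * a.den).primeFactors, χ (cl q) ^ padicValRat q a := by
  have hr : r.Prime := Fact.out
  have hnum0 : a.num ≠ 0 := Rat.num_ne_zero.mpr ha0
  have hN0 : a.num.natAbs ≠ 0 := Int.natAbs_ne_zero.mpr hnum0
  have hD0 : a.den ≠ 0 := a.den_nz
  have hcop : Nat.Coprime a.num.natAbs a.den := a.reduced
  have hv : (padicValNat r a.num.natAbs : ℤ) = padicValNat r a.den := by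
    have := hval
    rw [padicValRat_def, padicValInt] at this
    omega
  have hD : ¬ r ∣ a.den := by
    intro hd
    have hn : ¬ r ∣ a.num.natAbs := fun hn => hr.one_lt.ne' (Nat.eq_one_of_dvd_coprimes hcop hn hd)
    have h1 : padicValNat r a.num.natAbs = 0 := padicValNat.eq_zero_of_not_dvd hn
    have h2 : 1 ≤ padicValNat r a.den := one_le_padicValNat_of_dvd hD0 hd
    omega
  have hN : ¬ r ∣ a.num.natAbs := by
    intro hn
    have h1 : padicValNat r a.den = 0 := padicValNat.eq_zero_of_not_dvd hD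
    have h2 : 1 ≤ padicValNat r a.num.natAbs := one_le_padicValNat_of_dvd hN0 hn
    omega
  have hK0 : a.num.natAbs * a.den ≠ 0 := mul_ne_zero hN0 hD0
  let wN : (ZMod r)ˣ := ZMod.unitOfCoprime a.num.natAbs ((Nat.Prime.coprime_iff_not_dvd hr).mpr hN).symm
  let wD : (ZMod r)ˣ := ZMod.unitOfCoprime a.den ((Nat.Prime.coprime_iff_not_dvd hr).mpr hD).symm
  have hwN : (wN : ZMod r) = (a.num.natAbs : ZMod r) := ZMod.coe_unitOfCoprime _ _
  have hwD : (wD : ZMod r) = (a.den : ZMod r) := ZMod.coe_unitOfCoprime _ _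
  have hχN := RatProd.map_unit_eq_prod r χ cl hcl _ _ hN0 hK0 (Dvd.intro _ rfl) hN wN hwN
  have hχD := RatProd.map_unit_eq_prod r χ cl hcl _ _ hD0 hK0 (Dvd.intro_left _ rfl) hD wD hwD
  have hχ : χ u * χ wD = χ wN := by
    rcases Int.natAbs_eq a.num with h | h
    · have : u * wD = wN := by
        apply Units.ext
        rw [Units.val_mul, hwD, ← hu, hwN, h]
        simp
      rw [← map_mul, this]
    · have : u * wD = -1 * wN := by
        apply Units.ext
        rw [Units.val_mul, Units.val_mul, hwD, ← hu, hwN]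
        conv_lhs => rw [h]
        simp
      rw [← map_mul, this, map_mul, hneg, one_mul]
  rw [eq_div_of_mul_eq' hχ, hχN, hχD, ← Finset.prod_div_distrib]
  apply Finset.prod_congr rfl
  intro q hq
  have hqp := Nat.prime_of_mem_primeFactors hq
  have : Fact q.Prime := ⟨hqp⟩
  rw [div_eq_mul_inv, ← zpow_sub, padicValRat_def, padicValInt, Nat.factorization_def _ hqp,
    Nat.factorization_def _ hqp]

end Fermat.Agent.S55.BR
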