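/-
S55 / block BR, task BR-A4 (helper226).
The product of a `D`-equivariant function over an inertia-transitive `G_ℚ`-set is, modulo `r`, a
`card X`-th power of an element of `𝔽_r`.
-/
import Mathlib
import Fermat.Agent.S55.BR.CycDefs
import Fermat.Agent.S05.Inertia
import Fermat.Agent.S29.Cyclo
import Fermat.Agent.Lib.Frobenius

set_option autoImplicit false

namespace Fermat.Agent.S55.BR

local notation "Qbar" => AlgebraicClosure ℚ
local notation "GQ" => (AlgebraicClosure ℚ ≃ₐ[ℚ] AlgebraicClosure ℚ)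

open Fermat.Agent.S05

namespace UnitNorm

section General

variable {L : Type*} [Field L]

theorem valuation_le_one_of_sub_lt_one (A : ValuationSubring L) {u y : L}
    (hy : A.valuation y ≤ 1) (h : A.valuation (u - y) < 1) : A.valuation u ≤ 1 := by
  have h1 : u = (u - y) + y := by ring
  rw [h1]
  exact (A.valuation.map_add _ _).trans (max_le h.le hy)

/-- congruence of products -/
theorem valuation_prod_sub_pow_lt_one (A : ValuationSubring L) {X : Type*} (s : Finset X)
    (f : X → L) (y : L) (hy : A.valuation y ≤ 1) (h : ∀ x ∈ s, A.valuation (f x - y) < 1) :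
    A.valuation (∏ x ∈ s, f x - y ^ s.card) < 1 := by
  classical
  induction s using Finset.induction_on with
  | empty => simp
  | insert a s ha ih =>
    rw [Finset.prod_insert ha, Finset.card_insert_of_notMem ha, pow_succ']
    have h1 : f a * ∏ x ∈ s, f x - y * y ^ s.card =
        (f a - y) * y ^ s.card + f a * (∏ x ∈ s, f x - y ^ s.card) := by ring
    rw [h1]
    have hfa : A.valuation (f a - y) < 1 := h a (Finset.mem_insert_self a s)
    have hfa' : A.valuation (f a) ≤ 1 := valuation_le_one_of_sub_lt_one A hy hfa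
    have ih' := ih (fun x hx => h x (Finset.mem_insert_of_mem hx))
    refine Valuation.map_add_lt _ ?_ ?_
    · rw [map_mul, map_pow]
      exact mul_lt_one_of_nonneg_of_lt_one_left zero_le hfa (pow_le_one₀ zero_le hy)
    · rw [map_mul, mul_comm]
      exact mul_lt_one_of_nonneg_of_lt_one_left zero_le ih' hfa'

/-- In a field of characteristic `r` the solutions of `z ^ r = z` are the images of `0, …, r-1`. -/
theorem exists_natCast_eq_of_pow_eq {k : Type*} [Field k] (r : ℕ) (hr : r.Prime) [CharP k r]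
    {z : k} (hz : z ^ r = z) : ∃ c : ℕ, (c : k) = z := by
  classical
  have : Fact r.Prime := ⟨hr⟩
  let P : Polynomial k := Polynomial.X ^ r - Polynomial.X
  have hP0 : P ≠ 0 := FiniteField.X_pow_card_sub_X_ne_zero k hr.one_lt
  have hPdeg : P.natDegree = r := FiniteField.X_pow_card_sub_X_natDegree_eq k hr.one_lt
  let S : Finset k := (Finset.range r).image (fun c : ℕ => (c : k))
  have hScard : S.card = r := by
    rw [Finset.card_image_of_injOn, Finset.card_range]
    intro a ha b hb hab
    exact CharP.natCast_injOn_Iio k r (by simpa using ha) (by simpa using hb) hab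
  have hroot : ∀ w : k, w ∈ P.roots.toFinset ↔ w ^ r = w := by
    intro w
    rw [Multiset.mem_toFinset, Polynomial.mem_roots hP0, Polynomial.IsRoot.def]
    simp only [P, Polynomial.eval_sub, Polynomial.eval_pow, Polynomial.eval_X, sub_eq_zero]
  have hsub : S ⊆ P.roots.toFinset := by
    intro w hw
    obtain ⟨c, _, rfl⟩ := Finset.mem_image.mp hw
    rw [hroot]
    have := map_natCast (frobenius k r) c
    rwa [frobenius_def] at this
  have hle : P.roots.toFinset.card ≤ S.card := by
    rw [hScard, ← hPdeg]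
    exact (Multiset.toFinset_card_le _).trans (Polynomial.card_roots' P)
  have heq : S = P.roots.toFinset := Finset.eq_of_subset_of_card_le hsub hle
  have hzS : z ∈ S := by rw [heq, hroot]; exact hz
  obtain ⟨c, _, hc⟩ := Finset.mem_image.mp hzS
  exact ⟨c, hc⟩

/-- valuation form of the previous lemma -/
theorem exists_natCast_sub_lt_one (A : ValuationSubring L) (r : ℕ) (hr : r.Prime)
    (hA : A.LiesOverPrime r) {y : L} (hy : A.valuation y ≤ 1)
    (h : A.valuation (y ^ r - y) < 1) : ∃ c : ℕ, A.valuation (y - (c : L)) < 1 := by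
  have hyA : y ∈ A := (A.valuation_le_one_iff y).mp hy
  have hchar : CharP (IsLocalRing.ResidueField A) r := by
    rw [CharP.charP_iff_prime_eq_zero hr]
    have h1 : ((r : ℕ) : A) ∈ IsLocalRing.maximalIdeal A := by
      rw [ValuationSubring.valuation_lt_one_iff]
      have := A.mem_nonunits_iff.mp hA
      simpa using this
    have h2 := (IsLocalRing.residue_eq_zero_iff _).mpr h1
    simpa using h2
  have h3 : (IsLocalRing.residue A ⟨y, hyA⟩) ^ r = IsLocalRing.residue A ⟨y, hyA⟩ := by
    rw [← map_pow, ← sub_eq_zero, ← map_sub, IsLocalRing.residue_eq_zero_iff,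
      ValuationSubring.valuation_lt_one_iff]
    exact h
  obtain ⟨c, hc⟩ := exists_natCast_eq_of_pow_eq r hr h3
  refine ⟨c, ?_⟩
  have h4 : (⟨y, hyA⟩ : A) - (c : A) ∈ IsLocalRing.maximalIdeal A := by
    rw [← IsLocalRing.residue_eq_zero_iff, map_sub, map_natCast, hc, sub_self]
  rw [ValuationSubring.valuation_lt_one_iff] at h4
  simpa using h4

end General

/-- numerator and denominator of a rational `r`-adic unit are prime to `r` -/
theorem not_dvd_num_den (r : ℕ) (hr : r.Prime) (a : ℚ) (ha0 : a ≠ 0)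
    (hval : padicValRat r a = 0) : ¬ (r : ℤ) ∣ a.num ∧ ¬ (r : ℤ) ∣ (a.den : ℤ) := by
  have : Fact r.Prime := ⟨hr⟩
  have hnum : a.num ≠ 0 := Rat.num_ne_zero.mpr ha0
  have hden : a.den ≠ 0 := a.den_nz
  rw [padicValRat.eq_1] at hval
  have hcop : Nat.Coprime a.num.natAbs a.den := a.reduced
  by_cases h1 : (r : ℤ) ∣ a.num
  · have h2 : ¬ r ∣ a.den := by
      intro h2
      have h3 : r ∣ a.num.natAbs := Int.natCast_dvd.mp h1
      have := Nat.dvd_gcd h3 h2
      rw [hcop] at this
      exact hr.one_lt.ne' (Nat.dvd_one.mp this)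
    have h4 : padicValNat r a.den = 0 := padicValNat.eq_zero_of_not_dvd h2
    have h5 : padicValInt r a.num ≠ 0 := by
      intro h5
      rcases padicValInt.eq_zero_iff.mp h5 with h | h | h
      · exact hr.one_lt.ne' h
      · exact hnum h
      · exact h h1
    omega
  · refine ⟨h1, ?_⟩
    intro h2
    have h2' : r ∣ a.den := by exact_mod_cast h2
    have h4 : padicValInt r a.num = 0 := padicValInt.eq_zero_of_not_dvd h1
    have h5 : padicValNat r a.den ≠ 0 := by
      intro h5
      rcases padicValNat.eq_zero_iff.mp h5 with h | h | h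
      · exact hr.one_lt.ne' h
      · exact hden h
      · exact h h2'
    omega

theorem ratCast_eq_div (a : ℚ) : (a : Qbar) = (a.num : Qbar) / (a.den : Qbar) :=
  Rat.cast_def a

end UnitNorm

open UnitNorm

theorem prod_equivariant_residue (r : ℕ) (hr : r.Prime) (A : ValuationSubring Qbar)
    (hA : A.LiesOverPrime r) {X : Type} [Fintype X] [Nonempty X] [MulAction GQ X]
    (htrans : ∀ x y : X, ∃ τ ∈ A.inertiaSubgroupIn ℚ, τ • x = y)
    (f : X → Qbar) (hf : ∀ g ∈ A.decompositionSubgroup ℚ, ∀ x, f (g • x) = g (f x))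
    (a : ℚ) (ha : ∏ x, f x = (a : Qbar)) (ha0 : a ≠ 0) (hval : padicValRat r a = 0) :
    ∃ c : ℤ, ¬ (r : ℤ) ∣ c ∧ (a : Qbar) - (c : Qbar) ^ Fintype.card X ∈ A.nonunits := by
  classical
  have halg : Algebra.IsAlgebraic ℚ Qbar := AlgebraicClosure.isAlgebraic ℚ
  obtain ⟨hnum, hden⟩ := not_dvd_num_den r hr a ha0 hval
  -- the valuation of `a` is one
  have hva : A.valuation (a : Qbar) = 1 := by
    rw [ratCast_eq_div, map_div₀]
    have h1 := valuation_intCast_eq_one A hr hA hnum
    have h2 := valuation_intCast_eq_one A hr hA hden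
    rw [Int.cast_natCast] at h2
    rw [h1, h2, div_one]
  obtain ⟨x0⟩ := ‹Nonempty X›
  set y : Qbar := f x0 with hy
  have hcard : Fintype.card X ≠ 0 := Fintype.card_ne_zero
  -- every value is an inertia conjugate of `y`
  have hconj : ∀ x : X, ∃ τ ∈ A.inertiaSubgroupIn ℚ, f x = τ y := by
    intro x
    obtain ⟨τ, hτ, hx⟩ := htrans x0 x
    exact ⟨τ, hτ, by rw [← hx, hf τ (inertia_mem_decomposition A hτ)]⟩
  have hvy : A.valuation y = 1 := by
    have h1 : ∀ x : X, A.valuation (f x) = A.valuation y := by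
      intro x
      obtain ⟨τ, hτ, hx⟩ := hconj x
      rw [hx, inertia_valuation_eq A hτ]
    have h2 : A.valuation (∏ x, f x) = A.valuation y ^ Fintype.card X := by
      rw [map_prod, Finset.prod_congr rfl (fun x _ => h1 x), Finset.prod_const, Finset.card_univ]
    rw [ha, hva] at h2
    exact (pow_eq_one_iff.mp h2.symm).resolve_right hcard
  have hcong : ∀ x ∈ (Finset.univ : Finset X), A.valuation (f x - y) < 1 := by
    intro x _
    obtain ⟨τ, hτ, hx⟩ := hconj x
    rw [hx]
    exact inertia_valuation_sub_lt_one A hτ hvy.le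
  have hprod : A.valuation ((a : Qbar) - y ^ Fintype.card X) < 1 := by
    have := valuation_prod_sub_pow_lt_one A Finset.univ f y hvy.le hcong
    rwa [ha, Finset.card_univ] at this
  -- the residue of `y` is fixed by Frobenius
  obtain ⟨φ, hφ⟩ := Fermat.Agent.Lib.Frobenius.exists_isFrobeniusAt A r hr hA
  obtain ⟨τ, hτ, hτφ⟩ := htrans x0 (φ • x0)
  have hφy : φ y = τ y := by
    rw [← hf φ hφ.mem_decompositionSubgroup, ← hτφ, hf τ (inertia_mem_decomposition A hτ)]
  have hfrob : A.valuation (y ^ r - y) < 1 := by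
    have h1 := Fermat.Agent.S29.Cyclo.frob_valuation_sub_lt_one A hφ hvy.le
    have h2 := inertia_valuation_sub_lt_one A hτ hvy.le
    have h3 : y ^ r - y = (τ y - y) - (φ y - y ^ r) := by rw [hφy]; ring
    rw [h3]
    exact Valuation.map_sub_lt _ h2 h1
  obtain ⟨c, hc⟩ := exists_natCast_sub_lt_one A r hr hA hvy.le hfrob
  refine ⟨(c : ℤ), ?_, ?_⟩
  · intro hdvd
    have h1 : A.valuation (((c : ℤ) : Qbar)) < 1 := valuation_intCast_lt_one A hA hdvd
    rw [Int.cast_natCast] at h1
    have h2 : y = (y - (c : Qbar)) + (c : Qbar) := by ring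
    have h3 := Valuation.map_add_lt _ hc h1
    rw [← h2, hvy] at h3
    exact lt_irrefl _ h3
  · rw [A.mem_nonunits_iff, Int.cast_natCast]
    have hvc : A.valuation (c : Qbar) ≤ 1 := by
      have := valuation_intCast_le_one A (c : ℤ)
      rwa [Int.cast_natCast] at this
    have h1 : A.valuation (y ^ Fintype.card X - (c : Qbar) ^ Fintype.card X) < 1 := by
      have := valuation_prod_sub_pow_lt_one A (Finset.univ : Finset X) (fun _ => y) (c : Qbar) hvc
        (fun _ _ => hc)
      rwa [Finset.prod_const, Finset.card_univ] at this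
    have h2 : (a : Qbar) - (c : Qbar) ^ Fintype.card X =
        ((a : Qbar) - y ^ Fintype.card X) + (y ^ Fintype.card X - (c : Qbar) ^ Fintype.card X) := by
      ring
    rw [h2]
    exact Valuation.map_add_lt _ hprod h1

theorem prod_equivariant_zmod (r : ℕ) [Fact r.Prime] (A : ValuationSubring Qbar)
    (hA : A.LiesOverPrime r) {X : Type} [Fintype X] [Nonempty X] [MulAction GQ X]
    (htrans : ∀ x y : X, ∃ τ ∈ A.inertiaSubgroupIn ℚ, τ • x = y)
    (f : X → Qbar) (hf : ∀ g ∈ A.decompositionSubgroup ℚ, ∀ x, f (g • x) = g (f x))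
    (a : ℚ) (ha : ∏ x, f x = (a : Qbar)) (ha0 : a ≠ 0) (hval : padicValRat r a = 0) :
    ∃ c : (ZMod r)ˣ, (a.num : ZMod r) = (c : ZMod r) ^ Fintype.card X * (a.den : ZMod r) := by
  have hr : r.Prime := Fact.out
  obtain ⟨c, hc, hac⟩ := prod_equivariant_residue r hr A hA htrans f hf a ha ha0 hval
  have hc0 : (c : ZMod r) ≠ 0 := by
    rw [Ne, ZMod.intCast_zmod_eq_zero_iff_dvd]
    exact hc
  refine ⟨Units.mk0 (c : ZMod r) hc0, ?_⟩
  rw [Units.val_mk0]
  have hden0 : (a.den : Qbar) ≠ 0 := Nat.cast_ne_zero.mpr a.den_nz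
  have h1 : ((a.num - c ^ Fintype.card X * (a.den : ℤ) : ℤ) : Qbar) =
      (a.den : Qbar) * ((a : Qbar) - (c : Qbar) ^ Fintype.card X) := by
    rw [ratCast_eq_div]
    push_cast
    field_simp
  have h2 : A.valuation ((a.num - c ^ Fintype.card X * (a.den : ℤ) : ℤ) : Qbar) < 1 := by
    rw [h1, map_mul, mul_comm]
    refine mul_lt_one_of_nonneg_of_lt_one_left zero_le (A.mem_nonunits_iff.mp hac) ?_
    have := valuation_intCast_le_one A (a.den : ℤ)
    rwa [Int.cast_natCast] at this
  have h3 : (r : ℤ) ∣ a.num - c ^ Fintype.card X * (a.den : ℤ) := by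
    by_contra h
    exact h2.ne (valuation_intCast_eq_one A hr hA h)
  have h4 := (ZMod.intCast_zmod_eq_zero_iff_dvd _ r).mpr h3
  push_cast at h4
  exact sub_eq_zero.mp h4

end Fermat.Agent.S55.BR
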