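/-
S55 / block BR, node BR-A2 : total ramification of `ℚ(ζ_{r^N})` at `r`, in inertia form:
the inertia subgroup at a place over `r` surjects onto `(ℤ/r^N)ˣ`.
-/
import Fermat.Agent.S55.BR.Cyc
import Fermat.Agent.S13.MinkowskiLift

set_option autoImplicit false
set_option linter.style.haveILetI false

namespace Fermat.Agent.S55.BR

local notation "Qbar" => AlgebraicClosure ℚ
local notation "GQ" => (AlgebraicClosure ℚ ≃ₐ[ℚ] AlgebraicClosure ℚ)

namespace CycInertia

open IntermediateField Fermat.Agent.Lib.Frobenius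

/-- rational integers have valuation `≤ 1`. -/
theorem valuation_intCast_le_one (A : ValuationSubring Qbar) (m : ℤ) :
    A.valuation (m : Qbar) ≤ 1 :=
  (A.valuation_le_one_iff _).2 (intCast_mem A m)

/-- A root of unity of `r`-power order is congruent to `1` modulo a place over `r`. -/
theorem valuation_sub_one_lt_one (r : ℕ) (hr : r.Prime) (N : ℕ) (A : ValuationSubring Qbar)
    (hA : A.LiesOverPrime r) (ξ : Qbar) (hξ : ξ ^ (r ^ N) = 1) : A.valuation (ξ - 1) < 1 := by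
  haveI : Fact r.Prime := ⟨hr⟩
  have hξA : ξ ∈ A := by
    rw [← A.valuation_le_one_iff]
    by_contra hlt
    have h1 : 1 < A.valuation ξ := not_le.1 hlt
    have h2 : 1 < A.valuation ξ ^ (r ^ N) := one_lt_pow₀ h1 (pow_ne_zero _ hr.ne_zero)
    rw [← map_pow, hξ, map_one] at h2
    exact lt_irrefl _ h2
  -- work in the residue field, of characteristic `r`
  let k := IsLocalRing.ResidueField A
  have hrk : ((r : A) : A) ∈ IsLocalRing.maximalIdeal A := by
    have := (A.mem_nonunits_iff_exists_mem_maximalIdeal).1 hA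
    obtain ⟨h, hm⟩ := this
    have he : (r : A) = ⟨(r : Qbar), h⟩ := Subtype.ext (by simp)
    rw [he]
    exact hm
  haveI : CharP k r := by
    have h0 : ((r : ℕ) : k) = 0 := by
      have := (IsLocalRing.residue_eq_zero_iff (r : A)).2 hrk
      simpa using this
    exact (CharP.charP_iff_prime_eq_zero hr).2 h0
  have hres : (IsLocalRing.residue A ⟨ξ, hξA⟩ - 1) ^ (r ^ N) = 0 := by
    rw [sub_pow_char_pow, one_pow, ← map_pow]
    have : (⟨ξ, hξA⟩ : A) ^ (r ^ N) = 1 := Subtype.ext (by simpa using hξ)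
    rw [this, map_one, sub_self]
  have hres' : IsLocalRing.residue A (⟨ξ, hξA⟩ - 1) = 0 := by
    rw [map_sub, map_one]
    exact pow_eq_zero_iff (pow_ne_zero _ hr.ne_zero) |>.1 hres
  have hmem := (IsLocalRing.residue_eq_zero_iff _).1 hres'
  have := (A.valuation_lt_one_iff _).1 hmem
  simpa using this

/-- The key congruence: elements of `ℤ[ζ]` are congruent to rational integers, compatibly with
any automorphism. -/
theorem exists_int_congr (r : ℕ) (hr : r.Prime) (N : ℕ) (A : ValuationSubring Qbar)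
    (hA : A.LiesOverPrime r) (ζ : Qbar) (hζ : ζ ^ (r ^ N) = 1) (γ : GQ) (x : Qbar)
    (hx : x ∈ Algebra.adjoin ℤ {ζ}) :
    ∃ m : ℤ, A.valuation (x - m) < 1 ∧ A.valuation (γ x - m) < 1 := by
  induction hx using Algebra.adjoin_induction with
  | mem y hy =>
    rw [Set.mem_singleton_iff] at hy
    subst hy
    refine ⟨1, ?_, ?_⟩
    · simpa using valuation_sub_one_lt_one r hr N A hA y hζ
    · simpa using valuation_sub_one_lt_one r hr N A hA (γ y) (by rw [← map_pow, hζ, map_one])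
  | algebraMap m =>
    refine ⟨m, ?_, ?_⟩ <;> simp
  | add y z _ _ hy hz =>
    obtain ⟨m, h1, h2⟩ := hy
    obtain ⟨m', h1', h2'⟩ := hz
    refine ⟨m + m', ?_, ?_⟩
    · have : y + z - ((m + m' : ℤ) : Qbar) = (y - m) + (z - m') := by push_cast; ring
      rw [this]
      exact Valuation.map_add_lt _ h1 h1'
    · have : γ (y + z) - ((m + m' : ℤ) : Qbar) = (γ y - m) + (γ z - m') := by
        rw [map_add]; push_cast; ring
      rw [this]
      exact Valuation.map_add_lt _ h2 h2'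
  | mul y z _ _ hy hz =>
    obtain ⟨m, h1, h2⟩ := hy
    obtain ⟨m', h1', h2'⟩ := hz
    have key : ∀ a b : Qbar, A.valuation (a - m) < 1 → A.valuation (b - m') < 1 →
        A.valuation (a * b - ((m * m' : ℤ) : Qbar)) < 1 := by
      intro a b ha hb
      have hb1 : A.valuation b ≤ 1 := by
        have : b = (b - m') + m' := by ring
        rw [this]
        exact Valuation.map_add_le _ hb.le (valuation_intCast_le_one A m')
      have : a * b - ((m * m' : ℤ) : Qbar) = (a - m) * b + m * (b - m') := by push_cast; ring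
      rw [this]
      apply Valuation.map_add_lt
      · rw [map_mul]
        exact mul_lt_one_of_nonneg_of_lt_one_left zero_le ha hb1
      · rw [map_mul]
        exact mul_lt_one_of_nonneg_of_lt_one_right (valuation_intCast_le_one A m) zero_le hb
    refine ⟨m * m', key _ _ h1 h1', ?_⟩
    rw [map_mul]
    exact key _ _ h2 h2'

/-- The kernel of the cyclotomic character is the fixing subgroup of `ℚ(ζ)`. -/
theorem ker_cycN_eq (n : ℕ) [NeZero n] (ζ : Qbar) (hζ : IsPrimitiveRoot ζ n) :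
    (cycN n).ker = (ℚ⟮ζ⟯).fixingSubgroup := by
  ext σ
  rw [MonoidHom.mem_ker, cycN_eq_one_iff, IntermediateField.mem_fixingSubgroup_iff]
  constructor
  · intro h x hx
    have hσζ : σ ζ = ζ := h ζ hζ.pow_eq_one
    have : ℚ⟮ζ⟯ ≤ IntermediateField.fixedField (Subgroup.zpowers σ) := by
      rw [IntermediateField.adjoin_simple_le_iff, IntermediateField.mem_fixedField_iff]
      intro f hf
      obtain ⟨k, rfl⟩ := Subgroup.mem_zpowers_iff.1 hf
      have : σ ∈ MulAction.stabilizer GQ ζ := hσζ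
      exact (Subgroup.zpow_mem _ this k)
    exact (IntermediateField.mem_fixedField_iff _ _).1 (this hx) σ (Subgroup.mem_zpowers σ)
  · intro h x hx
    obtain ⟨i, -, rfl⟩ := hζ.eq_pow_of_pow_eq_one hx
    rw [map_pow, h ζ (IntermediateField.mem_adjoin_simple_self ℚ ζ)]

/-- Algebraic integers of `ℚ(ζ)` lie in `ℤ[ζ]`. -/
theorem mem_adjoin_of_isIntegral (n : ℕ) [NeZero n] (ζ : Qbar) (hζ : IsPrimitiveRoot ζ n)
    (x : Qbar) (hx : x ∈ ℚ⟮ζ⟯) (hint : IsIntegral ℤ x) : x ∈ Algebra.adjoin ℤ {ζ} := by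
  haveI := isIntegral_rat
  have hcyc0 := hζ.intermediateField_adjoin_isCyclotomicExtension ℚ
  have halg : (DivisionRing.toRatAlgebra : Algebra ℚ ℚ⟮ζ⟯) = ℚ⟮ζ⟯.algebra' :=
    Subsingleton.elim _ _
  haveI hcyc : @IsCyclotomicExtension {n} ℚ ℚ⟮ζ⟯ _ _ DivisionRing.toRatAlgebra := by
    rw [halg]
    exact hcyc0
  let ζ' : ℚ⟮ζ⟯ := IntermediateField.AdjoinSimple.gen ℚ ζ
  have hζ' : IsPrimitiveRoot ζ' n := IsPrimitiveRoot.coe_submonoidClass_iff.1 (by simpa [ζ'] using hζ)
  have hcl := IsCyclotomicExtension.Rat.isIntegralClosure_adjoin_singleton (K := ℚ⟮ζ⟯) hζ'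
  have hint' : IsIntegral ℤ (⟨x, hx⟩ : ℚ⟮ζ⟯) := by
    have : IsIntegral ℤ (algebraMap ℚ⟮ζ⟯ Qbar ⟨x, hx⟩) := hint
    exact (isIntegral_algebraMap_iff (algebraMap ℚ⟮ζ⟯ Qbar).injective).1 this
  obtain ⟨y, hy⟩ := hcl.isIntegral_iff.1 hint'
  have hmem : (⟨x, hx⟩ : ℚ⟮ζ⟯) ∈ Algebra.adjoin ℤ {ζ'} := by
    rw [← hy]; exact y.2
  have h2 : (ℚ⟮ζ⟯.val.restrictScalars ℤ) ⟨x, hx⟩ ∈
      (Algebra.adjoin ℤ {ζ'}).map (ℚ⟮ζ⟯.val.restrictScalars ℤ) :=
    Subalgebra.mem_map.2 ⟨_, hmem, rfl⟩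
  rw [AlgHom.map_adjoin_singleton] at h2
  simpa [ζ'] using h2

theorem main (r : ℕ) (hr : r.Prime) (N n : ℕ) [NeZero n] (hn : n = r ^ N)
    (A : ValuationSubring Qbar) (hA : A.LiesOverPrime r) (u : (ZMod n)ˣ) :
    ∃ τ ∈ A.inertiaSubgroupIn ℚ, cycN n τ = u := by
  haveI : NeZero (n : Qbar) := ⟨Nat.cast_ne_zero.mpr (NeZero.ne n)⟩
  haveI := isGalois_rat
  obtain ⟨ζ, hζ⟩ := HasEnoughRootsOfUnity.exists_primitiveRoot Qbar n
  obtain ⟨γ, rfl⟩ := cycN_surjective n u
  have hcl : IsClosed ((cycN n).ker : Set GQ) := by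
    rw [ker_cycN_eq n ζ hζ]
    exact InfiniteGalois.fixingSubgroup_isClosed _
  obtain ⟨j, hj, hjγ⟩ := Fermat.Agent.S13.Minkowski.exists_mul_mem_inertia (cycN n).ker hcl A γ (by
    intro x hint hfix
    have hx : x ∈ ℚ⟮ζ⟯ := by
      rw [← InfiniteGalois.fixedField_fixingSubgroup ℚ⟮ζ⟯, IntermediateField.mem_fixedField_iff,
        ← ker_cycN_eq n ζ hζ]
      exact hfix
    obtain ⟨m, h1, h2⟩ := exists_int_congr r hr N A hA ζ (hn ▸ hζ.pow_eq_one) γ x
      (mem_adjoin_of_isIntegral n ζ hζ x hx hint)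
    rw [ValuationSubring.mem_nonunits_iff]
    have : γ x - x = (γ x - m) - (x - m) := by ring
    rw [this]
    exact Valuation.map_sub_lt _ h2 h1)
  refine ⟨j * γ, hjγ, ?_⟩
  rw [map_mul, MonoidHom.mem_ker.1 hj, one_mul]

end CycInertia

theorem cycN_inertia_surjective (r : ℕ) (hr : r.Prime) (N : ℕ) [NeZero (r ^ N)]
    (A : ValuationSubring Qbar) (hA : A.LiesOverPrime r) (u : (ZMod (r ^ N))ˣ) :
    ∃ τ ∈ A.inertiaSubgroupIn ℚ, cycN (r ^ N) τ = u :=
  CycInertia.main r hr N (r ^ N) rfl A hA u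

theorem cycN_inertia_surjective_prime (r : ℕ) (hr : r.Prime) [NeZero r]
    (A : ValuationSubring Qbar) (hA : A.LiesOverPrime r) (u : (ZMod r)ˣ) :
    ∃ τ ∈ A.inertiaSubgroupIn ℚ, cycN r τ = u :=
  CycInertia.main r hr 1 r (pow_one r).symm A hA u

end Fermat.Agent.S55.BR
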