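/-
S55 / block BR, node BR-A5 (owner helper288): the `G_ℚ`-set `XCyc r m`, `r` prime, `m ∣ r - 1`.
-/
import Fermat.Agent.S55.BR.Cyc
import Fermat.Agent.S55.BR.CycInertia

set_option autoImplicit false

namespace Fermat.Agent.S55.BR

local notation "Qbar" => AlgebraicClosure ℚ
local notation "GQ" => (AlgebraicClosure ℚ ≃ₐ[ℚ] AlgebraicClosure ℚ)

section XCyc

variable (r m : ℕ) [Fact r.Prime]

instance : Finite (XCyc r m) :=
  inferInstanceAs (Finite ((ZMod r)ˣ ⧸ powSub r m))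

theorem card_XCyc (hm : m ∣ r - 1) : Nat.card (XCyc r m) = m := by
  show Nat.card ((ZMod r)ˣ ⧸ powSub r m) = m
  have h1 : (powSub r m).index = (Nat.card (ZMod r)ˣ).gcd m :=
    IsCyclic.index_powMonoidHom_range _ m
  rw [← Subgroup.index_eq_card, h1, Nat.card_eq_fintype_card, ZMod.card_units,
    Nat.gcd_eq_right hm]

theorem XCyc.mk_surjective : Function.Surjective (XCyc.mk r m) :=
  QuotientGroup.mk'_surjective _

theorem XCyc.isCyclic : IsCyclic (XCyc r m) :=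
  isCyclic_of_surjective (XCyc.mk r m) (XCyc.mk_surjective r m)

/-- open stabilisers -/
theorem XCyc.level : ∃ F : IntermediateField ℚ Qbar, FiniteDimensional ℚ F ∧ Normal ℚ F ∧
    ∀ σ ∈ F.fixingSubgroup, ∀ x : XCyc r m, σ • x = x := by
  obtain ⟨F, h1, h2, h3⟩ := cycN_level r
  refine ⟨F, h1, h2, fun σ hσ x => ?_⟩
  rw [XCyc.smul_def, h3 σ hσ, map_one, one_mul]

theorem XCyc.inertia_smul {ℓ : ℕ} (hℓ : ℓ.Prime) (hne : ℓ ≠ r) (A : ValuationSubring Qbar)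
    (hA : A.LiesOverPrime ℓ) {σ : GQ} (hσ : σ ∈ A.inertiaSubgroupIn ℚ) (x : XCyc r m) :
    σ • x = x := by
  have hn : ¬ ℓ ∣ r := fun h => hne ((Nat.prime_dvd_prime_iff_eq hℓ Fact.out).mp h)
  rw [XCyc.smul_def, cycN_inertia r hℓ hn A hA hσ, map_one, one_mul]

theorem XCyc.frob_smul {ℓ : ℕ} (hℓ : ℓ.Prime) (hne : ℓ ≠ r) (A : ValuationSubring Qbar)
    (hA : A.LiesOverPrime ℓ) {σ : GQ} (hσ : A.IsFrobeniusAt σ ℓ) (u : (ZMod r)ˣ)
    (hu : (u : ZMod r) = (ℓ : ZMod r)) (x : XCyc r m) :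
    σ • x = XCyc.mk r m u * x := by
  have hn : ¬ ℓ ∣ r := fun h => hne ((Nat.prime_dvd_prime_iff_eq hℓ Fact.out).mp h)
  have h1 : cycN r σ = u := Units.ext ((cycN_frob r hℓ hn A hA hσ).trans hu.symm)
  rw [XCyc.smul_def, h1]

theorem XCyc.inertia_transitive (A : ValuationSubring Qbar) (hA : A.LiesOverPrime r)
    (x y : XCyc r m) : ∃ τ ∈ A.inertiaSubgroupIn ℚ, τ • x = y := by
  obtain ⟨u, hu⟩ := XCyc.mk_surjective r m (y * x⁻¹)
  obtain ⟨τ, hτ, hτu⟩ := cycN_inertia_surjective_prime r Fact.out A hA u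
  refine ⟨τ, hτ, ?_⟩
  rw [XCyc.smul_def, hτu, hu, inv_mul_cancel_right]

/-- if `ℓ` is not a `p`-th power modulo `r` then its class generates `XCyc r (p^k)` -/
theorem XCyc.zpowers_eq_top_of_not_pow (p k : ℕ) [Fact p.Prime] (hk : p ^ k ∣ r - 1)
    (u : (ZMod r)ˣ) (hu : ¬ ∃ y : ZMod r, y ^ p = (u : ZMod r)) :
    Subgroup.zpowers (XCyc.mk r (p ^ k) u) = ⊤ := by
  obtain ⟨g, hg⟩ := IsCyclic.exists_generator (α := (ZMod r)ˣ)
  obtain ⟨a, ha⟩ := Subgroup.mem_zpowers_iff.mp (hg u)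
  have hpa : ¬ (p : ℤ) ∣ a := by
    rintro ⟨b, rfl⟩
    refine hu ⟨((g ^ b : (ZMod r)ˣ) : ZMod r), ?_⟩
    rw [← ha, ← Units.val_pow_eq_pow_val, ← zpow_natCast, ← zpow_mul, mul_comm]
  have hcop : IsCoprime a ((p : ℤ) ^ k) :=
    IsCoprime.pow_right
      (((Nat.prime_iff_prime_int.mp Fact.out).coprime_iff_not_dvd.mpr hpa).symm)
  obtain ⟨x, y, hxy⟩ := hcop
  have hker : XCyc.mk r (p ^ k) (g ^ (p ^ k)) = 1 :=
    (QuotientGroup.eq_one_iff _).mpr ⟨g, rfl⟩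
  have hgmem : XCyc.mk r (p ^ k) g ∈ Subgroup.zpowers (XCyc.mk r (p ^ k) u) := by
    refine Subgroup.mem_zpowers_iff.mpr ⟨x, ?_⟩
    have h1 : XCyc.mk r (p ^ k) g = XCyc.mk r (p ^ k) g ^ (x * a + y * (p : ℤ) ^ k) := by
      rw [hxy, zpow_one]
    rw [h1, zpow_add, ← ha, map_zpow, ← zpow_mul, mul_comm a x]
    have h2 : XCyc.mk r (p ^ k) g ^ (y * (p : ℤ) ^ k) = 1 := by
      rw [mul_comm, zpow_mul, ← Nat.cast_pow, zpow_natCast, ← map_pow, hker, one_zpow]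
    rw [h2, mul_one]
  rw [eq_top_iff]
  intro z _
  obtain ⟨v, rfl⟩ := XCyc.mk_surjective r (p ^ k) z
  obtain ⟨b, rfl⟩ := Subgroup.mem_zpowers_iff.mp (hg v)
  rw [map_zpow]
  exact Subgroup.zpow_mem _ hgmem b

end XCyc

end Fermat.Agent.S55.BR
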