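/-
S55 / block BR, node BR-RecipArith (owner helper182): the arithmetic heart of reciprocity over `ℚ`.
If `a ∈ ℚˣ` is the product of a `D_r`-equivariant function on `XCyc r m` then
`m ∣ ∑_{q ≠ r} v_q(a) κ(q)`, where `q = γ^(κ q)` in `XCyc r m`.
-/
import Fermat.Agent.S55.BR.Defs
import Fermat.Agent.S55.BR.XCyc
import Fermat.Agent.S55.BR.CycNorm
import Fermat.Agent.S55.BR.UnitNorm
import Fermat.Agent.S55.BR.RatProd

set_option autoImplicit false

namespace Fermat.Agent.S55

open Dict (invD)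
open scoped Pointwise

/-! ## RecipArith : file `BR/RecipArith.lean` (the arithmetic heart of reciprocity over `ℚ`) -/
section RecipArith

open BR

namespace RecipArith

/-- `Kx.val` turns finite sums into products. -/
theorem val_sum {X : Type} (s : Finset X) (f : X → Kx) :
    (∑ x ∈ s, f x).val = ∏ x ∈ s, (f x).val := by
  classical
  induction s using Finset.induction_on with
  | empty => simp [Kx.val_zero]
  | insert x s hx ih => rw [Finset.sum_insert hx, Finset.prod_insert hx, Kx.val_add, ih]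

/-- a prime which does not divide numerator and denominator has valuation zero -/
theorem padicValRat_eq_zero_of_not_mem (x : ℚ) (q : ℕ)
    (hq : q ∉ (x.num.natAbs * x.den).primeFactors) (hqp : q.Prime) (hx : x ≠ 0) :
    padicValRat q x = 0 := by
  have hN0 : x.num.natAbs ≠ 0 := Int.natAbs_ne_zero.mpr (Rat.num_ne_zero.mpr hx)
  have hD0 : x.den ≠ 0 := x.den_nz
  have hnd : ¬ q ∣ x.num.natAbs * x.den := by
    intro h
    exact hq (Nat.mem_primeFactors.mpr ⟨hqp, h, mul_ne_zero hN0 hD0⟩)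
  have h1 : ¬ q ∣ x.num.natAbs := fun h => hnd (Dvd.dvd.mul_right h _)
  have h2 : ¬ q ∣ x.den := fun h => hnd (Dvd.dvd.mul_left h _)
  rw [padicValRat_def, padicValInt, padicValNat.eq_zero_of_not_dvd h1,
    padicValNat.eq_zero_of_not_dvd h2]
  simp

/-- removing the power of `r` does not change the other valuations -/
theorem padicValRat_div_zpow (r q : ℕ) (hr : r.Prime) (hq : q.Prime) (hne : q ≠ r) (x : ℚ)
    (hx : x ≠ 0) (j : ℤ) : padicValRat q (x / (r : ℚ) ^ j) = padicValRat q x := by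
  have : Fact q.Prime := ⟨hq⟩
  have hr0 : (r : ℚ) ≠ 0 := Nat.cast_ne_zero.mpr hr.ne_zero
  rw [padicValRat.div hx (zpow_ne_zero _ hr0), padicValRat.zpow]
  have : padicValRat q (r : ℚ) = 0 := by
    rw [padicValRat.of_nat]
    have : ¬ q ∣ r := fun h => hne ((Nat.prime_dvd_prime_iff_eq hq hr).mp h)
    rw [padicValNat.eq_zero_of_not_dvd this]
    rfl
  rw [this]
  ring

theorem padicValRat_div_zpow_self (r : ℕ) (hr : r.Prime) (x : ℚ) (hx : x ≠ 0) :
    padicValRat r (x / (r : ℚ) ^ padicValRat r x) = 0 := by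
  have : Fact r.Prime := ⟨hr⟩
  have hr0 : (r : ℚ) ≠ 0 := Nat.cast_ne_zero.mpr hr.ne_zero
  rw [padicValRat.div hx (zpow_ne_zero _ hr0), padicValRat.zpow]
  have : padicValRat r (r : ℚ) = 1 := padicValRat.self hr.one_lt
  rw [this]
  ring

theorem zpow_sum_eq_prod {C ι : Type} [CommGroup C] (γ : C) (s : Finset ι) (F : ι → ℤ) :
    γ ^ (∑ q ∈ s, F q) = ∏ q ∈ s, γ ^ F q := by
  classical
  induction s using Finset.induction_on with
  | empty => simp
  | insert x s hx ih => rw [Finset.sum_insert hx, Finset.prod_insert hx, zpow_add, ih]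

end RecipArith

open RecipArith in
/-- `a ∈ ℚˣ` is the product of a `D_r`-equivariant function on `XCyc r m`; `γ` generates
`XCyc r m`; `q = γ^(κ q)` in `XCyc r m` for all primes `q ≠ r`.  Then
`m ∣ ∑_{q ≠ r} v_q(a) κ(q)`. -/
theorem dvd_sum_padicValRat_mul (r m : ℕ) [Fact r.Prime] (hm0 : 0 < m) (hmodd : Odd m)
    (hm : m ∣ r - 1) (γ : XCyc r m) (hγ : Subgroup.zpowers γ = ⊤) (κ : ℕ → ℕ)
    (hκ : ∀ (q : ℕ) (u : (ZMod r)ˣ), q.Prime → q ≠ r → (u : ZMod r) = (q : ZMod r) →
      XCyc.mk r m u = γ ^ κ q)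
    (A : ValuationSubring Qb) (hA : A.LiesOverPrime r) (a : ℚˣ) (b : IndMod (XCyc r m) Kx)
    (hb : b ∈ invD (A.decompositionSubgroup ℚ) (XCyc r m))
    (hab : IndMod.sum (G := GQ) (XCyc r m) Kx b = ratKx a) :
    (m : ℤ) ∣ ∑ q ∈ ((a : ℚ).num.natAbs * (a : ℚ).den).primeFactors.erase r,
      padicValRat q (a : ℚ) * (κ q : ℤ) := by
  classical
  have hr : r.Prime := Fact.out
  haveI : Fintype (XCyc r m) := Fintype.ofFinite _
  have : Nonempty (XCyc r m) := ⟨1⟩
  have hcard : Fintype.card (XCyc r m) = m := by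
    rw [← Nat.card_eq_fintype_card, card_XCyc r m hm]
  obtain ⟨Λ, hΛ, hΛprod⟩ := exists_equivariant_prod_eq r m
  have ha0 : (a : ℚ) ≠ 0 := a.ne_zero
  have hr0 : (r : ℚ) ≠ 0 := Nat.cast_ne_zero.mpr hr.ne_zero
  have hr0' : (r : Qb) ≠ 0 := Nat.cast_ne_zero.mpr hr.ne_zero
  set j : ℤ := padicValRat r (a : ℚ) with hj
  set a' : ℚ := (a : ℚ) / (r : ℚ) ^ j with ha'
  have ha'0 : a' ≠ 0 := div_ne_zero ha0 (zpow_ne_zero _ hr0)
  have hval : padicValRat r a' = 0 := padicValRat_div_zpow_self r hr _ ha0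
  -- the equivariant function with product `a'`
  let f : XCyc r m → Qb := fun x => (b x).val / ((Λ x : Qbˣ) : Qb) ^ j
  have hbeq : ∀ g ∈ A.decompositionSubgroup ℚ, ∀ x, (b (g • x)).val = g (b x).val := by
    intro g hg x
    have h1 : g • b = b := hb g hg
    have h2 : (g • b) (g • x) = g • b x := by
      rw [IndMod.smul_apply, inv_smul_smul]
    rw [h1] at h2
    rw [h2, Kx.val_smul]
  have hf : ∀ g ∈ A.decompositionSubgroup ℚ, ∀ x, f (g • x) = g (f x) := by
    intro g hg x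
    show (b (g • x)).val / ((Λ (g • x) : Qbˣ) : Qb) ^ j = g ((b x).val / ((Λ x : Qbˣ) : Qb) ^ j)
    rw [hbeq g hg x, hΛ g x, map_div₀, map_zpow₀]
  have hbprod : ∏ x, (b x).val = ((a : ℚ) : Qb) := by
    rw [← val_sum, ← finsum_eq_sum_of_fintype, ← IndMod.sum_def (G := GQ), hab]
    rfl
  have hfprod : ∏ x, f x = (a' : Qb) := by
    show ∏ x, (b x).val / ((Λ x : Qbˣ) : Qb) ^ j = (a' : Qb)
    rw [Finset.prod_div_distrib, Finset.prod_zpow, hbprod, ← Units.coe_prod, hΛprod, ha']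
    push_cast
    rfl
  obtain ⟨c₀, hc₀⟩ := prod_equivariant_zmod r A hA (XCyc.inertia_transitive r m A hA) f hf a'
    hfprod ha'0 hval
  rw [hcard] at hc₀
  -- the class of `a'` is trivial
  have hu : (a'.num : ZMod r) = ((c₀ ^ m : (ZMod r)ˣ) : ZMod r) * (a'.den : ZMod r) := by
    rw [Units.val_pow_eq_pow_val]
    exact hc₀
  have hmk : XCyc.mk r m (c₀ ^ m) = 1 := (QuotientGroup.eq_one_iff _).mpr ⟨c₀, rfl⟩
  have hneg : XCyc.mk r m (-1) = 1 :=
    (QuotientGroup.eq_one_iff _).mpr ⟨-1, by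
      show (-1 : (ZMod r)ˣ) ^ m = -1
      exact hmodd.neg_one_pow⟩
  let cl : ℕ → (ZMod r)ˣ := fun q =>
    if h : Nat.Coprime q r then ZMod.unitOfCoprime q h else 1
  have hcl : ∀ q : ℕ, q.Prime → q ≠ r → ((cl q : (ZMod r)ˣ) : ZMod r) = (q : ZMod r) := by
    intro q hq hne
    have h : Nat.Coprime q r := (Nat.coprime_primes hq hr).mpr hne
    simp only [cl, dif_pos h]
    exact ZMod.coe_unitOfCoprime _ _
  have key := map_unit_eq_finprod r (XCyc.mk r m) hneg a' ha'0 hval (c₀ ^ m) hu cl hcl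
  rw [hmk] at key
  obtain ⟨hnum, hden⟩ := UnitNorm.not_dvd_num_den r hr a' ha'0 hval
  have hrmem : r ∉ (a'.num.natAbs * a'.den).primeFactors := by
    intro h
    rcases (Nat.Prime.dvd_mul hr).mp (Nat.dvd_of_mem_primeFactors h) with h | h
    · exact hnum (Int.natCast_dvd.mpr h)
    · exact hden (Int.natCast_dvd_natCast.mpr h)
  have key2 : (1 : XCyc r m) =
      γ ^ (∑ q ∈ (a'.num.natAbs * a'.den).primeFactors, padicValRat q a' * (κ q : ℤ)) := by
    rw [key, zpow_sum_eq_prod]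
    refine Finset.prod_congr rfl fun q hq => ?_
    have hqp := Nat.prime_of_mem_primeFactors hq
    have hqr : q ≠ r := fun h => hrmem (h ▸ hq)
    rw [hκ q (cl q) hqp hqr (hcl q hqp hqr), ← zpow_natCast, ← zpow_mul, mul_comm]
  have hord : orderOf γ = m := by
    rw [← Nat.card_zpowers, hγ, Subgroup.card_top, card_XCyc r m hm]
  have hdvd : (m : ℤ) ∣
      ∑ q ∈ (a'.num.natAbs * a'.den).primeFactors, padicValRat q a' * (κ q : ℤ) := by
    rw [← hord]
    exact orderOf_dvd_iff_zpow_eq_one.mpr key2.symm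
  have hsum : ∑ q ∈ (a'.num.natAbs * a'.den).primeFactors, padicValRat q a' * (κ q : ℤ) =
      ∑ q ∈ ((a : ℚ).num.natAbs * (a : ℚ).den).primeFactors.erase r,
        padicValRat q (a : ℚ) * (κ q : ℤ) := by
    refine Finset.sum_congr_of_eq_on_inter ?_ ?_ ?_
    · intro q hq hq'
      have hqp := Nat.prime_of_mem_primeFactors hq
      have hqr : q ≠ r := fun h => hrmem (h ▸ hq)
      have hq'' : q ∉ ((a : ℚ).num.natAbs * (a : ℚ).den).primeFactors :=
        fun h => hq' (Finset.mem_erase.mpr ⟨hqr, h⟩)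
      rw [ha', padicValRat_div_zpow r q hr hqp hqr _ ha0,
        padicValRat_eq_zero_of_not_mem _ q hq'' hqp ha0, zero_mul]
    · intro q hq hq'
      obtain ⟨hqr, hq⟩ := Finset.mem_erase.mp hq
      have hqp := Nat.prime_of_mem_primeFactors hq
      rw [← padicValRat_div_zpow r q hr hqp hqr _ ha0 j, ← ha',
        padicValRat_eq_zero_of_not_mem _ q hq' hqp ha'0, zero_mul]
    · intro q hq _
      have hqp := Nat.prime_of_mem_primeFactors hq
      have hqr : q ≠ r := fun h => hrmem (h ▸ hq)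
      rw [ha', padicValRat_div_zpow r q hr hqp hqr _ ha0]
  rw [← hsum]
  exact hdvd

end RecipArith

end Fermat.Agent.S55
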