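/-
S55 / block BR-A3a : distinct primes are independent modulo `p`-th powers in `ℚ(μ_{p^∞})`.
-/
import Fermat.Agent.S55.BR.CycDefs

set_option autoImplicit false
set_option maxHeartbeats 400000

namespace Fermat.Agent.S55.BR

local notation "Qbar" => AlgebraicClosure ℚ
local notation "GQ" => (AlgebraicClosure ℚ ≃ₐ[ℚ] AlgebraicClosure ℚ)

namespace KummerIndep

open Polynomial

theorem normal_rat : Normal ℚ Qbar := by
  have h : (DivisionRing.toRatAlgebra : Algebra ℚ (AlgebraicClosure ℚ)) =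
      AlgebraicClosure.instAlgebra ℚ := Subsingleton.elim _ _
  rw [h]
  infer_instance

theorem cycN_eq_one_iff' (n : ℕ) [NeZero n] (σ : GQ) :
    cycN n σ = 1 ↔ ∀ x : Qbar, x ^ n = 1 → σ x = x := by
  constructor
  · intro h x hx
    obtain ⟨t, rfl⟩ : IsUnit x := IsUnit.of_pow_eq_one hx (NeZero.ne n)
    have ht : t ∈ rootsOfUnity n Qbar := by
      rw [mem_rootsOfUnity]
      ext
      simpa using hx
    have h1 := modularCyclotomicCharacter.spec Qbar (card_rootsOfUnity n)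
      (MulSemiringAction.toRingAut GQ Qbar σ) ht
    have h2 : modularCyclotomicCharacter Qbar (card_rootsOfUnity n)
      (MulSemiringAction.toRingAut GQ Qbar σ) = 1 := h
    rw [h2, Units.val_one, ZMod.val_one_eq_one_mod, ← pow_eq_pow_mod 1 hx, pow_one] at h1
    exact h1
  · intro h
    have h1 : (1 : ZMod n) = modularCyclotomicCharacter Qbar (card_rootsOfUnity n)
        (MulSemiringAction.toRingAut GQ Qbar σ) := by
      apply modularCyclotomicCharacter.unique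
      intro t ht
      have ht' : (t : Qbar) ^ n = 1 := by
        have := (mem_rootsOfUnity _ _).mp ht
        rw [← Units.val_pow_eq_pow_val, this, Units.val_one]
      rw [ZMod.val_one_eq_one_mod, ← pow_eq_pow_mod 1 ht', pow_one]
      exact h _ ht'
    apply Units.ext
    exact h1.symm

theorem exists_pow_eq_of_fixed {p : ℕ} (hp : p.Prime) (hp2 : p ≠ 2) {ζ : Qbar}
    (hζ : IsPrimitiveRoot ζ p) (J : Subgroup GQ)
    (hJc : ∀ σ τ : GQ, τ⁻¹ * σ⁻¹ * τ * σ ∈ J) (hJζ : ∀ s ∈ J, s ζ = ζ)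
    (y : Qbar) (x : ℚ) (hy : y ^ p = algebraMap ℚ Qbar x) (hy0 : y ≠ 0)
    (hJy : ∀ s ∈ J, s y = y) : ∃ b : ℚ, b ^ p = x := by
  by_contra hne
  push Not at hne
  have : NeZero p := ⟨hp.ne_zero⟩
  have := normal_rat
  have hirr : Irreducible (X ^ p - C x : ℚ[X]) := X_pow_sub_C_irreducible_of_prime hp hne
  have hmon : (X ^ p - C x : ℚ[X]).Monic := monic_X_pow_sub_C x hp.ne_zero
  have hcop : Nat.Coprime 2 p := by
    rw [Nat.coprime_primes Nat.prime_two hp]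
    exact fun h => hp2 h.symm
  have hζ2 : IsPrimitiveRoot (ζ ^ 2) p := hζ.pow_of_coprime 2 hcop
  have hζ1 : ζ ≠ 1 := hζ.ne_one hp.one_lt
  have hζ0 : ζ ≠ 0 := hζ.ne_zero hp.ne_zero
  obtain ⟨τ, hτ⟩ : ∃ τ : GQ, τ ζ = ζ ^ 2 := by
    apply isConjRoot_iff_exists_algEquiv.mp
    show minpoly ℚ (ζ ^ 2) = minpoly ℚ ζ
    rw [← cyclotomic_eq_minpoly_rat hζ hp.pos, ← cyclotomic_eq_minpoly_rat hζ2 hp.pos]
  set w := τ y / y with hwdef
  have hτy0 : τ y ≠ 0 := by simpa using hy0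
  have hw0 : w ≠ 0 := div_ne_zero hτy0 hy0
  have hyp0 : y ^ p ≠ 0 := pow_ne_zero _ hy0
  have hw : w ^ p = 1 := by
    rw [hwdef, div_pow, ← map_pow, hy, AlgEquiv.commutes, ← hy, div_self hyp0]
  obtain ⟨j, -, hj⟩ := hζ.eq_pow_of_pow_eq_one hw
  have hτw : τ w = w ^ 2 := by
    rw [← hj, map_pow, hτ]
    ring
  set y' := y / w with hy'def
  have hy'0 : y' ≠ 0 := div_ne_zero hy0 hw0
  have hτy' : τ y' = y' := by
    rw [hy'def, map_div₀, hτw]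
    have : τ y = w * y := by rw [hwdef]; field_simp
    rw [this]
    field_simp
  have hy'p : y' ^ p = algebraMap ℚ Qbar x := by rw [hy'def, div_pow, hw, div_one, hy]
  have hJy' : ∀ s ∈ J, s y' = y' := by
    intro s hs
    rw [hy'def, map_div₀, hJy s hs, ← hj, map_pow, hJζ s hs]
  obtain ⟨σ, hσ⟩ : ∃ σ : GQ, σ y' = ζ * y' := by
    apply isConjRoot_iff_exists_algEquiv.mp
    show minpoly ℚ (ζ * y') = minpoly ℚ y'
    rw [← minpoly.eq_of_irreducible_of_monic hirr (x := y') (by simp [hy'p]) hmon,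
      ← minpoly.eq_of_irreducible_of_monic hirr (x := ζ * y')
        (by simp [mul_pow, hy'p, hζ.pow_eq_one]) hmon]
  have hc := hJy' _ (hJc σ τ)
  have h1 : τ (σ y') = σ (τ y') := by
    have h2 : τ (σ y') = σ (τ ((τ⁻¹ * σ⁻¹ * τ * σ) y')) := by
      simp only [AlgEquiv.mul_apply, AlgEquiv.aut_inv, AlgEquiv.apply_symm_apply]
    rw [h2, hc]
  rw [hτy', hσ, map_mul, hτ, hτy'] at h1
  have h3 : ζ ^ 2 = ζ := mul_right_cancel₀ hy'0 h1
  apply hζ1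
  have : ζ * ζ = ζ * 1 := by rw [mul_one, ← sq, h3]
  exact mul_left_cancel₀ hζ0 this

/-- The subgroup of Kummer vectors realised by elements of `J`. -/
def kumSub {p : ℕ} [NeZero p] {ι : Type} (ζ : Qbar) (hζ : ζ ^ p = 1) (J : Subgroup GQ)
    (hJζ : ∀ s ∈ J, s ζ = ζ) (y : ι → Qbar) : AddSubgroup (ι → ZMod p) where
  carrier := {v | ∃ s ∈ J, ∀ i, s (y i) = ζ ^ (v i).val * y i}
  zero_mem' := ⟨1, J.one_mem, fun i => by simp⟩
  add_mem' := by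
    rintro v v' ⟨s, hs, hv⟩ ⟨s', hs', hv'⟩
    refine ⟨s * s', J.mul_mem hs hs', fun i => ?_⟩
    rw [AlgEquiv.mul_apply, hv', map_mul, map_pow, hJζ s hs, hv, Pi.add_apply, ZMod.val_add,
      ← pow_eq_pow_mod _ hζ, pow_add]
    ring
  neg_mem' := by
    rintro v ⟨s, hs, hv⟩
    refine ⟨s⁻¹, J.inv_mem hs, fun i => ?_⟩
    apply s.injective
    rw [map_mul, map_pow, hJζ s hs, hv, AlgEquiv.aut_inv, AlgEquiv.apply_symm_apply, ← mul_assoc,
      ← pow_add, Pi.neg_apply, pow_eq_pow_mod _ hζ, ← ZMod.val_add, neg_add_cancel, ZMod.val_zero,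
      pow_zero, one_mul]

theorem kumSub_eq_top {p : ℕ} [Fact p.Prime] (hp2 : p ≠ 2) {ζ : Qbar}
    (hζ : IsPrimitiveRoot ζ p) (J : Subgroup GQ)
    (hJc : ∀ σ τ : GQ, τ⁻¹ * σ⁻¹ * τ * σ ∈ J) (hJζ : ∀ s ∈ J, s ζ = ζ)
    (T : Finset ℕ) (hT : ∀ ℓ ∈ T, ℓ.Prime) (y : T → Qbar)
    (hy : ∀ ℓ : T, y ℓ ^ p = ((ℓ : ℕ) : Qbar)) :
    kumSub ζ hζ.pow_eq_one J hJζ y = ⊤ := by
  have hp : p.Prime := Fact.out
  have hT0 : ∀ ℓ : T, ((ℓ : ℕ) : Qbar) ≠ 0 := fun ℓ => Nat.cast_ne_zero.mpr (hT _ ℓ.2).ne_zero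
  have hy0 : ∀ ℓ : T, y ℓ ≠ 0 := by
    intro ℓ h
    have := hy ℓ
    rw [h, zero_pow hp.ne_zero] at this
    exact hT0 ℓ this.symm
  by_contra hne
  have hlt : AddSubgroup.toZModSubmodule p (kumSub ζ hζ.pow_eq_one J hJζ y) < ⊤ := by
    rw [lt_top_iff_ne_top]
    intro h
    apply hne
    rw [eq_top_iff]
    intro v _
    have : v ∈ AddSubgroup.toZModSubmodule p (kumSub ζ hζ.pow_eq_one J hJζ y) := by
      rw [h]; trivial
    exact this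
  obtain ⟨f, hf0, hf⟩ := Submodule.exists_le_ker_of_lt_top _ hlt
  set a : T → ZMod p := fun ℓ => f (fun j => if ℓ = j then 1 else 0) with ha
  have hfa : ∀ v, f v = ∑ ℓ, v ℓ * a ℓ := fun v => by
    rw [LinearMap.pi_apply_eq_sum_univ f v]
    rfl
  obtain ⟨ℓ₀, hℓ₀⟩ : ∃ ℓ₀, a ℓ₀ ≠ 0 := by
    by_contra h
    push Not at h
    apply hf0
    apply LinearMap.ext
    intro v
    rw [hfa]
    simp [h]
  set Y : Qbar := ∏ ℓ, y ℓ ^ (a ℓ).val with hY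
  set N : ℕ := ∏ ℓ : T, (ℓ : ℕ) ^ (a ℓ).val with hN
  have hYp : Y ^ p = algebraMap ℚ Qbar (N : ℚ) := by
    rw [hY, ← Finset.prod_pow, hN, map_natCast, Nat.cast_prod]
    refine Finset.prod_congr rfl fun ℓ _ => ?_
    rw [← pow_mul, mul_comm, pow_mul, hy, Nat.cast_pow]
  have hY0 : Y ≠ 0 := Finset.prod_ne_zero_iff.mpr fun ℓ _ => pow_ne_zero _ (hy0 ℓ)
  have hJY : ∀ s ∈ J, s Y = Y := by
    intro s hs
    have hex : ∀ ℓ : T, ∃ i : ℕ, i < p ∧ ζ ^ i = s (y ℓ) / y ℓ := fun ℓ => by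
      apply hζ.eq_pow_of_pow_eq_one
      rw [div_pow, ← map_pow, hy, map_natCast, div_self (hT0 ℓ)]
    choose i hip hi using hex
    have hsy : ∀ ℓ, s (y ℓ) = ζ ^ i ℓ * y ℓ := fun ℓ => by
      rw [hi, div_mul_cancel₀ _ (hy0 ℓ)]
    have hv : (fun ℓ => (i ℓ : ZMod p)) ∈ kumSub ζ hζ.pow_eq_one J hJζ y :=
      ⟨s, hs, fun ℓ => by rw [ZMod.val_natCast_of_lt (hip ℓ), hsy]⟩
    have h0 : ∑ ℓ, (i ℓ : ZMod p) * a ℓ = 0 := by
      rw [← hfa]
      exact hf hv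
    have hdvd : p ∣ ∑ ℓ, i ℓ * (a ℓ).val := by
      rw [← ZMod.natCast_eq_zero_iff]
      push_cast
      simpa [ZMod.natCast_zmod_val] using h0
    rw [hY, map_prod]
    have : ∀ ℓ, s (y ℓ ^ (a ℓ).val) = ζ ^ (i ℓ * (a ℓ).val) * y ℓ ^ (a ℓ).val := fun ℓ => by
      rw [map_pow, pow_mul, hsy, mul_pow]
    simp_rw [this]
    rw [Finset.prod_mul_distrib, Finset.prod_pow_eq_pow_sum]
    obtain ⟨m, hm⟩ := hdvd
    rw [hm, pow_mul, hζ.pow_eq_one, one_pow, one_mul]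
  obtain ⟨b, hb⟩ := exists_pow_eq_of_fixed hp hp2 hζ J hJc hJζ Y N hYp hY0 hJY
  have hℓ₀p : (ℓ₀ : ℕ).Prime := hT _ ℓ₀.2
  have := Fact.mk hℓ₀p
  have hfac : N.factorization ℓ₀ = (a ℓ₀).val := by
    rw [hN, Nat.factorization_prod (fun ℓ _ => pow_ne_zero _ (hT _ ℓ.2).ne_zero),
      Finsupp.finsetSum_apply, Finset.sum_eq_single ℓ₀]
    · rw [Nat.factorization_pow, Finsupp.smul_apply, hℓ₀p.factorization_self]
      simp
    · intro ℓ _ hne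
      rw [Nat.factorization_pow, Finsupp.smul_apply, (hT _ ℓ.2).factorization,
        Finsupp.single_apply, if_neg (fun h => hne (Subtype.ext h))]
      simp
    · simp
  have hN0 : N ≠ 0 := Finset.prod_ne_zero_iff.mpr fun ℓ _ => pow_ne_zero _ (hT _ ℓ.2).ne_zero
  have hb0 : b ≠ 0 := by
    rintro rfl
    rw [zero_pow hp.ne_zero] at hb
    exact hN0 (by exact_mod_cast hb.symm)
  have h1 : padicValRat ℓ₀ (b ^ p) = p * padicValRat ℓ₀ b := padicValRat.pow _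
  rw [hb, padicValRat.of_nat, ← Nat.factorization_def _ hℓ₀p, hfac] at h1
  have h2 : (p : ℤ) ∣ ((a ℓ₀).val : ℤ) := ⟨_, h1⟩
  have h3 : p ∣ (a ℓ₀).val := Int.natCast_dvd_natCast.mp h2
  have h4 : (a ℓ₀).val < p := ZMod.val_lt _
  have h5 : (a ℓ₀).val = 0 := Nat.eq_zero_of_dvd_of_lt h3 h4
  exact hℓ₀ ((ZMod.val_eq_zero _).mp h5)

end KummerIndep

open KummerIndep in
theorem exists_sigma_moving_roots (p : ℕ) [Fact p.Prime] (hp2 : p ≠ 2) (k : ℕ) [NeZero (p ^ k)]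
    (T : Finset ℕ) (hT : ∀ ℓ ∈ T, ℓ.Prime) :
    ∃ σ : GQ, cycN (p ^ k) σ = 1 ∧ ∀ ℓ ∈ T, ∀ y : Qbar, y ^ p = (ℓ : Qbar) → σ y ≠ y := by
  have hp : p.Prime := Fact.out
  have : NeZero (p ^ (k + 1)) := ⟨pow_ne_zero _ hp.ne_zero⟩
  have : NeZero (p : Qbar) := ⟨Nat.cast_ne_zero.mpr hp.ne_zero⟩
  obtain ⟨ζ, hζ⟩ : ∃ ζ : Qbar, IsPrimitiveRoot ζ p :=
    HasEnoughRootsOfUnity.exists_primitiveRoot Qbar p
  set J : Subgroup GQ := (cycN (p ^ (k + 1))).ker with hJ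
  have hJfix : ∀ s ∈ J, ∀ x : Qbar, x ^ (p ^ (k + 1)) = 1 → s x = x :=
    fun s hs => (cycN_eq_one_iff' _ s).mp hs
  have hJζ : ∀ s ∈ J, s ζ = ζ := fun s hs =>
    hJfix s hs ζ (by rw [pow_succ', pow_mul, hζ.pow_eq_one, one_pow])
  have hJc : ∀ σ τ : GQ, τ⁻¹ * σ⁻¹ * τ * σ ∈ J := by
    intro σ τ
    rw [hJ, MonoidHom.mem_ker]
    simp only [map_mul, map_inv]
    rw [mul_comm ((cycN (p ^ (k + 1)) τ)⁻¹), mul_assoc _ _ (cycN (p ^ (k + 1)) τ),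
      inv_mul_cancel, mul_one, inv_mul_cancel]
  have hex : ∀ ℓ : T, ∃ y : Qbar, y ^ p = ((ℓ : ℕ) : Qbar) :=
    fun ℓ => IsAlgClosed.exists_pow_nat_eq _ hp.pos
  choose y hy using hex
  have htop := kumSub_eq_top hp2 hζ J hJc hJζ T hT y hy
  have h1 : (fun _ => 1 : T → ZMod p) ∈ kumSub ζ hζ.pow_eq_one J hJζ y := by
    rw [htop]; trivial
  obtain ⟨s, hs, hsy⟩ := h1
  refine ⟨s, ?_, ?_⟩
  · rw [cycN_eq_one_iff']
    intro x hx
    exact hJfix s hs x (by rw [pow_succ, pow_mul, hx, one_pow])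
  · intro ℓ hℓ z hz hsz
    have hℓ0 : (ℓ : Qbar) ≠ 0 := Nat.cast_ne_zero.mpr (hT ℓ hℓ).ne_zero
    have hz0 : z ≠ 0 := by
      rintro rfl
      rw [zero_pow hp.ne_zero] at hz
      exact hℓ0 hz.symm
    have hy1 := hy ⟨ℓ, hℓ⟩
    have hsy1 := hsy ⟨ℓ, hℓ⟩
    simp only [ZMod.val_one, pow_one] at hsy1 hy1
    set y₀ := y ⟨ℓ, hℓ⟩
    have hy0 : y₀ ≠ 0 := by
      intro h
      rw [h, zero_pow hp.ne_zero] at hy1
      exact hℓ0 hy1.symm
    have hw : (z / y₀) ^ p = 1 := by rw [div_pow, hz, hy1, div_self hℓ0]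
    obtain ⟨j, -, hj⟩ := hζ.eq_pow_of_pow_eq_one hw
    have hzw : z = ζ ^ j * y₀ := by rw [hj, div_mul_cancel₀ _ hy0]
    have h2 : s z = ζ * z := by
      rw [hzw, map_mul, map_pow, hJζ s hs, hsy1]
      ring
    rw [hsz] at h2
    have h3 : ζ = 1 := by
      have : 1 * z = ζ * z := by rw [one_mul]; exact h2
      exact (mul_right_cancel₀ hz0 this).symm
    exact hζ.ne_one hp.one_lt h3

end Fermat.Agent.S55.BR
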