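/-
S55 / block BR, node BR-A3b (helper139): the auxiliary prime `r ≡ 1 mod p^k` modulo which every
`ℓ ∈ T` is a non-`p`-th-power.
-/
import Fermat.Agent.S55.BR.CycDefs
import Fermat.Agent.S55.BR.KummerIndep
import Fermat.Agent.S29.Cyclo
import Fermat.Agent.Lib.WeakChebotarev

set_option autoImplicit false
set_option linter.style.haveILetI false

namespace Fermat.Agent.S55.BR

open Fermat.Agent.S05 Fermat.Agent.S29.Cyclo

local notation "Qbar" => AlgebraicClosure ℚ
local notation "GQ" => (AlgebraicClosure ℚ ≃ₐ[ℚ] AlgebraicClosure ℚ)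

namespace AuxPrime

/-- reduction is injective on `p`-power roots of unity (residue characteristic `≠ p`) -/
theorem eq_one_of_valuation_sub_one_lt_one {L : Type*} [Field L] (A : ValuationSubring L)
    {r p : ℕ} (hr : r.Prime) (hp : p.Prime) (hne : r ≠ p) (hA : A.LiesOverPrime r) (k : ℕ) {η : L}
    (hη : η ^ (p ^ k) = 1) (h : A.valuation (η - 1) < 1) : η = 1 := by
  induction k generalizing η with
  | zero => simpa using hη
  | succ k ih =>
    have hv : A.valuation η = 1 :=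
      valuation_eq_one_of_pow_eq_one A (pow_ne_zero _ hp.ne_zero) hη
    have hterm : ∀ i : ℕ, A.valuation (η ^ i - 1) < 1 := by
      intro i
      induction i with
      | zero => simp
      | succ i ihi =>
        have : η ^ (i + 1) - 1 = η * (η ^ i - 1) + (η - 1) := by ring
        rw [this]
        apply Valuation.map_add_lt _ _ h
        rw [map_mul, hv, one_mul]
        exact ihi
    have h1 : η ^ p = 1 := by
      apply ih _ (hterm p)
      rw [← pow_mul, ← pow_succ']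
      exact hη
    by_contra hne1
    exact not_valuation_sub_one_lt_one A hr hp hne hA h1 hne1 h

theorem finite_roots (n : ℕ) (hn : 0 < n) (a : Qbar) : {x : Qbar | x ^ n = a}.Finite := by
  have : {x : Qbar | x ^ n = a} = ↑(Polynomial.nthRootsFinset n a) := by
    ext x
    simp [Polynomial.mem_nthRootsFinset hn]
  rw [this]
  exact Finset.finite_toSet _

/-- an element in the kernel of `cycN n` fixes the `n`-th roots of unity -/
theorem fixes_of_cycN_eq_one (n : ℕ) [NeZero n] (σ : GQ) (h : cycN n σ = 1) (x : Qbar)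
    (hx : x ^ n = 1) : σ x = x := by
  have hx0 : x ≠ 0 := by
    rintro rfl
    rw [zero_pow (NeZero.ne n)] at hx
    exact zero_ne_one hx
  have hmem : Units.mk0 x hx0 ∈ rootsOfUnity n Qbar := by
    rw [mem_rootsOfUnity]
    exact Units.ext (by simpa using hx)
  have key := modularCyclotomicCharacter.spec Qbar (card_rootsOfUnity n)
    (MulSemiringAction.toRingAut GQ Qbar σ) hmem
  have h' : modularCyclotomicCharacter Qbar (card_rootsOfUnity n)
      (MulSemiringAction.toRingAut GQ Qbar σ) = 1 := h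
  rw [h'] at key
  rcases Nat.lt_or_ge 1 n with hn | hn
  · haveI : Fact (1 < n) := ⟨hn⟩
    simpa [ZMod.val_one] using key
  · have hn1 : n = 1 := le_antisymm hn (Nat.pos_of_ne_zero (NeZero.ne n))
    subst hn1
    have : x = 1 := by simpa using hx
    rw [this, map_one]

end AuxPrime

open AuxPrime in
/-- The core of `exists_aux_prime`, from an element `σ` fixing `μ_{p^k}` and moving the `p`-th roots
of the elements of `T`. -/
theorem exists_aux_prime_of_sigma (p : ℕ) [Fact p.Prime] (k : ℕ) (hk : 1 ≤ k)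
    (T : Finset ℕ) (hT : ∀ ℓ ∈ T, ℓ.Prime) (σ : GQ)
    (hσ1 : ∀ x : Qbar, x ^ (p ^ k) = 1 → σ x = x)
    (hσ2 : ∀ ℓ ∈ T, ∀ y : Qbar, y ^ p = (ℓ : Qbar) → σ y ≠ y) :
    ∃ r : ℕ, r.Prime ∧ r ∉ T ∧ r ≠ p ∧ p ^ k ∣ r - 1 ∧
      ∀ ℓ ∈ T, ¬ ∃ y : ZMod r, y ^ p = (ℓ : ZMod r) := by
  classical
  haveI : Algebra.IsAlgebraic ℚ Qbar := AlgebraicClosure.isAlgebraic ℚ
  have hp : p.Prime := Fact.out
  have hpk : 0 < p ^ k := pow_pos hp.pos k
  set S : Set Qbar := {x : Qbar | x ^ (p ^ k) = 1} ∪ ⋃ ℓ ∈ T, {y : Qbar | y ^ p = (ℓ : Qbar)} with hS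
  have hSfin : S.Finite := by
    refine (finite_roots _ hpk 1).union ?_
    exact T.finite_toSet.biUnion fun ℓ _ => finite_roots p hp.pos _
  set L : IntermediateField ℚ Qbar := IntermediateField.adjoin ℚ S with hL
  haveI : Finite S := hSfin
  haveI : FiniteDimensional ℚ L :=
    IntermediateField.finiteDimensional_adjoin (fun x _ => Algebra.IsIntegral.isIntegral x)
  obtain ⟨r, A, φ, hr, hrT, hA, -, hφ, ⟨a, ha⟩, ⟨b, hb⟩⟩ :=
    Fermat.Agent.Lib.WeakChebotarev.weak_chebotarev_exists L σ (insert p T)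
  have hrp : r ≠ p := fun h => hrT (by simp [h])
  have hrT' : r ∉ T := fun h => hrT (by simp [h])
  have hφd : φ ∈ A.decompositionSubgroup ℚ := hφ.mem_decompositionSubgroup
  have hmem1 : ∀ x : Qbar, x ^ (p ^ k) = 1 → x ∈ L := fun x hx =>
    IntermediateField.subset_adjoin ℚ S (Or.inl hx)
  have hmem2 : ∀ ℓ ∈ T, ∀ y : Qbar, y ^ p = (ℓ : Qbar) → y ∈ L := fun ℓ hℓ y hy =>
    IntermediateField.subset_adjoin ℚ S (Or.inr (by
      simp only [Set.mem_iUnion]
      exact ⟨ℓ, hℓ, hy⟩))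
  have hpowfix : ∀ (τ : GQ) (x : Qbar), τ x = x → ∀ n : ℕ, (τ ^ n) x = x := by
    intro τ x hx n
    induction n with
    | zero => simp
    | succ n ih => rw [pow_succ, AlgEquiv.mul_apply, hx, ih]
  -- `φ` fixes the `p^k`-th roots of unity
  have hφ1 : ∀ x : Qbar, x ^ (p ^ k) = 1 → φ x = x := by
    intro x hx
    rw [ha x (hmem1 x hx)]
    exact hpowfix σ x (hσ1 x hx) a
  refine ⟨r, hr, hrT', hrp, ?_, ?_⟩
  · -- `r ≡ 1 mod p^k`
    haveI : NeZero ((p ^ k : ℕ) : Qbar) := ⟨Nat.cast_ne_zero.mpr hpk.ne'⟩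
    obtain ⟨ζ, hζ⟩ := HasEnoughRootsOfUnity.exists_primitiveRoot Qbar (p ^ k)
    have hζ1 : ζ ^ (p ^ k) = 1 := hζ.pow_eq_one
    have hvζ : A.valuation ζ = 1 := valuation_eq_one_of_pow_eq_one A hpk.ne' hζ1
    have h1 := frob_valuation_sub_lt_one A hφ hvζ.le
    rw [hφ1 ζ hζ1] at h1
    have h2 : ζ - ζ ^ r = - (ζ * (ζ ^ (r - 1) - 1)) := by
      have : ζ ^ r = ζ * ζ ^ (r - 1) := by
        rw [← pow_succ', Nat.sub_add_cancel hr.one_le]
      rw [this]; ring
    rw [h2, Valuation.map_neg, map_mul, hvζ, one_mul] at h1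
    have h3 : ζ ^ (r - 1) = 1 := by
      apply eq_one_of_valuation_sub_one_lt_one A hr hp hrp hA k _ h1
      rw [← pow_mul, mul_comm, pow_mul, hζ1, one_pow]
    exact (hζ.pow_eq_one_iff_dvd _).mp h3
  · rintro ℓ hℓ ⟨y₀, hy₀⟩
    have hℓp : ℓ.Prime := hT ℓ hℓ
    have hℓr : ℓ ≠ r := fun h => hrT' (h ▸ hℓ)
    obtain ⟨y, hy⟩ : ∃ y : Qbar, y ^ p = (ℓ : Qbar) := IsAlgClosed.exists_pow_nat_eq _ hp.pos
    have hyL : y ∈ L := hmem2 ℓ hℓ y hy
    have hφy : φ y ≠ y := by
      intro h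
      apply hσ2 ℓ hℓ y hy
      rw [hb y hyL]
      exact hpowfix φ y h b
    have hvℓ : A.valuation (ℓ : Qbar) = 1 := by
      have := valuation_intCast_eq_one A hr hA (n := (ℓ : ℤ)) (by
        intro h
        exact hℓr ((Nat.prime_dvd_prime_iff_eq hr hℓp).mp (Int.natCast_dvd_natCast.mp h)).symm)
      simpa using this
    have hvy : A.valuation y = 1 := by
      have h := congrArg A.valuation hy
      rw [map_pow, hvℓ] at h
      exact (pow_eq_one_iff.mp h).resolve_right hp.ne_zero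
    have hy0 : y ≠ 0 := by
      rintro rfl
      simp at hvy
    -- an integer lift of `y₀`
    haveI : NeZero r := ⟨hr.ne_zero⟩
    set c : ℕ := y₀.val with hc
    have hcdvd : (r : ℤ) ∣ ((c : ℤ) ^ p - (ℓ : ℤ)) := by
      rw [← ZMod.intCast_zmod_eq_zero_iff_dvd]
      push_cast
      rw [hc, ZMod.natCast_zmod_val, hy₀, sub_self]
    have hvc : A.valuation (y ^ p - (c : Qbar) ^ p) < 1 := by
      have := valuation_intCast_lt_one A hA hcdvd
      push_cast at this
      rw [hy, ← Valuation.map_neg]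
      simpa using this
    haveI : NeZero ((p : ℕ) : Qbar) := ⟨Nat.cast_ne_zero.mpr hp.ne_zero⟩
    obtain ⟨ω, hω⟩ := HasEnoughRootsOfUnity.exists_primitiveRoot Qbar p
    rw [hω.pow_sub_pow_eq_prod_sub_mul y (c : Qbar) hp.pos, map_prod] at hvc
    obtain ⟨η, hηmem, hη⟩ : ∃ η ∈ Polynomial.nthRootsFinset p (1 : Qbar),
        A.valuation (y - η * (c : Qbar)) < 1 := by
      by_contra hcon
      push Not at hcon
      exact absurd hvc (not_lt.mpr (Finset.one_le_prod' hcon))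
    have hηp : η ^ p = 1 := (Polynomial.mem_nthRootsFinset hp.pos 1).mp hηmem
    have hηpk : η ^ (p ^ k) = 1 := by
      obtain ⟨j, rfl⟩ := Nat.exists_eq_add_of_le hk
      rw [pow_add, pow_one, pow_mul, hηp, one_pow]
    have h4 : A.valuation (φ y - η * (c : Qbar)) < 1 := by
      have : φ (y - η * (c : Qbar)) = φ y - η * (c : Qbar) := by
        rw [map_sub, map_mul, hφ1 η hηpk, map_natCast]
      rw [← this, decomposition_valuation_eq A hφd]
      exact hη
    have h5 : A.valuation (φ y - y) < 1 := by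
      have : φ y - y = (φ y - η * (c : Qbar)) - (y - η * (c : Qbar)) := by ring
      rw [this]
      exact Valuation.map_sub_lt _ h4 hη
    have hw : (φ y / y) ^ p = 1 := by
      rw [div_pow, ← map_pow, hy, map_natCast, div_self]
      exact Nat.cast_ne_zero.mpr hℓp.ne_zero
    have hw1 : φ y / y ≠ 1 := fun h => hφy ((div_eq_one_iff_eq hy0).mp h)
    apply not_valuation_sub_one_lt_one A hr hp hrp hA hw hw1
    have : φ y / y - 1 = (φ y - y) / y := by field_simp
    rw [this, map_div₀, hvy, div_one]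
    exact h5

/-- `exists_aux_prime` from the statement of node BR-A3a. -/
theorem exists_aux_prime_of_kummerIndep (p : ℕ) [Fact p.Prime] (k : ℕ) (hk : 1 ≤ k)
    (T : Finset ℕ) (hT : ∀ ℓ ∈ T, ℓ.Prime) [NeZero (p ^ k)]
    (hA3a : ∃ σ : GQ, cycN (p ^ k) σ = 1 ∧
      ∀ ℓ ∈ T, ∀ y : Qbar, y ^ p = (ℓ : Qbar) → σ y ≠ y) :
    ∃ r : ℕ, r.Prime ∧ r ∉ T ∧ r ≠ p ∧ p ^ k ∣ r - 1 ∧
      ∀ ℓ ∈ T, ¬ ∃ y : ZMod r, y ^ p = (ℓ : ZMod r) := by
  obtain ⟨σ, h1, h2⟩ := hA3a
  exact exists_aux_prime_of_sigma p k hk T hT σ (AuxPrime.fixes_of_cycN_eq_one _ σ h1) h2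

theorem exists_aux_prime (p : ℕ) [Fact p.Prime] (hp2 : p ≠ 2) (k : ℕ) (hk : 1 ≤ k)
    (T : Finset ℕ) (hT : ∀ ℓ ∈ T, ℓ.Prime) :
    ∃ r : ℕ, r.Prime ∧ r ∉ T ∧ r ≠ p ∧ p ^ k ∣ r - 1 ∧
      ∀ ℓ ∈ T, ¬ ∃ y : ZMod r, y ^ p = (ℓ : ZMod r) := by
  haveI : NeZero (p ^ k) := ⟨pow_ne_zero _ (Fact.out : p.Prime).ne_zero⟩
  exact exists_aux_prime_of_kummerIndep p k hk T hT (exists_sigma_moving_roots p hp2 k T hT)

end Fermat.Agent.S55.BR
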