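/-
S55 / block BR : the cyclic cover `XCyc r m → pt`.
-/
import Fermat.Agent.S55.BR.Defs
import Fermat.Agent.S55.BR.XCyc
import Fermat.Agent.S55.BR.Cyc
import Fermat.Agent.S55.BR.LocalPlace

set_option autoImplicit false

namespace Fermat.Agent.S55

open Dict (invD)
open scoped Pointwise

/-! ## XCycCover : file `BR/XCycCover.lean` (the cyclic cover `XCyc r m → pt`) -/
section XCycCover

open BR

theorem xCycCover_isStableField_of_normal (F : IntermediateField ℚ Qb) (hn : Normal ℚ F) :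
    IsStableField F := by
  intro g x hx
  have h := g.restrictNormal_commutes F ⟨x, hx⟩
  have h2 : g x = ((g.restrictNormal F ⟨x, hx⟩ : F) : Qb) := h.symm
  rw [h2]
  exact (g.restrictNormal F ⟨x, hx⟩).2

variable (r m : ℕ) [Fact r.Prime]

instance instSmoothSetXCyc : SmoothSet lvlAll (XCyc r m) where
  exists_fix x := by
    obtain ⟨F, h1, h2, h3⟩ := XCyc.level r m
    exact ⟨F.fixingSubgroup, ⟨F, h1, xCycCover_isStableField_of_normal F h2, rfl⟩,
      fun n hn => h3 n hn x⟩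

theorem XCyc.mulBy_iterate (γ : XCyc r m) (k : ℕ) (x : XCyc r m) :
    (XCyc.mulBy r m γ)^[k] x = γ ^ k * x := by
  induction k with
  | zero => simp
  | succ k ih =>
    rw [Function.iterate_succ_apply', ih, pow_succ', mul_assoc]
    rfl

theorem XCyc.cyclicCover (hm0 : 0 < m) (hm : m ∣ r - 1) (γ : XCyc r m)
    (hγ : Subgroup.zpowers γ = ⊤) : CyclicCover (XCyc.toPt r m) (XCyc.mulBy r m γ) m := by
  have hord : orderOf γ = m := by
    rw [orderOf_eq_card_of_zpowers_eq_top hγ, card_XCyc r m hm]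
  refine ⟨hm0, fun _ => ⟨1, rfl⟩, fun _ => rfl, fun x => ?_, fun x y _ => ?_, fun x k hk hkm => ?_⟩
  · have h1 : γ ^ m = 1 := by
      have := pow_orderOf_eq_one γ
      rwa [hord] at this
    rw [XCyc.mulBy_iterate, h1, one_mul]
  · have h1 : y * x⁻¹ ∈ Subgroup.zpowers γ := by rw [hγ]; trivial
    have h2 : y * x⁻¹ ∈ Submonoid.powers γ := by
      rwa [← mem_powers_iff_mem_zpowers] at h1
    obtain ⟨k, hk⟩ := h2
    have hk' : γ ^ k = y * x⁻¹ := hk
    refine ⟨k % m, Nat.mod_lt _ hm0, ?_⟩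
    have h3 : γ ^ (k % m) = γ ^ k := by
      have := pow_mod_orderOf γ k
      rwa [hord] at this
    rw [XCyc.mulBy_iterate, h3, hk', inv_mul_cancel_right]
  · rw [XCyc.mulBy_iterate]
    intro h
    have h1 : γ ^ k = 1 := mul_right_cancel (h.trans (one_mul x).symm)
    have h2 := orderOf_dvd_of_pow_eq_one h1
    rw [hord] at h2
    exact absurd (Nat.le_of_dvd hk h2) (not_le.mpr hkm)

theorem XCyc.transitive (x y : XCyc r m) : ∃ g : GQ, g • x = y := by
  obtain ⟨u, hu⟩ := XCyc.mk_surjective r m (y * x⁻¹)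
  obtain ⟨g, hg⟩ := cycN_surjective r u
  refine ⟨g, ?_⟩
  rw [XCyc.smul_def, hg, hu, inv_mul_cancel_right]

/-- if `ℓ` is not a `p`-th power modulo `r` the local group at `ℓ` is transitive on
`XCyc r (p^k)` -/
theorem XCyc.mem_locOrb_of_not_pow (p k : ℕ) [Fact p.Prime] (hk : p ^ k ∣ r - 1) (ℓ : Nat.Primes)
    (hne : (ℓ : ℕ) ≠ r) (hℓ : ¬ ∃ y : ZMod r, y ^ p = ((ℓ : ℕ) : ZMod r))
    (x₀ x : XCyc r (p ^ k)) : x ∈ locOrb ℓ x₀ := by
  have hr : r.Prime := Fact.out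
  obtain ⟨φ, hφ⟩ := exists_frobenius_Av ℓ
  have hcop : Nat.Coprime (ℓ : ℕ) r := (Nat.coprime_primes ℓ.2 hr).mpr hne
  set u : (ZMod r)ˣ := ZMod.unitOfCoprime (ℓ : ℕ) hcop with hu
  have huv : (u : ZMod r) = ((ℓ : ℕ) : ZMod r) := ZMod.coe_unitOfCoprime _ hcop
  have hsm : ∀ z : XCyc r (p ^ k), φ • z = XCyc.mk r (p ^ k) u * z :=
    fun z => XCyc.frob_smul r (p ^ k) ℓ.2 hne (Av ℓ) (Av_liesOverPrime ℓ) hφ u huv z
  have htop : Subgroup.zpowers (XCyc.mk r (p ^ k) u) = ⊤ :=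
    XCyc.zpowers_eq_top_of_not_pow r p k hk u (by rw [huv]; exact hℓ)
  have h1 : x * x₀⁻¹ ∈ Subgroup.zpowers (XCyc.mk r (p ^ k) u) := by rw [htop]; trivial
  have h2 : x * x₀⁻¹ ∈ Submonoid.powers (XCyc.mk r (p ^ k) u) := by
    rwa [← mem_powers_iff_mem_zpowers] at h1
  obtain ⟨j, hj⟩ := h2
  have hj' : XCyc.mk r (p ^ k) u ^ j = x * x₀⁻¹ := hj
  have hpow : ∀ (j : ℕ) (z : XCyc r (p ^ k)), (φ ^ j) • z = XCyc.mk r (p ^ k) u ^ j * z := by
    intro j
    induction j with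
    | zero => intro z; simp
    | succ j ih =>
      intro z
      rw [pow_succ', mul_smul, ih, hsm, pow_succ', mul_assoc]
  have hD : φ ^ j ∈ Dv ℓ := by
    apply Subgroup.pow_mem
    rw [Dv_eq]
    exact hφ.mem_decompositionSubgroup
  obtain ⟨h, hh⟩ := hD
  refine ⟨h, ?_⟩
  rw [hh, hpow, hj', inv_mul_cancel_right]

end XCycCover

end Fermat.Agent.S55
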