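/-
S55 / block BR, node BR-RecipSplit (owner helper138): a class of `Br(ℚ)[p^k]` is split by some
`XCyc r (p^k)`.
-/
import Fermat.Agent.S55.BR.Defs
import Fermat.Agent.S55.BR.AuxPrime
import Fermat.Agent.S55.BR.Hasse
import Fermat.Agent.S55.BR.AlmostAll
import Fermat.Agent.S55.BR.XCycCover
import Fermat.Agent.S55.BR.LocBrX
import Fermat.Agent.S55.BR.InvAt
import Fermat.Agent.S55.BR.LocNat

set_option autoImplicit false

namespace Fermat.Agent.S55

open Dict (invD)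
open scoped Pointwise

/-! ## RecipSplit : file `BR/RecipSplit.lean` (a class of `Br(ℚ)(p)` is split by some `XCyc r p^k`) -/
section RecipSplit

open BR

/-- the local degree of `XCyc r (p^k) → pt` at a prime `ℓ` which is not a `p`-th power mod `r` -/
theorem recipSplit_locDeg (r p k : ℕ) [Fact r.Prime] [Fact p.Prime] (hdvd : p ^ k ∣ r - 1)
    (ℓ : Nat.Primes) (hne : (ℓ : ℕ) ≠ r) (hℓ : ¬ ∃ y : ZMod r, y ^ p = ((ℓ : ℕ) : ZMod r))
    (x₀ : XCyc r (p ^ k)) : locDeg ℓ (XCyc.toPt r (p ^ k)) x₀ = p ^ k := by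
  unfold locDeg
  refine Eq.trans ?_ (card_XCyc r (p ^ k) hdvd)
  exact Nat.card_congr (Equiv.subtypeUnivEquiv
    (fun z => ⟨XCyc.mem_locOrb_of_not_pow r p k hdvd ℓ hne hℓ x₀ z, rfl⟩))

theorem exists_XCyc_split {p : ℕ} [Fact p.Prime] (hp2 : p ≠ 2) (I : BRInput p)
    (x : Hsm lvlAll (IndMod PUnit Kx) 2) (k : ℕ) (hk : 1 ≤ k) (hx : p ^ k • x = 0) :
    ∃ r : Nat.Primes, (r : ℕ) ≠ p ∧ p ^ k ∣ (r : ℕ) - 1 ∧
      locAll (IndMod PUnit Kx) r 2 x = 0 ∧
      haveI : Fact (r : ℕ).Prime := ⟨r.2⟩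
      Hsm.map (IndMod.pull Kx (XCyc.toPt (r : ℕ) (p ^ k))) 2 x = 0 := by
  classical
  have hfin := finite_locAll_ne_zero I.units PUnit x
  set T : Finset ℕ := hfin.toFinset.image (fun q : Nat.Primes => (q : ℕ)) with hT
  have hTprime : ∀ ℓ ∈ T, ℓ.Prime := by
    intro ℓ hℓ
    obtain ⟨q, -, rfl⟩ := Finset.mem_image.mp hℓ
    exact q.2
  have hmemT : ∀ q : Nat.Primes, locAll (IndMod PUnit Kx) q 2 x ≠ 0 → (q : ℕ) ∈ T := by
    intro q hq
    exact Finset.mem_image.mpr ⟨q, hfin.mem_toFinset.mpr hq, rfl⟩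
  obtain ⟨r, hr, hrT, hrp, hdvd, hpow⟩ := BR.exists_aux_prime p hp2 k hk T hTprime
  have : Fact r.Prime := ⟨hr⟩
  refine ⟨⟨r, hr⟩, hrp, hdvd, ?_, ?_⟩
  · by_contra h
    exact hrT (hmemT ⟨r, hr⟩ h)
  · show Hsm.map (IndMod.pull Kx (XCyc.toPt r (p ^ k))) 2 x = 0
    apply hasse_transitive (Fact.out : p.Prime) I (XCyc r (p ^ k)) (XCyc.transitive r (p ^ k))
    · exact ⟨k, by rw [← map_nsmul, hx, map_zero]⟩
    · intro q
      rw [locAll_map]
      by_cases hq : locAll (IndMod PUnit Kx) q 2 x = 0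
      · rw [hq, map_zero]
      · have hqT := hmemT q hq
        have hqr : (q : ℕ) ≠ r := fun e => hrT (e ▸ hqT)
        have hy : p ^ k • locAll (IndMod PUnit Kx) q 2 x = 0 := by
          rw [← map_nsmul, hx, map_zero]
        apply locBr_ext (I.locBr q) (XCyc r (p ^ k))
        · exact ⟨k, by rw [← map_nsmul, hy, map_zero]⟩
        · intro x₀
          rw [invAt_pull, recipSplit_locDeg r p k hdvd q hqr (hpow _ hqT) x₀, ← map_nsmul, hy,
            map_zero]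

end RecipSplit

end Fermat.Agent.S55
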