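/-
S55 / block BR : B3 = the reciprocity law (task BR-Recip, owner helper277).
Final location `Fermat/Agent/S55/BR/Recip.lean` (only the import lines change when the dependencies
are landed).  No `sorry` in this file.
-/
import Fermat.Agent.S55.BR.Defs
import Fermat.Agent.S55.BR.RecipSplit
import Fermat.Agent.S55.BR.RecipArith
import Fermat.Agent.S55.BR.LocNat
import Fermat.Agent.S55.BR.H0
import Fermat.Agent.S55.BR.InvAt
import Fermat.Agent.S55.BR.XCycCover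
import Fermat.Agent.S55.BR.AlmostAll
import Fermat.Agent.S55.BR.LocalPlace

set_option autoImplicit false

namespace Fermat.Agent.S55

open Dict (invD)
open scoped Pointwise

/-! ## Recip : file `BR/Recip.lean` (B3) -/
section Recip

open BR

/-- the map to the point -/
def Recip.toPt (X : Type) [MulAction GQ X] : X →[GQ] PUnit where
  toFun _ := PUnit.unit
  map_smul' _ _ := rfl

/-- every class of `XCyc r m` is a natural power of a generator; uniform choice of exponents -/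
theorem Recip.exists_kappa (r m : ℕ) [Fact r.Prime] (γ : XCyc r m)
    (hγ : Subgroup.zpowers γ = ⊤) :
    ∃ κ : ℕ → ℕ, ∀ (q : ℕ) (u : (ZMod r)ˣ), (u : ZMod r) = (q : ZMod r) →
      XCyc.mk r m u = γ ^ κ q := by
  have hex : ∀ q : ℕ, ∃ n : ℕ, ∀ u : (ZMod r)ˣ, (u : ZMod r) = (q : ZMod r) →
      XCyc.mk r m u = γ ^ n := by
    intro q
    by_cases h : ∃ u : (ZMod r)ˣ, (u : ZMod r) = (q : ZMod r)
    · obtain ⟨u₀, hu₀⟩ := h
      have h1 : XCyc.mk r m u₀ ∈ Subgroup.zpowers γ := by rw [hγ]; exact Subgroup.mem_top _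
      rw [← mem_powers_iff_mem_zpowers] at h1
      obtain ⟨n, hn⟩ := h1
      refine ⟨n, fun u hu => ?_⟩
      have : u = u₀ := Units.ext (hu.trans hu₀.symm)
      rw [this]
      exact hn.symm
    · exact ⟨0, fun u hu => absurd ⟨u, hu⟩ h⟩
  choose κ hκ using hex
  exact ⟨κ, hκ⟩

/-- the valuation of a rational number vanishes outside the prime factors of numerator and
denominator -/
theorem Recip.padicValRat_eq_zero (a : ℚˣ) (q : ℕ) (hq : q.Prime)
    (h : q ∉ ((a : ℚ).num.natAbs * (a : ℚ).den).primeFactors) : padicValRat q (a : ℚ) = 0 := by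
  have hN : (a : ℚ).num.natAbs * (a : ℚ).den ≠ 0 := by
    refine mul_ne_zero ?_ (a : ℚ).den_nz
    rw [Int.natAbs_ne_zero, Rat.num_ne_zero]
    exact a.ne_zero
  have hnd : ¬ q ∣ (a : ℚ).num.natAbs * (a : ℚ).den := fun hd =>
    h (Nat.mem_primeFactors.mpr ⟨hq, hd, hN⟩)
  have h1 : ¬ (q : ℤ) ∣ (a : ℚ).num := fun hd =>
    hnd (Dvd.dvd.mul_right (Int.natCast_dvd.mp hd) _)
  have h2 : ¬ q ∣ (a : ℚ).den := fun hd => hnd (Dvd.dvd.mul_left hd _)
  rw [padicValRat_def, padicValInt.eq_zero_of_not_dvd h1, padicValNat.eq_zero_of_not_dvd h2]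
  simp

/-- reciprocity over `ℚ` -/
theorem reciprocity_pt {p : ℕ} [Fact p.Prime] (hp2 : p ≠ 2) (I : BRInput p)
    (x : Hsm lvlAll (IndMod PUnit Kx) 2) (hx : x ∈ pPrimary p (Hsm lvlAll (IndMod PUnit Kx) 2)) :
    ∑ᶠ q : Nat.Primes, invTot I.inv q PUnit (locAll (IndMod PUnit Kx) q 2 x) = 0 := by
  obtain ⟨k₀, hk₀⟩ := hx
  have hk : p ^ (k₀ + 1) • x = 0 := by rw [pow_succ, mul_comm, mul_smul, hk₀, smul_zero]
  obtain ⟨r, -, hdvd, hloc, hsplit⟩ := exists_XCyc_split hp2 I x (k₀ + 1) (by omega) hk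
  have : Fact (r : ℕ).Prime := ⟨r.2⟩
  set m : ℕ := p ^ (k₀ + 1) with hm
  have hm0 : 0 < m := pow_pos (Fact.out : p.Prime).pos _
  have hmodd : Odd m := ((Fact.out : p.Prime).odd_of_ne_two hp2).pow
  obtain ⟨γ, hγ0⟩ := (XCyc.isCyclic (r : ℕ) m).exists_generator
  have hγ : Subgroup.zpowers γ = ⊤ := (Subgroup.eq_top_iff' _).2 hγ0
  have hc := XCyc.cyclicCover (r : ℕ) m hm0 hdvd γ hγ
  obtain ⟨a, ha⟩ := (hc.exists_theta_eq_iff lvlAll Kx 0 (I.h90g _) x).2 hsplit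
  obtain ⟨a₀, rfl⟩ := exists_ratH0_eq a
  obtain ⟨κ, hκ⟩ := Recip.exists_kappa (r : ℕ) m γ hγ
  -- the local terms
  have hterm : ∀ q : Nat.Primes, q ≠ r →
      invTot I.inv q PUnit (locAll (IndMod PUnit Kx) q 2 x) =
        I.sgn • toQZ (padicValRat q (a₀ : ℚ) * κ q / m) := by
    intro q hq
    have hne : (q : ℕ) ≠ (r : ℕ) := fun h => hq (Subtype.ext h)
    obtain ⟨φ, hφ⟩ := exists_frobenius_Av q
    have hcop : Nat.Coprime (q : ℕ) (r : ℕ) := (Nat.coprime_primes q.2 r.2).2 hne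
    rw [← ha]
    refine I.symbol q (XCyc (r : ℕ) m) (XCyc.toPt (r : ℕ) m) (XCyc.mulBy (r : ℕ) m γ) m hc (κ q) φ
      (fun τ hτ y => XCyc.inertia_smul (r : ℕ) m q.2 hne (Av q) (Av_liesOverPrime q) hτ y) hφ
      (fun y => ?_) a₀
    rw [XCyc.mulBy_iterate, XCyc.frob_smul (r : ℕ) m q.2 hne (Av q) (Av_liesOverPrime q) hφ
      (ZMod.unitOfCoprime (q : ℕ) hcop) (ZMod.coe_unitOfCoprime _ hcop) y,
      hκ q _ (ZMod.coe_unitOfCoprime _ hcop)]
  -- the norm condition at `r`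
  have hconst : IndMod.const (G := GQ) PUnit Kx (ratKx a₀) ∈ invD ⊤ PUnit := by
    intro g _
    rw [← map_smul (IndMod.const (G := GQ) PUnit Kx)]
    congr 1
    apply Additive.toMul.injective
    apply Units.ext
    exact g.commutes (a₀ : ℚ)
  have hb : ∃ b ∈ invD (Dv r) (XCyc (r : ℕ) m),
      IndMod.push Kx (XCyc.toPt (r : ℕ) m) b = IndMod.const (G := GQ) PUnit Kx (ratKx a₀) := by
    have h1 := hloc
    rw [← ha, locAll_theta, ratH0_eq_H0g a₀ ⟨_, hconst⟩ rfl,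
      locAll_H0g r ⟨_, hconst⟩ ⟨_, invD_top_le (Dv r) hconst⟩ rfl] at h1
    exact (thetaLoc_H0l_eq_zero_iff I.h90l r hc _).1 h1
  obtain ⟨b, hbD, hbpush⟩ := hb
  have hab : IndMod.sum (G := GQ) (XCyc (r : ℕ) m) Kx b = ratKx a₀ := by
    rw [← IndMod.sum_push (XCyc.toPt (r : ℕ) m) b, hbpush, IndMod.sum_const]
    simp
  rw [Dv_eq] at hbD
  have hdiv := dvd_sum_padicValRat_mul (r : ℕ) m hm0 hmodd hdvd γ hγ κ
    (fun q u _ _ hu => hκ q u hu) (Av r) (Av_liesOverPrime r) a₀ b hbD hab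
  -- the sum
  set S : Finset ℕ := ((a₀ : ℚ).num.natAbs * (a₀ : ℚ).den).primeFactors.erase (r : ℕ) with hS
  have hSprime : ∀ n ∈ S, n.Prime := fun n hn =>
    Nat.prime_of_mem_primeFactors (Finset.mem_of_mem_erase hn)
  let T : Finset Nat.Primes := S.subtype Nat.Prime
  have hT : ∀ q : Nat.Primes, q ∈ T ↔ (q : ℕ) ∈ S := fun q => Finset.mem_subtype
  have hsumT : ∀ f : ℕ → QZ, ∑ q ∈ T, f (q : ℕ) = ∑ n ∈ S, f n := fun f =>
    Finset.sum_subtype_of_mem f hSprime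
  have hsupp : (Function.support fun q : Nat.Primes =>
      invTot I.inv q PUnit (locAll (IndMod PUnit Kx) q 2 x)) ⊆ (T : Set Nat.Primes) := by
    intro q hq
    rw [Function.mem_support] at hq
    rw [Finset.mem_coe, hT]
    by_contra hqS
    apply hq
    by_cases hqr : q = r
    · rw [hqr, hloc, map_zero]
    · rw [hterm q hqr, Recip.padicValRat_eq_zero a₀ q q.2 (fun h => hqS
        (Finset.mem_erase.mpr ⟨fun h' => hqr (Subtype.ext h'), h⟩))]
      simp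
  rw [finsum_eq_sum_of_support_subset _ hsupp]
  have h2 : ∀ q ∈ T,
      invTot I.inv q PUnit (locAll (IndMod PUnit Kx) q 2 x) =
        (fun n : ℕ => I.sgn • toQZ (padicValRat n (a₀ : ℚ) * κ n / m)) (q : ℕ) := by
    intro q hq
    rw [hT] at hq
    exact hterm q (fun h => (Finset.mem_erase.mp hq).1 (congrArg Subtype.val h))
  rw [Finset.sum_congr rfl h2,
    hsumT (fun n : ℕ => I.sgn • toQZ (padicValRat n (a₀ : ℚ) * κ n / m)),
    ← Finset.smul_sum, ← map_sum, ← Finset.sum_div]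
  obtain ⟨c, hc'⟩ := hdiv
  have h3 : toQZ ((∑ n ∈ S, (padicValRat n (a₀ : ℚ) : ℚ) * (κ n : ℚ)) / (m : ℚ)) = 0 := by
    rw [toQZ_eq_zero_iff]
    refine ⟨c, ?_⟩
    have h4 : (∑ n ∈ S, (padicValRat n (a₀ : ℚ) : ℚ) * (κ n : ℚ)) = (m : ℚ) * c := by
      have := congrArg (Int.cast : ℤ → ℚ) hc'
      push_cast at this
      exact this
    rw [h4]
    field_simp
  rw [h3, smul_zero]

/-- **B3** : reciprocity. -/
theorem reciprocity {p : ℕ} [Fact p.Prime] (hp2 : p ≠ 2) (I : BRInput p) (X : Type)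
    [MulAction GQ X] [Finite X] [SmoothSet lvlAll X] (x : Hsm lvlAll (IndMod X Kx) 2)
    (hx : x ∈ pPrimary p (Hsm lvlAll (IndMod X Kx) 2)) :
    ∑ᶠ q : Nat.Primes, invTot I.inv q X (locAll (IndMod X Kx) q 2 x) = 0 := by
  have hx0 : Hsm.map (IndMod.push Kx (Recip.toPt X)) 2 x ∈
      pPrimary p (Hsm lvlAll (IndMod PUnit Kx) 2) := by
    obtain ⟨k, hk⟩ := hx
    exact ⟨k, by rw [← map_nsmul, hk, map_zero]⟩
  rw [← reciprocity_pt hp2 I _ hx0]
  refine finsum_congr fun q => ?_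
  rw [locAll_map, invX_push]

end Recip

end Fermat.Agent.S55
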