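/-
S55 / block BR : admissible families of local classes (file `BR/Adm.lean`; proof of task BR-Adm
against the stubs `BR/WIP/{Recip,AlmostAll,InvAt}.lean`; when they land only the import lines change).
-/
import Fermat.Agent.S55.BR.Defs
import Fermat.Agent.S55.BR.Recip
import Fermat.Agent.S55.BR.AlmostAll
import Fermat.Agent.S55.BR.InvAt

set_option autoImplicit false

namespace Fermat.Agent.S55

open Dict (invD)
open scoped Pointwise

/-! ## Adm : file `BR/Adm.lean` (admissible families of local classes) -/
section Adm

/-- additive maps preserve the `p`-primary part (local copy) -/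
theorem Adm.aux_map_mem {p : ℕ} {M N : Type} [AddCommGroup M] [AddCommGroup N] (f : M →+ N)
    {x : M} (hx : x ∈ pPrimary p M) : f x ∈ pPrimary p N := by
  obtain ⟨k, hk⟩ := hx
  exact ⟨k, by rw [← map_nsmul, hk, map_zero]⟩

variable {p : ℕ} {inv : ∀ q : Nat.Primes, Hloc q Kx 2 →+ QZ}
variable {X' X : Type} [MulAction GQ X'] [MulAction GQ X] [Finite X'] [Finite X]

/-- the invariants of an admissible family have finite support -/
theorem Adm.aux_support {y : ∀ q : Nat.Primes, Hloc q (IndMod X Kx) 2} (h : Adm p inv X y) :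
    (Function.support fun q : Nat.Primes => invTot inv q X (y q)).Finite :=
  h.fin.subset fun q hq h0 => hq (by
    show invTot inv q X (y q) = 0
    rw [h0, map_zero])

theorem Adm.pull {y : ∀ q : Nat.Primes, Hloc q (IndMod X Kx) 2} (h : Adm p inv X y)
    (u : X' →[GQ] X) (m : ℕ) (hm : ∀ x, Nat.card {y // u y = x} = m) :
    Adm p inv X' fun q => Hsm.map (ResMod.map (ιv q) (IndMod.pull Kx u)) 2 (y q) where
  prim q := Adm.aux_map_mem _ (h.prim q)
  fin := h.fin.subset fun q hq h0 => hq (by
    show Hsm.map (ResMod.map (ιv q) (IndMod.pull Kx u)) 2 (y q) = 0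
    rw [h0, map_zero])
  sum := by
    have h1 : ∀ q : Nat.Primes,
        invTot inv q X' (Hsm.map (ResMod.map (ιv q) (IndMod.pull Kx u)) 2 (y q)) =
          m • invTot inv q X (y q) := fun q => invX_pull inv q u m hm (y q)
    rw [finsum_congr h1, ← smul_finsum' m h.aux_support, h.sum, smul_zero]

theorem Adm.sub {y y' : ∀ q : Nat.Primes, Hloc q (IndMod X Kx) 2} (h : Adm p inv X y)
    (h' : Adm p inv X y') : Adm p inv X fun q => y q - y' q where
  prim q := sub_mem (h.prim q) (h'.prim q)
  fin := (h.fin.union h'.fin).subset fun q hq => by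
    by_contra hn
    rw [Set.mem_union, not_or] at hn
    have h1 : y q = 0 := not_not.1 hn.1
    have h2 : y' q = 0 := not_not.1 hn.2
    exact hq (by
      show y q - y' q = 0
      rw [h1, h2, sub_zero])
  sum := by
    have h1 : ∀ q : Nat.Primes, invTot inv q X (y q - y' q) =
        invTot inv q X (y q) - invTot inv q X (y' q) := fun q => map_sub _ _ _
    rw [finsum_congr h1, finsum_sub_distrib h.aux_support h'.aux_support, h.sum, h'.sum, sub_zero]

/-- B2 + B3 : the family of localisations of a global `p`-primary class is admissible -/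
theorem adm_locAll [Fact p.Prime] (hp2 : p ≠ 2) (I : BRInput p) [SmoothSet lvlAll X]
    (x : Hsm lvlAll (IndMod X Kx) 2) (hx : x ∈ pPrimary p (Hsm lvlAll (IndMod X Kx) 2)) :
    Adm p I.inv X fun q => locAll (IndMod X Kx) q 2 x where
  prim _ := Adm.aux_map_mem _ hx
  fin := finite_locAll_ne_zero I.units X x
  sum := reciprocity hp2 I X x hx

end Adm

end Fermat.Agent.S55
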