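/-
S55 / block BR, file `BR/EffaceLoc.lean` (helper107): local classes die at a global level.
-/
import Fermat.Agent.S55.BR.Defs
import Fermat.Agent.S55.Coh.Efface
import Fermat.Agent.S55.Coh.EffaceRes
import Fermat.Agent.S55.Coh.Coset

set_option autoImplicit false

namespace Fermat.Agent.S55

open Dict (invD)
open scoped Pointwise

/-! ## EffaceLoc : file `BR/EffaceLoc.lean` (local classes die at a global level) -/
section EffaceLoc

section generic

variable {G H : Type} [Group G] [Group H] (𝓝 : LevelSys G)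
variable {A : Type} [AddCommGroup A] [DistribMulAction G A]

/-- Monotonicity: a restricted class of `Map(G ⧸ U, A)` which dies in `Map(G ⧸ N, A)` dies in
`Map(G ⧸ N', A)` for `N' ≤ N`. -/
theorem EffaceLoc.pull_mono {𝓜 : LevelSys H} (f : H →* G) {U N N' : Subgroup G} (h : N ≤ U)
    (h' : N' ≤ N) (n : ℕ) (x : Hsm 𝓜 (ResMod f (IndMod (G ⧸ U) A)) n)
    (hx : Hsm.map (ResMod.map f (IndMod.pull A (cosetMap h))) n x = 0) :
    Hsm.map (ResMod.map f (IndMod.pull A (cosetMap (h'.trans h)))) n x = 0 := by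
  rw [Hsm.map_comp' (ψ := ResMod.map f (IndMod.pull A (cosetMap h')))
    (φ := ResMod.map f (IndMod.pull A (cosetMap h))) (fun a => ?_), hx, _root_.map_zero]
  apply (ResMod.toRes f).symm.injective
  ext z
  show ((ResMod.toRes f).symm a) (cosetMap (h'.trans h) z) =
    ((ResMod.toRes f).symm a) (cosetMap h (cosetMap h' z))
  rw [cosetMap_cosetMap]

/-- Effaceability of the restriction to `H` for coset spaces: a class of
`Res (Map(G ⧸ U, A))` dies in `Res (Map(G ⧸ N, A))` for a member `N ≤ U` of the level system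
of `G`. -/
theorem EffaceLoc.efface_res_coset [Smooth 𝓝 A] (f : H →* G) {U : Subgroup G} (hU : 𝓝.IsOpen U)
    (n : ℕ) (x : Hsm (𝓝.comap f) (ResMod f (IndMod (G ⧸ U) A)) (n + 1)) :
    ∃ N ∈ 𝓝.carrier, ∃ h : N ≤ U,
      Hsm.map (ResMod.map f (IndMod.pull A (cosetMap h))) (n + 1) x = 0 := by
  have := hU.finiteIndex
  have : Finite (G ⧸ U) := Subgroup.finite_quotient_of_finiteIndex
  have := SmoothSet.quotient 𝓝 hU
  obtain ⟨N, hN, hx⟩ := Hsm.efface_res 𝓝 f n x
  obtain ⟨N', hN', hle'⟩ := hU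
  obtain ⟨N'', hN'', hle⟩ := 𝓝.directed N hN N' hN'
  have hU'' : N'' ≤ U := (hle.trans inf_le_right).trans hle'
  have hx'' : Hsm.map (ResMod.map f (IndMod.const (G ⧸ N'') (IndMod (G ⧸ U) A))) (n + 1) x = 0 := by
    rw [Hsm.map_comp'
      (ψ := ResMod.map f (IndMod.pull (IndMod (G ⧸ U) A) (cosetMap (hle.trans inf_le_left))))
      (φ := ResMod.map f (IndMod.const (G ⧸ N) (IndMod (G ⧸ U) A))) (fun a => rfl), hx,
      _root_.map_zero]
  refine ⟨N'', hN'', hU'', ?_⟩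
  rw [Hsm.map_comp' (ψ := ResMod.map f (Efface.diag A (cosetMap hU'')))
    (φ := ResMod.map f (IndMod.const (G ⧸ N'') (IndMod (G ⧸ U) A))) (fun a => rfl), hx'',
    _root_.map_zero]

end generic

theorem efface_loc_coset {U : Subgroup GQ} (hU : lvlAll.IsOpen U) (q : Nat.Primes)
    (y : Hloc q (IndMod (GQ ⧸ U) Kx) 2) :
    ∃ N ∈ lvlAll.carrier, ∃ h : N ≤ U,
      Hsm.map (ResMod.map (ιv q) (IndMod.pull Kx (cosetMap h))) 2 y = 0 :=
  EffaceLoc.efface_res_coset lvlAll (ιv q) hU 1 y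

theorem efface_loc_coset_finite {U : Subgroup GQ} (hU : lvlAll.IsOpen U) (W : Subgroup GQ)
    (hW : lvlAll.IsOpen W) (y : ∀ q : Nat.Primes, Hloc q (IndMod (GQ ⧸ U) Kx) 2)
    (hfin : {q | y q ≠ 0}.Finite) :
    ∃ N ∈ lvlAll.carrier, N ≤ W ∧ ∃ h : N ≤ U,
      ∀ q, Hsm.map (ResMod.map (ιv q) (IndMod.pull Kx (cosetMap h))) 2 (y q) = 0 := by
  choose F hF hFU hFy using fun q => efface_loc_coset hU q (y q)
  obtain ⟨N₁, hN₁, hle₁⟩ := LevelSys.exists_le_of_finite hfin F fun q _ => hF q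
  obtain ⟨N₂, hN₂, hle₂⟩ := (hU.inf hW)
  obtain ⟨N, hN, hle⟩ := lvlAll.directed N₁ hN₁ N₂ hN₂
  have hNU : N ≤ U := (hle.trans inf_le_right).trans (hle₂.trans inf_le_left)
  refine ⟨N, hN, (hle.trans inf_le_right).trans (hle₂.trans inf_le_right), hNU, fun q => ?_⟩
  by_cases hq : y q = 0
  · rw [hq, _root_.map_zero]
  · exact EffaceLoc.pull_mono (ιv q) (hFU q) ((hle.trans inf_le_left).trans (hle₁ q hq)) 2 (y q)
      (hFy q)

end EffaceLoc

end Fermat.Agent.S55
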