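/-
S55 / block BR, file `BR/Descent.lean`: a `σ`-invariant class of `H²(K_X')` descends to `X`.
-/
import Fermat.Agent.S55.BR.Defs
import Fermat.Agent.S55.Coh.Cyclic

set_option autoImplicit false

namespace Fermat.Agent.S55

open Dict (invD)
open scoped Pointwise

/-! ## Descent : file `BR/Descent.lean` (a `σ`-invariant class descends) -/
section Descent

variable {X' X : Type} [MulAction GQ X'] [MulAction GQ X] [Finite X'] [SmoothSet lvlAll X']
  [Finite X] [SmoothSet lvlAll X] {u : X' →[GQ] X} {σ : X' →[GQ] X'} {m : ℕ}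

theorem exists_pull_eq_of_sigmaSub_eq_zero (hg : H90Glob) (h : CyclicCover u σ m)
    (x' : Hsm lvlAll (IndMod X' Kx) 2) (hx' : Hsm.map (IndMod.sigmaSub Kx σ) 2 x' = 0) :
    ∃ x : Hsm lvlAll (IndMod X Kx) 2, Hsm.map (IndMod.pull Kx u) 2 x = x' := by
  have F := h.fourTerm Kx
  have h1 : Hsm.map (GSub.range (IndMod.sigmaSub Kx σ)).inclG 2
      (Hsm.map (GSub.rangeRestrict (IndMod.sigmaSub Kx σ)) 2 x') = 0 := by
    rw [← Hsm.map_comp' (χ := IndMod.sigmaSub Kx σ) (fun f => rfl), hx']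
  obtain ⟨w, hw⟩ := (Hsm.exact_delta_map F.right 1 _).1 h1
  rw [hg X w, map_zero] at hw
  exact (Hsm.exact_map_map F.left 2 x').1 hw.symm

end Descent

end Fermat.Agent.S55
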