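/-
S55 / block BR : `exists_global_step` (B4 for one Kummer step): second inequality + reciprocity +
one nonsplit place.
-/
import Fermat.Agent.S55.BR.Defs
import Fermat.Agent.S55.Coh.Coset
import Fermat.Agent.S55.Coh.PPrimary
import Fermat.Agent.S55.BR.LocNat
import Fermat.Agent.S55.BR.H0
import Fermat.Agent.S55.BR.LocBrX
import Fermat.Agent.S55.BR.InvAt
import Fermat.Agent.S55.BR.OrbSum
import Fermat.Agent.S55.BR.Recip

set_option autoImplicit false

namespace Fermat.Agent.S55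

open Dict (invD)
open scoped Pointwise

/-! ## ExistStep : file `BR/ExistStep.lean` (B4 for one Kummer step) -/
section ExistStep

theorem ExistStep.self_mem_locOrb (q : Nat.Primes) {X : Type} [MulAction GQ X] (x : X) :
    x ∈ locOrb q x := ⟨1, by rw [map_one, one_smul]⟩

theorem ExistStep.nsmul_toQZ_inv (p : ℕ) (hp : p.Prime) : p • toQZ (1 / (p : ℚ)) = 0 := by
  rw [← map_nsmul, toQZ_eq_zero_iff]
  refine ⟨1, ?_⟩
  have : (p : ℚ) ≠ 0 := by exact_mod_cast hp.ne_zero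
  rw [nsmul_eq_mul]
  field_simp
  simp

theorem ExistStep.dvd_of_nsmul_toQZ_inv (p : ℕ) (hp : p.Prime) (j : ℕ)
    (h : j • toQZ (1 / (p : ℚ)) = 0) : p ∣ j := by
  rw [← map_nsmul, toQZ_eq_zero_iff] at h
  obtain ⟨n, hn⟩ := h
  have hp0 : (p : ℚ) ≠ 0 := by exact_mod_cast hp.ne_zero
  rw [nsmul_eq_mul] at hn
  have h1 : (n : ℚ) * p = j := by
    rw [hn]
    field_simp
  have h2 : n * (p : ℤ) = (j : ℤ) := by exact_mod_cast h1
  have h3 : (p : ℤ) ∣ (j : ℤ) := ⟨n, by rw [← h2, mul_comm]⟩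
  exact_mod_cast h3

/-- the total invariant of a class with a single nonzero orbit invariant -/
theorem ExistStep.invX_eq_invAt (inv : ∀ q : Nat.Primes, Hloc q Kx 2 →+ QZ) (q : Nat.Primes)
    {X : Type} [MulAction GQ X] [Finite X] (x₀ : X) (y : Hloc q (IndMod X Kx) 2)
    (h0 : ∀ x₁ : X, x₁ ∉ locOrb q x₀ → invAt inv q X x₁ y = 0) :
    invTot inv q X y = invAt inv q X x₀ y := by
  obtain ⟨R, hR⟩ := exists_orbit_representatives q X
  rw [invX_eq_sum_invAt inv q R hR]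
  obtain ⟨r₀, ⟨hr₀, hx₀⟩, huniq⟩ := hR x₀
  rw [Finset.sum_eq_single r₀]
  · exact (invAt_congr inv q hx₀ y).symm
  · intro r hr hne
    apply h0
    intro hmem
    apply hne
    apply huniq
    refine ⟨hr, ?_⟩
    rw [locOrb_eq_of_mem hmem]
    exact ExistStep.self_mem_locOrb q x₀
  · intro hn
    exact absurd hr₀ hn

variable {X' X : Type} [MulAction GQ X'] [MulAction GQ X] [Finite X'] [SmoothSet lvlAll X']
  {u : X' →[GQ] X} {σ : X' →[GQ] X'} {m : ℕ}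

/-- the local symbol of `j • c' + a + N(f)` -/
theorem ExistStep.thetaLoc_decomp (hl : H90Loc) (q : Nat.Primes) (hc : CyclicCover u σ m)
    (c c' : invD (Dv q) X) (a : invD ⊤ X) (j : ℕ) (f : IndMod X' Kx) (hf : f ∈ invD (Dv q) X')
    (h : (c : IndMod X Kx) = j • (c' : IndMod X Kx) + a + IndMod.push Kx u f) :
    thetaLoc q hc 0 (H0l q X c) =
      j • thetaLoc q hc 0 (H0l q X c') +
        locAll (IndMod X Kx) q 2 (hc.theta lvlAll Kx 0 (H0g X a)) := by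
  have ha' : (a : IndMod X Kx) ∈ invD (Dv q) X := invD_top_le (Dv q) a.2
  have hpf : IndMod.push Kx u f ∈ invD (Dv q) X := map_mem_invD (Dv q) (IndMod.push Kx u) hf
  have hdec : c = j • c' + ⟨a, ha'⟩ + ⟨IndMod.push Kx u f, hpf⟩ := Subtype.ext h
  rw [hdec, map_add, map_add, map_add, map_add, map_nsmul, map_nsmul,
    (thetaLoc_H0l_eq_zero_iff hl q hc ⟨IndMod.push Kx u f, hpf⟩).2 ⟨f, hf, rfl⟩, add_zero,
    locAll_theta, locAll_H0g q a ⟨a, ha'⟩ rfl]

theorem ExistStep.thetaLoc_decomp0 (hl : H90Loc) (q : Nat.Primes) (hc : CyclicCover u σ m)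
    (c : invD (Dv q) X) (a : invD ⊤ X) (f : IndMod X' Kx) (hf : f ∈ invD (Dv q) X')
    (h : (c : IndMod X Kx) = a + IndMod.push Kx u f) :
    thetaLoc q hc 0 (H0l q X c) =
      locAll (IndMod X Kx) q 2 (hc.theta lvlAll Kx 0 (H0g X a)) := by
  rw [ExistStep.thetaLoc_decomp hl q hc c 0 a 0 f hf (by rw [zero_nsmul, zero_add]; exact h),
    zero_nsmul]
  exact zero_add _

theorem exists_global_step {p : ℕ} [Fact p.Prime] (hp2 : p ≠ 2) (I : BRInput p)
    {U' U : Subgroup GQ} (h : KStep p U' U) [Finite (GQ ⧸ U)]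
    (y : ∀ q : Nat.Primes, Hloc q (IndMod (GQ ⧸ U) Kx) 2) (hy : Adm p I.inv (GQ ⧸ U) y)
    (hres : ∀ q, Hsm.map (ResMod.map (ιv q) (IndMod.pull Kx (cosetMap h.le))) 2 (y q) = 0) :
    ∃ x : Hsm lvlAll (IndMod (GQ ⧸ U) Kx) 2, p • x = 0 ∧
      (∀ q, locAll (IndMod (GQ ⧸ U) Kx) q 2 x = y q) ∧
      Hsm.map (IndMod.pull Kx (cosetMap h.le)) 2 x = 0 := by
  have hp : p.Prime := Fact.out
  have : Finite (GQ ⧸ U') := finite_coset h.isOpen
  have : SmoothSet lvlAll (GQ ⧸ U') := smoothSet_coset h.isOpen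
  have : SmoothSet lvlAll (GQ ⧸ U) := smoothSet_coset (h.isOpen.mono h.le)
  obtain ⟨s, hsU, hs, hc⟩ := exists_cyclicCover_coset_prime hp h.le h.norm h.idx
  -- step 1 : the local classes are symbols
  have hβ : ∀ q, ∃ β : Hloc q (IndMod (GQ ⧸ U) Kx) 0, thetaLoc q hc 0 β = y q ∧
      (y q = 0 → β = 0) := by
    intro q
    by_cases h0 : y q = 0
    · exact ⟨0, by rw [map_zero, h0], fun _ => rfl⟩
    · obtain ⟨β, hβ⟩ := (exists_thetaLoc_eq_iff I.h90l q hc (y q)).2 (hres q)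
      exact ⟨β, hβ, fun h1 => absurd h1 h0⟩
  choose β hβ1 hβ2 using hβ
  set B : ∀ q, invD (Dv q) (GQ ⧸ U) := fun q => (H0l q (GQ ⧸ U)).symm (β q) with hB
  have hBy : ∀ q, thetaLoc q hc 0 (H0l q (GQ ⧸ U) (B q)) = y q := by
    intro q
    rw [hB]
    simp only [AddEquiv.apply_symm_apply]
    exact hβ1 q
  have hBfin : {q | ((B q : invD (Dv q) (GQ ⧸ U)) : IndMod (GQ ⧸ U) Kx) ≠ 0}.Finite := by
    refine hy.fin.subset ?_
    intro q hq h0
    apply hq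
    show (((H0l q (GQ ⧸ U)).symm (β q) : invD (Dv q) (GQ ⧸ U)) : IndMod (GQ ⧸ U) Kx) = 0
    rw [hβ2 q h0, map_zero]
    rfl
  -- step 2 : a class with invariant `1 / p` at one nonsplit place
  obtain ⟨q₀, -, x', d, hd, hne, hu⟩ := I.nonsplit U' U h ∅
  have hcp : toQZ (1 / (p : ℚ)) ∈ pPrimary p QZ :=
    ⟨1, by rw [pow_one]; exact ExistStep.nsmul_toQZ_inv p hp⟩
  obtain ⟨y', hy'prim, hy'inv, hy'other⟩ :=
    locBr_exists (I.locBr q₀) (GQ ⧸ U) (cosetMap h.le x') _ hcp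
  have hy'pull : Hsm.map (ResMod.map (ιv q₀) (IndMod.pull Kx (cosetMap h.le))) 2 y' = 0 := by
    apply locBr_ext (I.locBr q₀) (GQ ⧸ U') _ (map_mem_pPrimary _ hy'prim)
    intro z'
    rw [invAt_pull]
    by_cases hz : cosetMap h.le z' ∈ locOrb q₀ (cosetMap h.le x')
    · rw [locDeg_eq_of_moved hp hc q₀ x' d hd hne hu z' hz, invAt_congr I.inv q₀ hz, hy'inv]
      exact ExistStep.nsmul_toQZ_inv p hp
    · rw [hy'other _ hz, smul_zero]
  obtain ⟨β', hβ'⟩ := (exists_thetaLoc_eq_iff I.h90l q₀ hc y').2 hy'pull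
  have hy'X : invTot I.inv q₀ (GQ ⧸ U) y' = toQZ (1 / (p : ℚ)) := by
    rw [ExistStep.invX_eq_invAt I.inv q₀ (cosetMap h.le x') y' hy'other, hy'inv]
  classical
  set b' : Nat.Primes → IndMod (GQ ⧸ U) Kx := fun q =>
    if q = q₀ then (((H0l q₀ (GQ ⧸ U)).symm β' : invD (Dv q₀) (GQ ⧸ U)) : IndMod (GQ ⧸ U) Kx)
    else 0 with hb'def
  have hb'mem : ∀ q, b' q ∈ invD (Dv q) (GQ ⧸ U) := by
    intro q
    by_cases hq : q = q₀
    · subst hq
      simp only [hb'def, if_true]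
      exact ((H0l q (GQ ⧸ U)).symm β').2
    · simp only [hb'def, if_neg hq]
      exact zero_mem _
  set Y' : ∀ q, Hloc q (IndMod (GQ ⧸ U) Kx) 2 := fun q =>
    thetaLoc q hc 0 (H0l q (GQ ⧸ U) ⟨b' q, hb'mem q⟩) with hY'def
  have hY'q₀ : Y' q₀ = y' := by
    have : (⟨b' q₀, hb'mem q₀⟩ : invD (Dv q₀) (GQ ⧸ U)) = (H0l q₀ (GQ ⧸ U)).symm β' :=
      Subtype.ext (by simp only [hb'def, if_true])
    simp only [hY'def]
    rw [this, AddEquiv.apply_symm_apply, hβ']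
  have hY'ne : ∀ q, q ≠ q₀ → Y' q = 0 := by
    intro q hq
    have : (⟨b' q, hb'mem q⟩ : invD (Dv q) (GQ ⧸ U)) = 0 :=
      Subtype.ext (by simp only [hb'def, if_neg hq]; rfl)
    simp only [hY'def]
    rw [this, map_zero, map_zero]
  have hb'fin : {q | b' q ≠ 0}.Finite := by
    refine (Set.finite_singleton q₀).subset ?_
    intro q hq
    by_contra hne'
    apply hq
    simp only [hb'def]
    rw [if_neg (show ¬ q = q₀ from hne')]
  have hsumY' : ∀ j : ℕ, ∑ᶠ q : Nat.Primes, j • invTot I.inv q (GQ ⧸ U) (Y' q) =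
      j • toQZ (1 / (p : ℚ)) := by
    intro j
    rw [finsum_eq_single _ q₀, hY'q₀, hy'X]
    intro q hq
    rw [hY'ne q hq, map_zero, smul_zero]
  have hsuppY' : ∀ j : ℕ,
      (Function.support fun q : Nat.Primes => j • invTot I.inv q (GQ ⧸ U) (Y' q)).Finite := by
    intro j
    refine (Set.finite_singleton q₀).subset ?_
    intro q hq
    by_contra hne'
    apply hq
    show j • invTot I.inv q (GQ ⧸ U) (Y' q) = 0
    rw [hY'ne q hne', map_zero, smul_zero]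
  -- step 3 : reciprocity for symbols of global elements
  have hrec : ∀ a : invD ⊤ (GQ ⧸ U), ∑ᶠ q : Nat.Primes, invTot I.inv q (GQ ⧸ U)
      (locAll (IndMod (GQ ⧸ U) Kx) q 2 (hc.theta lvlAll Kx 0 (H0g (GQ ⧸ U) a))) = 0 := by
    intro a
    apply reciprocity hp2 I
    exact ⟨1, by rw [pow_one]; exact CyclicCover.nsmul_theta lvlAll Kx hc 0 _⟩
  have hc0 : toQZ (1 / (p : ℚ)) ≠ 0 := by
    intro h0
    have := ExistStep.dvd_of_nsmul_toQZ_inv p hp 1 (by rw [one_smul]; exact h0)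
    exact hp.one_lt.ne' (Nat.dvd_one.1 this)
  have hnot : ¬ ∃ a ∈ invD ⊤ (GQ ⧸ U), ∀ q, ∃ f ∈ invD (Dv q) (GQ ⧸ U'),
      b' q = a + IndMod.push Kx (cosetMap h.le) f := by
    rintro ⟨a, ha, hf⟩
    apply hc0
    rw [← one_smul ℕ (toQZ (1 / (p : ℚ))), ← hsumY' 1, ← hrec ⟨a, ha⟩]
    apply finsum_congr
    intro q
    obtain ⟨f, hf1, hf2⟩ := hf q
    rw [one_smul, ← ExistStep.thetaLoc_decomp0 I.h90l q hc ⟨b' q, hb'mem q⟩ ⟨a, ha⟩ f hf1 hf2]
  -- step 4 : the second inequality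
  obtain ⟨j, a, ha, hf⟩ := I.si U' U h (fun q => (B q : IndMod (GQ ⧸ U) Kx)) b'
    (fun q => (B q).2) hb'mem hBfin hb'fin hnot
  set x := hc.theta lvlAll Kx 0 (H0g (GQ ⧸ U) ⟨a, ha⟩) with hx
  have hdec : ∀ q, y q = j • Y' q + locAll (IndMod (GQ ⧸ U) Kx) q 2 x := by
    intro q
    obtain ⟨f, hf1, hf2⟩ := hf q
    rw [← hBy q]
    exact ExistStep.thetaLoc_decomp I.h90l q hc (B q) ⟨b' q, hb'mem q⟩ ⟨a, ha⟩ j f hf1 hf2
  have hj : p ∣ j := by
    apply ExistStep.dvd_of_nsmul_toQZ_inv p hp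
    have h1 : ∑ᶠ q : Nat.Primes, invTot I.inv q (GQ ⧸ U) (locAll (IndMod (GQ ⧸ U) Kx) q 2 x) =
        ∑ᶠ q : Nat.Primes, (invTot I.inv q (GQ ⧸ U) (y q) -
          j • invTot I.inv q (GQ ⧸ U) (Y' q)) := by
      apply finsum_congr
      intro q
      rw [hdec q, map_add, map_nsmul, add_sub_cancel_left]
    have hsuppy : (Function.support fun q : Nat.Primes => invTot I.inv q (GQ ⧸ U) (y q)).Finite := by
      refine hy.fin.subset ?_
      intro q hq h0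
      apply hq
      show invTot I.inv q (GQ ⧸ U) (y q) = 0
      rw [h0, map_zero]
    rw [hrec ⟨a, ha⟩, finsum_sub_distrib hsuppy (hsuppY' j), hy.sum, hsumY' j, zero_sub] at h1
    exact neg_eq_zero.1 h1.symm
  refine ⟨x, CyclicCover.nsmul_theta lvlAll Kx hc 0 _, ?_, CyclicCover.pull_theta lvlAll Kx hc 0 _⟩
  intro q
  obtain ⟨k, rfl⟩ := hj
  rw [hdec q, mul_comm, mul_smul]
  have : p • Y' q = 0 := nsmul_thetaLoc q hc 0 _
  rw [this, smul_zero, zero_add]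

end ExistStep

end Fermat.Agent.S55
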