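/-
S55 / block BR : B4 along a chain of Kummer steps.   Owner: helper117.
-/
import Fermat.Agent.S55.BR.Defs
import Fermat.Agent.S55.Coh.Coset
import Fermat.Agent.S55.Coh.Cyclic
import Fermat.Agent.S55.Coh.IndApi
import Fermat.Agent.S55.Coh.PPrimary
import Fermat.Agent.S55.BR.ExistStep
import Fermat.Agent.S55.BR.Descent
import Fermat.Agent.S55.BR.Hasse
import Fermat.Agent.S55.BR.Adm
import Fermat.Agent.S55.BR.LocNat
import Fermat.Agent.S55.BR.MuChain

set_option autoImplicit false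

namespace Fermat.Agent.S55

open Dict (invD)
open scoped Pointwise

/-! ## ExistChain : file `BR/ExistChain.lean` (B4 along a chain) -/
section ExistChain

/-- `ResMod.map` of a pointwise identity is a pointwise identity. -/
theorem ExistChain.resMap_id {G H : Type} [Group G] [Group H] (f : H →* G) {A : Type}
    [AddCommGroup A] [DistribMulAction G A] {φ : A →+[G] A} (h : ∀ a, φ a = a)
    (a : ResMod f A) : ResMod.map f φ a = a := by
  obtain ⟨b, rfl⟩ := (ResMod.toRes f).surjective a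
  rw [ResMod.map_toRes, h]

/-- `ResMod.map` of a pointwise composition. -/
theorem ExistChain.resMap_comp {G H : Type} [Group G] [Group H] (f : H →* G) {A B C : Type}
    [AddCommGroup A] [DistribMulAction G A] [AddCommGroup B] [DistribMulAction G B]
    [AddCommGroup C] [DistribMulAction G C] {ψ : B →+[G] C} {φ : A →+[G] B} {χ : A →+[G] C}
    (h : ∀ a, χ a = ψ (φ a)) (a : ResMod f A) :
    ResMod.map f χ a = ResMod.map f ψ (ResMod.map f φ a) := by
  obtain ⟨b, rfl⟩ := (ResMod.toRes f).surjective a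
  rw [ResMod.map_toRes, ResMod.map_toRes, ResMod.map_toRes, h]

/-- `ResMod.map` of a pointwise zero composition. -/
theorem ExistChain.resMap_comp_zero {G H : Type} [Group G] [Group H] (f : H →* G) {A B C : Type}
    [AddCommGroup A] [DistribMulAction G A] [AddCommGroup B] [DistribMulAction G B]
    [AddCommGroup C] [DistribMulAction G C] {ψ : B →+[G] C} {φ : A →+[G] B}
    (h : ∀ a, ψ (φ a) = 0) (a : ResMod f A) :
    ((ResMod.map f ψ).comp (ResMod.map f φ)) a = 0 := by
  obtain ⟨b, rfl⟩ := (ResMod.toRes f).surjective a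
  show ResMod.map f ψ (ResMod.map f φ (ResMod.toRes f b)) = 0
  rw [ResMod.map_toRes, ResMod.map_toRes, h, map_zero]

/-- transitivity of the pull-backs along coset maps. -/
theorem ExistChain.pull_trans {N V U : Subgroup GQ} (h₁ : N ≤ V) (h₂ : V ≤ U) (h₃ : N ≤ U)
    (f : IndMod (GQ ⧸ U) Kx) :
    IndMod.pull Kx (cosetMap h₃) f = IndMod.pull Kx (cosetMap h₁) (IndMod.pull Kx (cosetMap h₂) f) := by
  ext x
  rw [IndMod.pull_apply, IndMod.pull_apply, IndMod.pull_apply, cosetMap_cosetMap]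

theorem ExistChain.aux {p : ℕ} [Fact p.Prime] (hp2 : p ≠ 2) (I : BRInput p)
    {N U : Subgroup GQ} (h : PChain p N U) : lvlAll.IsOpen N →
    ActsTrivially U (Mu p) → ∀ (hle : N ≤ U) (_ : Finite (GQ ⧸ U))
    (y : ∀ q : Nat.Primes, Hloc q (IndMod (GQ ⧸ U) Kx) 2), Adm p I.inv (GQ ⧸ U) y →
    (∀ q, Hsm.map (ResMod.map (ιv q) (IndMod.pull Kx (cosetMap hle))) 2 (y q) = 0) →
    ∃ x ∈ pPrimary p (Hsm lvlAll (IndMod (GQ ⧸ U) Kx) 2),
      (∀ q, locAll (IndMod (GQ ⧸ U) Kx) q 2 x = y q) ∧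
      Hsm.map (IndMod.pull Kx (cosetMap hle)) 2 x = 0 := by
  have hp : p.Prime := Fact.out
  induction h with
  | refl =>
    intro _ _ hle _ y _ hres
    have hid : ∀ f : IndMod (GQ ⧸ N) Kx, IndMod.pull Kx (cosetMap hle) f = f := by
      intro f
      ext x
      rw [IndMod.pull_apply, cosetMap_refl]
    refine ⟨0, (pPrimary p _).zero_mem, fun q => ?_, map_zero _⟩
    have := hres q
    rw [Hsm.map_id' (ExistChain.resMap_id (ιv q) hid)] at this
    rw [map_zero, this]
  | @step V U h hVU hidx hnorm ih =>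
    intro hN hμ hle _ y hy hres
    have hNV : N ≤ V := h.le
    have hVo : lvlAll.IsOpen V := hN.mono hNV
    have hUo : lvlAll.IsOpen U := hVo.mono hVU
    have _ : Finite (GQ ⧸ V) := finite_coset hVo
    have _ : SmoothSet lvlAll (GQ ⧸ V) := smoothSet_coset hVo
    have _ : SmoothSet lvlAll (GQ ⧸ U) := smoothSet_coset hUo
    have hμV : ActsTrivially V (Mu p) := fun u hu => hμ u (hVU hu)
    have K : KStep p V U := ⟨hVU, hVo, hμ, hnorm, hidx⟩
    obtain ⟨s, hsU, hs, hc⟩ := exists_cyclicCover_coset_prime hp hVU hnorm hidx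
    -- restriction to `V`
    have hy₁ := hy.pull (cosetMap hVU) p hc.card_fiber
    have hres₁ : ∀ q, Hsm.map (ResMod.map (ιv q) (IndMod.pull Kx (cosetMap hNV))) 2
        (Hsm.map (ResMod.map (ιv q) (IndMod.pull Kx (cosetMap hVU))) 2 (y q)) = 0 := by
      intro q
      rw [← Hsm.map_comp' (ExistChain.resMap_comp (ιv q) (ExistChain.pull_trans hNV hVU hle))]
      exact hres q
    obtain ⟨x', hx'p, hx'loc, hx'N⟩ := ih hN hμV hNV inferInstance _ hy₁ hres₁
    -- `x'` is invariant under the deck transformation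
    have hz : Hsm.map (IndMod.sigmaSub Kx (cosetRight V s hs)) 2 x' = 0 := by
      refine hasse_coset hp I hVo _ (map_mem_pPrimary _ hx'p) (fun q => ?_)
      rw [locAll_map, hx'loc, ← Hsm.map_comp]
      exact Hsm.map_zero' (ExistChain.resMap_comp_zero (ιv q) hc.sigmaSub_pull) 2 _
    obtain ⟨x₁, hx₁⟩ := exists_pull_eq_of_sigmaSub_eq_zero I.h90g hc x' hz
    have hx₁p : x₁ ∈ pPrimary p (Hsm lvlAll (IndMod (GQ ⧸ U) Kx) 2) := by
      obtain ⟨e, he⟩ := hx'p
      refine ⟨e + 1, ?_⟩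
      have h1 := Hsm.map_push_pull (𝓝 := lvlAll) (A := Kx) (cosetMap hVU) p hc.card_fiber 2
        (p ^ e • x₁)
      rw [map_nsmul, hx₁, he, map_zero] at h1
      rw [pow_succ, mul_comm, mul_smul]
      exact h1.symm
    -- the difference
    have hy₂ := hy.sub (adm_locAll hp2 I x₁ hx₁p)
    have hres₂ : ∀ q, Hsm.map (ResMod.map (ιv q) (IndMod.pull Kx (cosetMap K.le))) 2
        (y q - locAll (IndMod (GQ ⧸ U) Kx) q 2 x₁) = 0 := by
      intro q
      rw [map_sub, ← locAll_map, hx₁, hx'loc, sub_self]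
    obtain ⟨x₂, hx₂p, hx₂loc, hx₂V⟩ := exists_global_step hp2 I K _ hy₂ hres₂
    refine ⟨x₁ + x₂, (pPrimary p _).add_mem hx₁p ⟨1, by rw [pow_one]; exact hx₂p⟩,
      fun q => ?_, ?_⟩
    · rw [map_add, hx₂loc, add_sub_cancel]
    · rw [Hsm.map_comp' (ExistChain.pull_trans hNV hVU hle), map_add, hx₁, hx₂V, add_zero, hx'N]

theorem exists_global_chain {p : ℕ} [Fact p.Prime] (hp2 : p ≠ 2) (I : BRInput p)
    {N U : Subgroup GQ} (h : PChain p N U) (hN : lvlAll.IsOpen N)
    (hμ : ActsTrivially U (Mu p)) (hle : N ≤ U) [Finite (GQ ⧸ U)]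
    (y : ∀ q : Nat.Primes, Hloc q (IndMod (GQ ⧸ U) Kx) 2) (hy : Adm p I.inv (GQ ⧸ U) y)
    (hres : ∀ q, Hsm.map (ResMod.map (ιv q) (IndMod.pull Kx (cosetMap hle))) 2 (y q) = 0) :
    ∃ x ∈ pPrimary p (Hsm lvlAll (IndMod (GQ ⧸ U) Kx) 2),
      (∀ q, locAll (IndMod (GQ ⧸ U) Kx) q 2 x = y q) ∧
      Hsm.map (IndMod.pull Kx (cosetMap hle)) 2 x = 0 :=
  ExistChain.aux hp2 I h hN hμ hle inferInstance y hy hres

end ExistChain

end Fermat.Agent.S55
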