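/-
S55 / block BR : PROOF of `BR/Exist.lean` (B4), parked in WIP until its imports (ExistChain, EffaceLoc,
MuChain, Adm) are landed sorry-free; then: move to `BR/Exist.lean` and change the four import lines.
-/
import Fermat.Agent.S55.BR.Defs
import Fermat.Agent.S55.Coh.SylowChain
import Fermat.Agent.S55.Coh.ResApi
import Fermat.Agent.S55.BR.ExistChain
import Fermat.Agent.S55.BR.EffaceLoc
import Fermat.Agent.S55.BR.MuChain
import Fermat.Agent.S55.BR.Adm

set_option autoImplicit false

namespace Fermat.Agent.S55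

open Dict (invD)
open scoped Pointwise

/-! ## Exist : file `BR/Exist.lean` (B4) -/
section Exist

/-- naturality of the localisation in the coefficients (local copy) -/
theorem exist_locAll_map {A B : Type} [AddCommGroup A] [DistribMulAction GQ A] [AddCommGroup B]
    [DistribMulAction GQ B] (q : Nat.Primes) (φ : A →+[GQ] B) (n : ℕ) (x : Hsm lvlAll A n) :
    locAll B q n (Hsm.map φ n x) = Hsm.map (ResMod.map (ιv q) φ) n (locAll A q n x) :=
  Hsm.res_map (ιv q) (LevelSys.Le.refl _) φ n x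

/-- local version of `cor ∘ res = degree` -/
theorem exist_map_push_pull_loc (q : Nat.Primes) {X Y : Type} [MulAction GQ X] [MulAction GQ Y]
    [Finite Y] (u : Y →[GQ] X) (m : ℕ) (hm : ∀ x, Nat.card {y // u y = x} = m) (n : ℕ)
    (x : Hloc q (IndMod X Kx) n) :
    Hsm.map (ResMod.map (ιv q) (IndMod.push Kx u)) n
      (Hsm.map (ResMod.map (ιv q) (IndMod.pull Kx u)) n x) = m • x := by
  rw [← Hsm.map_comp]
  refine Hsm.map_nsmul' m (fun f => ?_) n x
  show ResMod.toRes (ιv q) (IndMod.push Kx u (IndMod.pull Kx u ((ResMod.toRes (ιv q)).symm f))) = _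
  rw [IndMod.push_pull u m hm, map_nsmul, AddEquiv.apply_symm_apply]

/-- local version of the functoriality of the restriction maps between coset spaces -/
theorem exist_pull_pull_loc (q : Nat.Primes) {U'' U' U : Subgroup GQ} (h' : U'' ≤ U') (h : U' ≤ U)
    (h'' : U'' ≤ U) (n : ℕ) (x : Hloc q (IndMod (GQ ⧸ U) Kx) n) :
    Hsm.map (ResMod.map (ιv q) (IndMod.pull Kx (cosetMap h'))) n
      (Hsm.map (ResMod.map (ιv q) (IndMod.pull Kx (cosetMap h))) n x) =
      Hsm.map (ResMod.map (ιv q) (IndMod.pull Kx (cosetMap h''))) n x := by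
  refine (Hsm.map_comp' (fun f => ?_) n x).symm
  show ResMod.toRes (ιv q) (IndMod.pull Kx (cosetMap h'') ((ResMod.toRes (ιv q)).symm f)) =
    ResMod.toRes (ιv q) (IndMod.pull Kx (cosetMap h')
      (IndMod.pull Kx (cosetMap h) ((ResMod.toRes (ιv q)).symm f)))
  congr 1
  ext y
  induction y using QuotientGroup.induction_on with
  | H a => rfl

/-- **B4** : existence of global classes with prescribed local components. -/
theorem exists_global {p : ℕ} [Fact p.Prime] (hp2 : p ≠ 2) (I : BRInput p) {U : Subgroup GQ}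
    (hU : lvlAll.IsOpen U) (hμ : ActsTrivially U (Mu p)) [Finite (GQ ⧸ U)]
    (y : ∀ q : Nat.Primes, Hloc q (IndMod (GQ ⧸ U) Kx) 2) (hy : Adm p I.inv (GQ ⧸ U) y) :
    ∃ x ∈ pPrimary p (Hsm lvlAll (IndMod (GQ ⧸ U) Kx) 2),
      ∀ q, locAll (IndMod (GQ ⧸ U) Kx) q 2 x = y q := by
  have hp : p.Prime := Fact.out
  obtain ⟨N, hN, -, hNU, hkill⟩ := efface_loc_coset_finite hU U hU y hy.fin
  obtain ⟨V, hchain, hVU, hcop⟩ := exists_pChain hp hN hNU
  have hNV : N ≤ V := hchain.le
  have hNo : lvlAll.IsOpen N := lvlAll.isOpen_of_mem hN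
  have hVo : lvlAll.IsOpen V := hNo.mono hNV
  have : Finite (GQ ⧸ V) := finite_coset hVo
  set n : ℕ := V.relIndex U with hn
  have hfib : ∀ x : GQ ⧸ U, Nat.card {z // cosetMap hVU z = x} = n := sylowChain_card_fiber hVU
  have hyV := hy.pull (cosetMap hVU) n hfib
  have hμV : ActsTrivially V (Mu p) := fun u hu a => hμ u (hVU hu) a
  obtain ⟨xV, hxV, hloc, -⟩ := exists_global_chain hp2 I hchain hNo hμV hNV _ hyV
    (fun q => by rw [exist_pull_pull_loc q hNV hVU hNU, hkill q])
  obtain ⟨e, he⟩ := hxV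
  -- the localisations of the corestriction
  have hpush : ∀ q, locAll (IndMod (GQ ⧸ U) Kx) q 2
      (Hsm.map (IndMod.push Kx (cosetMap hVU)) 2 xV) = n • y q := by
    intro q
    rw [exist_locAll_map, hloc q, exist_map_push_pull_loc q (cosetMap hVU) n hfib]
  -- a uniform exponent
  have hexp : ∀ q, p ^ e • y q = 0 := by
    intro q
    have h1 : p ^ e • y q ∈ pPrimary p (Hloc q (IndMod (GQ ⧸ U) Kx) 2) :=
      AddSubgroup.nsmul_mem _ (hy.prim q) _
    refine eq_zero_of_mem_pPrimary_of_coprime hcop h1 ?_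
    rw [smul_comm, ← hpush q, ← map_nsmul, ← map_nsmul, he, map_zero, map_zero]
  -- an inverse of `n` modulo `p ^ e`
  obtain ⟨a, b, hab⟩ := Nat.isCoprime_iff_coprime.mpr (hcop.pow_right e)
  refine ⟨a • Hsm.map (IndMod.push Kx (cosetMap hVU)) 2 xV, ?_, fun q => ?_⟩
  · exact AddSubgroup.zsmul_mem _ (map_mem_pPrimary _ ⟨e, he⟩) _
  · rw [map_zsmul, hpush q]
    have h2 : ((a * (n : ℤ) + b * ((p ^ e : ℕ) : ℤ)) : ℤ) • y q = a • n • y q := by
      rw [add_smul, mul_smul, mul_smul, natCast_zsmul, natCast_zsmul, hexp q, smul_zero, add_zero]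
    rw [← h2, hab, one_smul]

end Exist

end Fermat.Agent.S55
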