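import Fermat.Agent.S55.BR.Cyc
import Fermat.Agent.S55.BR.CycInertia
import Fermat.Agent.Lib.Frobenius

set_option autoImplicit false

namespace Fermat.Agent.S55.BR

local notation "Qbar" => AlgebraicClosure ℚ
local notation "GQ" => (AlgebraicClosure ℚ ≃ₐ[ℚ] AlgebraicClosure ℚ)

namespace LocalDegree

/-- the order of `q ^ j` modulo `P` is large when `P` is large. -/
theorem le_orderOf_of_pow_le {P q j B : ℕ} [NeZero P] (hq : 1 < q) (hj : 0 < j)
    (u : (ZMod P)ˣ) (hu : (u : ZMod P) = (q : ZMod P) ^ j) (hP : q ^ (j * B) ≤ P) :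
    B ≤ orderOf u := by
  by_contra hcon
  have hlt : orderOf u < B := not_le.mp hcon
  have he : 0 < orderOf u := orderOf_pos u
  have h1 : ((q ^ (j * orderOf u) : ℕ) : ZMod P) = ((1 : ℕ) : ZMod P) := by
    have h2 : (u : ZMod P) ^ orderOf u = 1 := by
      rw [← Units.val_pow_eq_pow_val, pow_orderOf_eq_one, Units.val_one]
    rw [hu, ← pow_mul] at h2
    push_cast
    exact h2
  rw [ZMod.natCast_eq_natCast_iff] at h1
  have h3 : 1 < q ^ (j * orderOf u) := Nat.one_lt_pow (Nat.mul_pos hj he).ne' hq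
  have h4 : P ∣ q ^ (j * orderOf u) - 1 := (Nat.modEq_iff_dvd' h3.le).1 h1.symm
  have h5 : P ≤ q ^ (j * orderOf u) - 1 := Nat.le_of_dvd (by omega) h4
  have h6 : q ^ (j * orderOf u) ≤ q ^ (j * B) :=
    Nat.pow_le_pow_right (by omega) (Nat.mul_le_mul_left j hlt.le)
  omega

/-- the image of a subgroup of relative index `≤ n` under a map which is onto on the big group. -/
theorem card_le_card_map_mul {G G' : Type*} [Group G] [Group G'] [Finite G'] (f : G →* G')
    (D D' : Subgroup G) (hle : D' ≤ D) (h0 : D'.relIndex D ≠ 0) {n : ℕ} (hn : D'.relIndex D ≤ n)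
    (hsurj : ∀ u : G', ∃ g ∈ D, f g = u) :
    Nat.card G' ≤ Nat.card (D'.map f) * n := by
  have hs : Function.Surjective (f.comp D.subtype) := fun u => by
    obtain ⟨g, hg, rfl⟩ := hsurj u
    exact ⟨⟨g, hg⟩, rfl⟩
  have h1 : ((D'.subgroupOf D).map (f.comp D.subtype)).index ∣ (D'.subgroupOf D).index :=
    Subgroup.index_map_dvd _ hs
  have h2 : (D'.subgroupOf D).map (f.comp D.subtype) = D'.map f := by
    rw [← Subgroup.map_map, Subgroup.subgroupOf_map_subtype, inf_eq_left.mpr hle]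
  rw [h2] at h1
  have h3 : (D'.map f).index ≤ n := (Nat.le_of_dvd (Nat.pos_of_ne_zero h0) h1).trans hn
  rw [← Subgroup.card_mul_index (D'.map f)]
  exact Nat.mul_le_mul_left _ h3

end LocalDegree

theorem exists_card_map_cycN_ge (p : ℕ) [Fact p.Prime] (q : ℕ) (hq : q.Prime)
    (A : ValuationSubring Qbar) (hA : A.LiesOverPrime q) (n k : ℕ) :
    ∃ N₀ : ℕ, ∀ N : ℕ, N₀ ≤ N → ∀ [NeZero (p ^ N)] (D' : Subgroup GQ),
      D' ≤ A.decompositionSubgroup ℚ → D'.relIndex (A.decompositionSubgroup ℚ) ≠ 0 →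
      D'.relIndex (A.decompositionSubgroup ℚ) ≤ n →
      p ^ k ≤ Nat.card (D'.map (cycN (p ^ N))) := by
  have hp : p.Prime := Fact.out
  by_cases hqp : q = p
  · subst hqp
    refine ⟨n + k + 1, fun N hN _ D' hle h0 hn => ?_⟩
    have hn0 : 0 < n := lt_of_lt_of_le (Nat.pos_of_ne_zero h0) hn
    have h1 := LocalDegree.card_le_card_map_mul (cycN (q ^ N)) (A.decompositionSubgroup ℚ) D' hle
      h0 hn (fun u => by
        obtain ⟨τ, hτ, hu⟩ := cycN_inertia_surjective q hq N A hA u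
        refine ⟨τ, ?_, hu⟩
        obtain ⟨t, -, rfl⟩ := hτ
        exact t.2)
    obtain ⟨N', rfl⟩ : ∃ N', N = N' + 1 := ⟨N - 1, by omega⟩
    have h2 : Nat.card (ZMod (q ^ (N' + 1)))ˣ = q ^ N' * (q - 1) := by
      rw [Nat.card_eq_fintype_card, ZMod.card_units_eq_totient, Nat.totient_prime_pow_succ hq]
    rw [h2] at h1
    have h3 : q ^ (n + k) ≤ q ^ N' := Nat.pow_le_pow_right hq.pos (by omega)
    have h4 : n < q ^ n := Nat.lt_pow_self hq.one_lt
    have h5 : q ^ k * n ≤ q ^ N' * (q - 1) := by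
      calc q ^ k * n ≤ q ^ k * q ^ n := Nat.mul_le_mul_left _ h4.le
        _ = q ^ (n + k) := by rw [pow_add, mul_comm]
        _ ≤ q ^ N' := h3
        _ ≤ q ^ N' * (q - 1) := Nat.le_mul_of_pos_right _ (by have := hq.two_le; omega)
    exact Nat.le_of_mul_le_mul_right (h5.trans h1) hn0
  · obtain ⟨φ, hφ⟩ := Fermat.Agent.Lib.Frobenius.exists_isFrobeniusAt A q hq hA
    refine ⟨q ^ (n.factorial * p ^ k), fun N hN _ D' hle h0 hn => ?_⟩
    have hmem : φ ^ n.factorial ∈ D' := by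
      have := Subgroup.pow_mem_of_relIndex_ne_zero_of_dvd h0 hφ.mem_decompositionSubgroup
        (n := n.factorial) (fun m hm hm' => Nat.dvd_factorial hm (hm'.trans hn))
      exact this.1
    have hndvd : ¬ q ∣ p ^ N := fun h =>
      hqp ((Nat.prime_dvd_prime_iff_eq hq hp).1 (hq.dvd_of_dvd_pow h))
    have hu : ((cycN (p ^ N) (φ ^ n.factorial) : (ZMod (p ^ N))ˣ) : ZMod (p ^ N)) =
        (q : ZMod (p ^ N)) ^ n.factorial := by
      rw [map_pow, Units.val_pow_eq_pow_val, cycN_frob (p ^ N) hq hndvd A hA hφ]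
    have h1 : p ^ k ≤ orderOf (cycN (p ^ N) (φ ^ n.factorial)) :=
      LocalDegree.le_orderOf_of_pow_le hq.one_lt (Nat.factorial_pos n) _ hu
        (hN.trans (Nat.lt_pow_self hp.one_lt).le)
    refine h1.trans (Subgroup.orderOf_le_card _ (Set.toFinite _) ?_)
    exact Subgroup.mem_map_of_mem _ hmem

end Fermat.Agent.S55.BR
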